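import Fermat.Agent.TwoAdic.Theta.DescentStep
import Fermat.Agent.LevelRaising.Main
import Fermat.Agent.Newforms.Newform
import Fermat.Agent.Newforms.Eigen

/-!
# From an eigenform of level `8m` to a newform of level dividing `2m`, modulo two

A normalised eigenform on `Γ₀(8m)` whose system of eigenvalues modulo a prime over two has some
eigenvalue equal to one at a prime not dividing `2m` is congruent, at all primes not dividing
`2m`, to a newform of level dividing `2m` (`m` odd and squarefree).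
-/

set_option autoImplicit false

noncomputable section

namespace Fermat.Agent.TwoAdic.Theta

open CongruenceSubgroup Function Fermat.Agent.Periods Fermat.Agent.LevelRaising ModularFormClass
open ModularCurve ModularCurve.Period
open scoped MatrixGroups BigOperators

/-- An eigenclass on `Γ₀(M)`, `M` squarefree, in characteristic two with an eigenvalue one gives an
eigenform. -/
theorem exists_eigenform_of_char_two_class {M : ℕ} [NeZero M] (hM : Squarefree M) (h2M : 2 ∣ M)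
    (B : ValuationSubring ℂ) [CharP (IsLocalRing.ResidueField B) 2]
    (φ : Additive (Gamma0 M) →+ IsLocalRing.ResidueField B) (hφ : φ ≠ 0)
    (θ : ℕ → IsLocalRing.ResidueField B)
    (heig : ∀ r (hr : r.Prime) (hrM : ¬ r ∣ M),
      homT hr hrM (IsLocalRing.ResidueField B) φ = θ r • φ)
    {p₀ : ℕ} (hp₀ : p₀.Prime) (hp₀M : ¬ p₀ ∣ M) (hθ : θ p₀ = 1) :
    ∃ g : CuspForm (Gamma0 M) 2, g.IsNormalizedEigenform ∧
      ∀ r, r.Prime → ¬ r ∣ M →
        ∃ lam : B, qCoeff g r = (lam : ℂ) ∧ IsLocalRing.residue B lam = θ r := by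
  classical
  have hp₀2 : p₀ ≠ 2 := fun e => hp₀M (e ▸ h2M)
  have hell : φ ∈ Gamma0.ellParHoms (Gamma0 M) (IsLocalRing.ResidueField B) :=
    Descent.mem_ellParHoms_of_eigen hM φ hp₀ hp₀2 hp₀M
      (by rw [heig p₀ hp₀ hp₀M, hθ, one_smul])
  -- lift to the valuation ring
  obtain ⟨γ, hγ⟩ := Gamma0.exists_ellParHoms_basis.{0} M
  choose b hb using fun i => IsLocalRing.residue_surjective (φ (Additive.ofMul (γ i)))
  obtain ⟨⟨k0, hk0ell⟩, hk0v⟩ := (hγ B).2 b
  have hred : redH B k0 = φ := by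
    have hmem : redH B k0 ∈ Gamma0.ellParHoms (Gamma0 M) (IsLocalRing.ResidueField B) :=
      fun x hx => by rw [redH_apply, hk0ell x hx, _root_.map_zero]
    refine congrArg Subtype.val ((hγ (IsLocalRing.ResidueField B)).1
      (a₁ := ⟨_, hmem⟩) (a₂ := ⟨φ, hell⟩) (funext fun i => ?_))
    show redH B k0 (Additive.ofMul (γ i)) = φ (Additive.ofMul (γ i))
    rw [redH_apply, show k0 (Additive.ofMul (γ i)) = b i from congrFun hk0v i, hb i]
  have hk0W : inclH B k0 ∈ parabolicHoms ℂ (Gamma0 M) ℂ := fun x hx => by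
    rw [inclH_apply, hk0ell x hx.le]
    rfl
  obtain ⟨v, hvW, hv0, hvlam⟩ := exists_congruent_eigenvector B (parabolicHoms ℂ (Gamma0 M) ℂ)
    (fun r hr hrM v hv => homT_mem_parabolicHoms hr hrM ℂ hv)
    (fun r hr hrM r' hr' hrM' v hv => by
      obtain ⟨g, g', rfl⟩ := exists_periodHomPair hv
      simp only [homT_periodHomPair]
      have hc := CuspForm.heckeTLin_comm (N := M) 2 hr hrM hr' hrM'
      rw [show CuspForm.heckeTLin 2 hr hrM (CuspForm.heckeTLin 2 hr' hrM' g) =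
          CuspForm.heckeTLin 2 hr' hrM' (CuspForm.heckeTLin 2 hr hrM g) from
          LinearMap.congr_fun hc g,
        show CuspForm.heckeTLin 2 hr hrM (CuspForm.heckeTLin 2 hr' hrM' g') =
          CuspForm.heckeTLin 2 hr' hrM' (CuspForm.heckeTLin 2 hr hrM g') from
          LinearMap.congr_fun hc g'])
    k0 hk0W (by rw [hred]; exact hφ) θ (fun r hr hrM => by rw [hred]; exact heig r hr hrM)
  choose lam hlam hlamθ using hvlam
  -- a form with these eigenvalues
  obtain ⟨g1, g2, rfl⟩ := exists_periodHomPair hvW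
  have hinj := periodHomPair_injective M
  let μ : ℕ → ℂ := fun r => if hr : r.Prime ∧ ¬ r ∣ M then (lam r hr.1 hr.2 : ℂ) else 0
  have hT : ∀ (r : ℕ) (hr : r.Prime) (hrM : ¬ r ∣ M),
      CuspForm.heckeTLin 2 hr hrM g1 = μ r • g1 ∧ CuspForm.heckeTLin 2 hr hrM g2 = μ r • g2 := by
    intro r hr hrM
    have e := hlam r hr hrM
    rw [homT_periodHomPair, ← _root_.map_smul, Prod.smul_mk] at e
    simp only [μ, dif_pos (And.intro hr hrM)]
    exact Prod.mk.injEq .. ▸ hinj e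
  obtain ⟨f, hf0, hfT⟩ : ∃ f : CuspForm (Gamma0 M) 2, f ≠ 0 ∧
      ∀ (r : ℕ) (hr : r.Prime) (hrM : ¬ r ∣ M), CuspForm.heckeTLin 2 hr hrM f = μ r • f := by
    by_cases h1 : g1 = 0
    · refine ⟨g2, fun h2 => hv0 ?_, fun r hr hrM => (hT r hr hrM).2⟩
      rw [h1, h2, ← Prod.zero_eq_mk, _root_.map_zero]
    · exact ⟨g1, h1, fun r hr hrM => (hT r hr hrM).1⟩
  obtain ⟨g, hg, hgr⟩ := Newforms.exists_eigenform_of_eigen hf0 (fun r => ¬ r ∣ M) μ
    fun r hr hrM => by rw [Newforms.hOp_eq_heckeTLin hr hrM]; exact hfT r hr hrM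
  exact ⟨g, hg, fun r hr hrM => ⟨lam r hr hrM,
    by rw [hgr r hr hrM]; simp only [μ, dif_pos (And.intro hr hrM)], hlamθ r hr hrM⟩⟩

/-- A normalised eigenform on `Γ₀(8m)` with residual system `a` modulo two is congruent to a
newform of level dividing `2m`. -/
theorem exists_newform_of_congruent {m : ℕ} (hm : Odd m) (hsq : Squarefree m) (a : ℕ → ZMod 2)
    (g : CuspForm (Gamma0 (8 * m)) 2) (hg : g.IsNormalizedEigenform)
    (𝔪 : Ideal (integralClosure ℤ ℂ)) (hmax : 𝔪.IsMaximal)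
    (h2 : (2 : integralClosure ℤ ℂ) ∈ 𝔪)
    (hcong : ∀ p : ℕ, p.Prime → ¬ p ∣ 2 * m → ∃ c : integralClosure ℤ ℂ,
      (c : ℂ) = qCoeff g p ∧ c - ((a p).val : integralClosure ℤ ℂ) ∈ 𝔪)
    (haux : ∃ p : ℕ, p.Prime ∧ ¬ p ∣ 2 * m ∧ a p = 1) :
    ∃ (L : ℕ) (g' : CuspForm (Gamma0 L) 2), L ∣ 2 * m ∧ g'.IsNewform ∧
      ∃ 𝔪' : Ideal (integralClosure ℤ ℂ), 𝔪'.IsMaximal ∧ (2 : integralClosure ℤ ℂ) ∈ 𝔪' ∧
        ∀ p : ℕ, p.Prime → ¬ p ∣ 2 * m → ∃ c : integralClosure ℤ ℂ,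
          (c : ℂ) = qCoeff g' p ∧ c - ((a p).val : integralClosure ℤ ℂ) ∈ 𝔪' := by
  classical
  have hm0 : m ≠ 0 := hm.pos.ne'
  have : NeZero m := ⟨hm0⟩
  have : NeZero (8 * m) := ⟨by omega⟩
  have : NeZero (4 * m) := ⟨by omega⟩
  have : NeZero (2 * m) := ⟨by omega⟩
  -- the valuation ring
  obtain ⟨B, hAB, hmB⟩ := Ideal.image_subset_nonunits_valuationSubring
    (A := (integralClosure ℤ ℂ).toSubring) 𝔪 hmax.ne_top
  let ι : integralClosure ℤ ℂ →+* B :=
    (integralClosure ℤ ℂ).val.toRingHom.codRestrict B.toSubring fun c => hAB c.2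
  have hιm : ∀ c, IsLocalRing.residue B (ι c) = 0 ↔ c ∈ 𝔪 := by
    intro c
    rw [IsLocalRing.residue_eq_zero_iff]
    have hle : 𝔪 ≤ (IsLocalRing.maximalIdeal B).comap ι := fun x hx =>
      ValuationSubring.coe_mem_nonunits_iff.mp (hmB ⟨x, hx, rfl⟩)
    have hne : (IsLocalRing.maximalIdeal B).comap ι ≠ ⊤ :=
      Ideal.comap_ne_top _ (IsLocalRing.maximalIdeal.isMaximal B).ne_top
    rw [hmax.eq_of_le hne hle]
    rfl
  have h2B : ((2 : ℕ) : B) ∈ IsLocalRing.maximalIdeal B := by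
    rw [← IsLocalRing.residue_eq_zero_iff, ← map_natCast ι]
    exact (hιm _).mpr (by simpa using h2)
  have := charP_residueField Nat.prime_two h2B
  let θ : ℕ → IsLocalRing.ResidueField B := fun r => ((a r).val : IsLocalRing.ResidueField B)
  have hres : ∀ (r : ℕ) (c : integralClosure ℤ ℂ),
      c - ((a r).val : integralClosure ℤ ℂ) ∈ 𝔪 ↔ IsLocalRing.residue B (ι c) = θ r := fun r c => by
    rw [← hιm, map_sub, map_sub, map_natCast, map_natCast, sub_eq_zero]
  obtain ⟨p₀, hp₀, hp₀m, ha₀⟩ := haux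
  have hθ₀ : θ p₀ = 1 := by simp [θ, ha₀]
  have hdvd : ∀ r : ℕ, r.Prime → ∀ e : ℕ, 0 < e → (r ∣ 2 ^ e * m ↔ r ∣ 2 * m) := fun r hr e he => by
    rw [hr.dvd_mul, hr.dvd_mul, Nat.prime_dvd_prime_iff_eq hr Nat.prime_two]
    constructor
    · rintro (h | h)
      · exact Or.inl ((Nat.prime_dvd_prime_iff_eq hr Nat.prime_two).mp (hr.dvd_of_dvd_pow h))
      · exact Or.inr h
    · rintro (h | h)
      · exact Or.inl (by subst h; exact dvd_pow_self 2 he.ne')
      · exact Or.inr h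
  have h8 : ∀ r : ℕ, r.Prime → (r ∣ 8 * m ↔ r ∣ 2 * m) := fun r hr => hdvd r hr 3 (by norm_num)
  have h4 : ∀ r : ℕ, r.Prime → (r ∣ 4 * m ↔ r ∣ 2 * m) := fun r hr => hdvd r hr 2 (by norm_num)
  -- the class at level `8m`
  have hg0 : g ≠ 0 := fun h0 => by
    have := hg.qCoeff_one
    rw [h0, show qCoeff ⇑(0 : CuspForm (Gamma0 (8 * m)) 2) 1 = 0 from
      _root_.map_zero (HeckeDuality.coeffLin (8 * m) 2 1)] at this
    exact zero_ne_one this
  have hv0 : periodMapLin (8 * m) g ≠ 0 := fun h0 =>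
    hg0 (periodMapLin_injective (h0.trans (_root_.map_zero _).symm))
  obtain ⟨x0, w, hw1, hs, hvw⟩ := exists_normalized (B := B) (periodMapLin (8 * m) g) hv0
  set s := periodMapLin (8 * m) g (Additive.ofMul x0)
  have hinc : inclH B w = s⁻¹ • periodMapLin (8 * m) g := by
    rw [hvw, smul_smul, inv_mul_cancel₀ hs, one_smul]
  have hw0 : redH B w ≠ 0 := fun h0 => by
    have := DFunLike.congr_fun h0 (Additive.ofMul x0)
    rw [redH_apply, hw1, _root_.map_one] at this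
    exact one_ne_zero this
  have heig8 : ∀ r (hr : r.Prime) (hrL : ¬ r ∣ 8 * m),
      homT hr hrL (IsLocalRing.ResidueField B) (redH B w) = θ r • redH B w := by
    intro r hr hrL
    obtain ⟨c, hc, hcm⟩ := hcong r hr fun hd => hrL ((h8 r hr).mpr hd)
    have e : homT hr hrL B w = ι c • w := by
      apply inclH_injective
      rw [inclH_smul, ← homT_inclH, hinc, _root_.map_smul,
        show homT hr hrL ℂ (periodMapLin (8 * m) g) =
          periodMapLin (8 * m) (CuspForm.heckeTLin 2 hr hrL g) from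
          (periodMap_heckeTLin hr hrL g).symm,
        HeckeDuality.heckeTLin_apply_of_isNormalizedEigenform hg hr hrL, _root_.map_smul, smul_comm,
        ← hc]
      rfl
    rw [homT_redH, e, redH_smul, (hres r c).mp hcm]
  -- down to level `2m`
  obtain ⟨φ4, hφ4, heig4⟩ := Descent.exists_descend (M := 4 * m) (L := 8 * m) (by ring)
    ⟨2 * m, by ring⟩ (redH B w) hw0 θ heig8 hp₀ (fun hd => hp₀m ((h8 p₀ hp₀).mp hd)) hθ₀
  obtain ⟨φ2, hφ2, heig2⟩ := Descent.exists_descend (M := 2 * m) (L := 4 * m) (by ring)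
    ⟨m, by ring⟩ φ4 hφ4 θ heig4 hp₀ (fun hd => hp₀m ((h4 p₀ hp₀).mp hd)) hθ₀
  have hsq2 : Squarefree (2 * m) :=
    (Nat.squarefree_mul (Nat.coprime_two_left.mpr hm)).mpr ⟨Nat.prime_two.squarefree, hsq⟩
  obtain ⟨f, hf, hfr⟩ := exists_eigenform_of_char_two_class hsq2 (dvd_mul_right 2 m) B φ2 hφ2 θ
    heig2 hp₀ hp₀m hθ₀
  obtain ⟨L, g', hL, hg', hgf⟩ := Newforms.exists_newform hf
  refine ⟨L, g', hL, hg', 𝔪, hmax, h2, fun p hp hpm => ?_⟩
  obtain ⟨lam, hlam, hlamθ⟩ := hfr p hp hpm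
  refine ⟨⟨qCoeff f p, ConductorLevel.isIntegral_qCoeff hf hp⟩, (hgf p hp hpm).symm,
    (hres p _).mpr ?_⟩
  rw [← hlamθ]
  exact congrArg _ (Subtype.ext hlam)

end Fermat.Agent.TwoAdic.Theta
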