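import Mathlib.Analysis.Complex.UpperHalfPlane.Basic
import Mathlib.Analysis.SpecialFunctions.Complex.Circle
import Mathlib.Analysis.SpecialFunctions.Complex.CircleAddChar
import Mathlib.NumberTheory.ArithmeticFunction.Defs
import Mathlib.NumberTheory.NumberField.ClassNumber
import Mathlib.RingTheory.Ideal.Norm.AbsNorm

/-!
# Theta series of binary quadratic forms of discriminant `-4d`, and the dihedral system of `χ`

`BinForm d` is a positive form `A x² + 2 B x y + C y²` with `A C - B² = d`. `gauss Q c a n` is the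
sum over `r mod c` of `exp (2πi (a Q(r) + n·r) / c)`.

For a quadratic field `K` and a character `χ` of order three of its class group, `dihedralCoeff χ n`
counts the ideals of norm `n` on which `χ` is `1` minus those on which it is the generator; its
parity is the mod two dihedral eigensystem.
-/

set_option autoImplicit false

noncomputable section

namespace Fermat.Agent.TwoAdic.Theta

open Complex
open scoped Real

/-- A positive form `A x² + 2 B x y + C y²` with `A C - B² = d`. -/
structure BinForm (d : ℕ) where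
  A : ℤ
  B : ℤ
  C : ℤ
  A_pos : 0 < A
  disc : A * C - B ^ 2 = (d : ℤ)

namespace BinForm

variable {d : ℕ}

/-- The value at an integral vector. -/
def eval (Q : BinForm d) (v : ℤ × ℤ) : ℤ :=
  Q.A * v.1 ^ 2 + 2 * Q.B * v.1 * v.2 + Q.C * v.2 ^ 2

theorem C_pos (Q : BinForm d) (hd : 0 < d) : 0 < Q.C := by
  have h := Q.disc
  have hA := Q.A_pos
  have hd' : (0 : ℤ) < (d : ℤ) := by exact_mod_cast hd
  have h1 : 0 < Q.A * Q.C := by nlinarith [sq_nonneg Q.B]
  exact pos_of_mul_pos_right h1 hA.le

/-- The adjugate form. -/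
def adj (Q : BinForm d) (hd : 0 < d) : BinForm d where
  A := Q.C
  B := -Q.B
  C := Q.A
  A_pos := Q.C_pos hd
  disc := by rw [← Q.disc]; ring

/-- The principal form `x² + d y²`. -/
def principal (d : ℕ) : BinForm d where
  A := 1
  B := 0
  C := d
  A_pos := one_pos
  disc := by ring

/-- The theta series. -/
def theta (Q : BinForm d) (τ : UpperHalfPlane) : ℂ :=
  ∑' v : ℤ × ℤ, cexp (2 * π * I * (Q.eval v : ℂ) * (τ : ℂ))

/-- The number of representations. -/
def repCount (Q : BinForm d) (n : ℕ) : ℕ :=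
  Nat.card {v : ℤ × ℤ // Q.eval v = (n : ℤ)}

/-- The value modulo `c`. -/
def evalMod (Q : BinForm d) {c : ℕ} (r : ZMod c × ZMod c) : ZMod c :=
  (Q.A : ZMod c) * r.1 ^ 2 + 2 * (Q.B : ZMod c) * r.1 * r.2 + (Q.C : ZMod c) * r.2 ^ 2

/-- The quadratic Gauss sum with a linear term. -/
def gauss (Q : BinForm d) (c : ℕ) [NeZero c] (a : ℤ) (n : ℤ × ℤ) : ℂ :=
  ∑ r : ZMod c × ZMod c,
    ZMod.stdAddChar ((a : ZMod c) * Q.evalMod r + (n.1 : ZMod c) * r.1 + (n.2 : ZMod c) * r.2)

end BinForm

section Dihedral

open scoped NumberField nonZeroDivisors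

variable {K : Type} [Field K] [NumberField K] (χ : ClassGroup (𝓞 K) →* Multiplicative (ZMod 3))

open Classical in
/-- The value of the class group character on an ideal, in `ZMod 3` (`0` on the zero ideal). -/
def chiIdeal (J : Ideal (𝓞 K)) : ZMod 3 :=
  if hJ : J ∈ (Ideal (𝓞 K))⁰ then Multiplicative.toAdd (χ (ClassGroup.mk0 ⟨J, hJ⟩)) else 0

/-- The coefficients of the dihedral theta series, as integers. -/
def dihedralCoeff (n : ℕ) : ℤ :=
  if n = 0 then 0 else
    (Nat.card {J : Ideal (𝓞 K) // Ideal.absNorm J = n ∧ chiIdeal χ J = 0} : ℤ) -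
      Nat.card {J : Ideal (𝓞 K) // Ideal.absNorm J = n ∧ chiIdeal χ J = 1}

/-- The parity of the dihedral coefficients. -/
def dihedralParity (n : ℕ) : ZMod 2 := (dihedralCoeff χ n : ZMod 2)

end Dihedral

end Fermat.Agent.TwoAdic.Theta
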