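import Mathlib.Data.Nat.ChineseRemainder
import Mathlib.RingTheory.Coprime.Lemmas
import Fermat.Agent.TwoAdic.Theta.Defs

/-!
# Elementary facts on binary forms: change of variables in Gauss sums, values prime to a modulus
-/

set_option autoImplicit false

noncomputable section

namespace Fermat.Agent.TwoAdic.Theta.BinForm

variable {d : ℕ}

theorem gauss_zero_eq (Q : BinForm d) (c : ℕ) [NeZero c] (a : ℤ) :
    Q.gauss c a 0 = ∑ r : ZMod c × ZMod c, ZMod.stdAddChar ((a : ZMod c) * Q.evalMod r) := by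
  simp [gauss]

/-- Change of variables in a Gauss sum. -/
theorem gauss_eq_of_bijective (Q Q' : BinForm d) {c : ℕ} [NeZero c] (a a' : ℤ)
    {T : ZMod c × ZMod c → ZMod c × ZMod c} (hT : Function.Bijective T)
    (h : ∀ r, (a : ZMod c) * Q.evalMod r = (a' : ZMod c) * Q'.evalMod (T r)) :
    Q.gauss c a 0 = Q'.gauss c a' 0 := by
  rw [gauss_zero_eq, gauss_zero_eq]
  exact Fintype.sum_bijective T hT _ _ fun r => congrArg _ (h r)

/-- A linear map of unit determinant on pairs is bijective. -/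
theorem bijective_linMap {c : ℕ} (p q r s : ZMod c) (h : IsUnit (p * s - q * r)) :
    Function.Bijective fun v : ZMod c × ZMod c => (p * v.1 + q * v.2, r * v.1 + s * v.2) := by
  obtain ⟨D, hD⟩ := h
  refine Function.bijective_iff_has_inverse.2
    ⟨fun w => ((↑D⁻¹ : ZMod c) * (s * w.1 - q * w.2), (↑D⁻¹ : ZMod c) * (p * w.2 - r * w.1)),
      fun v => ?_, fun w => ?_⟩
  · have hi : (↑D⁻¹ : ZMod c) * (p * s - q * r) = 1 := by rw [← hD]; exact D.inv_mul
    refine Prod.ext ?_ ?_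
    · linear_combination v.1 * hi
    · linear_combination v.2 * hi
  · have hi : (↑D⁻¹ : ZMod c) * (p * s - q * r) = 1 := by rw [← hD]; exact D.inv_mul
    refine Prod.ext ?_ ?_
    · linear_combination w.1 * hi
    · linear_combination w.2 * hi

theorem intCast_eval (Q : BinForm d) (c : ℕ) (v : ℤ × ℤ) :
    ((Q.eval v : ℤ) : ZMod c) = Q.evalMod ((v.1 : ZMod c), (v.2 : ZMod c)) := by
  simp [eval, evalMod]

/-- Composition with the principal form. -/
theorem mul_eval (Q : BinForm d) (v w : ℤ × ℤ) :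
    Q.eval v * Q.eval w =
      (Q.A * v.1 * w.1 + Q.B * (v.1 * w.2 + v.2 * w.1) + Q.C * v.2 * w.2) ^ 2 +
        (d : ℤ) * (v.1 * w.2 - v.2 * w.1) ^ 2 := by
  rw [← Q.disc]
  simp only [eval]
  ring

/-- A form with squarefree `d` is primitive: it represents numbers prime to any modulus. -/
theorem exists_rep_coprime (Q : BinForm d) (hd : Squarefree d) (h2 : 2 ∣ d) {c : ℕ} (hc : c ≠ 0) :
    ∃ v : ℤ × ℤ, IsCoprime (Q.eval v) (c : ℤ) := by
  -- at each prime one of `(1, 0)`, `(0, 1)`, `(1, 1)` works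
  have hloc : ∀ p ∈ c.primeFactors, ∃ x y : ℕ, ¬ (p : ℤ) ∣ Q.eval ((x : ℤ), (y : ℤ)) := by
    intro p hp
    have hpp := Nat.prime_of_mem_primeFactors hp
    have hp' := Nat.prime_iff_prime_int.1 hpp
    by_contra! hall
    have hA : (p : ℤ) ∣ Q.A := by simpa [eval] using hall 1 0
    have hC : (p : ℤ) ∣ Q.C := by simpa [eval] using hall 0 1
    have h11 := hall 1 1
    have h2B : (p : ℤ) ∣ 2 * Q.B := by
      have := dvd_sub (dvd_sub h11 hA) hC
      simp [eval] at this
      rwa [show Q.A + 2 * Q.B + Q.C - Q.A - Q.C = 2 * Q.B by ring] at this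
    rcases eq_or_ne p 2 with rfl | hp2
    · -- `2 ∣ A, C` gives `4 ∣ d`
      have hBd : (2 : ℤ) ∣ Q.B := by
        have h2d : (2 : ℤ) ∣ (d : ℤ) := by exact_mod_cast h2
        have hB2 : (2 : ℤ) ∣ Q.B ^ 2 := by
          have : Q.B ^ 2 = Q.A * Q.C - (d : ℤ) := by linear_combination Q.disc.symm
          rw [this]
          exact dvd_sub (Dvd.dvd.mul_right (by simpa using hA) _) h2d
        exact Int.prime_two.dvd_of_dvd_pow hB2
      have h4 : ((2 * 2 : ℕ) : ℤ) ∣ (d : ℤ) := by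
        rw [← Q.disc, pow_two]
        push_cast
        exact dvd_sub (mul_dvd_mul (by simpa using hA) (by simpa using hC)) (mul_dvd_mul hBd hBd)
      exact absurd (hd 2 (Int.natCast_dvd_natCast.1 h4)) (by simp)
    · have hB : (p : ℤ) ∣ Q.B := (hp'.dvd_or_dvd h2B).resolve_left fun h => hp2
        ((Nat.prime_dvd_prime_iff_eq hpp Nat.prime_two).1 (by exact_mod_cast h))
      have hpp2 : ((p * p : ℕ) : ℤ) ∣ (d : ℤ) := by
        rw [← Q.disc, pow_two]
        push_cast
        exact dvd_sub (mul_dvd_mul hA hC) (mul_dvd_mul hB hB)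
      exact hpp.ne_one (by simpa using hd p (Int.natCast_dvd_natCast.1 hpp2))
  choose! x y hxy using hloc
  have hcop : Set.Pairwise (c.primeFactors : Set ℕ) (Function.onFun Nat.Coprime (id : ℕ → ℕ)) :=
    fun p hp q hq hpq => (Nat.coprime_primes (Nat.prime_of_mem_primeFactors hp)
      (Nat.prime_of_mem_primeFactors hq)).2 hpq
  have h0 : ∀ p ∈ c.primeFactors, id p ≠ 0 := fun p hp => (Nat.prime_of_mem_primeFactors hp).ne_zero
  obtain ⟨X, hX⟩ := Nat.chineseRemainderOfFinset x id c.primeFactors h0 hcop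
  obtain ⟨Y, hY⟩ := Nat.chineseRemainderOfFinset y id c.primeFactors h0 hcop
  refine ⟨((X : ℤ), (Y : ℤ)), ?_⟩
  rw [Int.isCoprime_iff_gcd_eq_one]
  by_contra hg
  obtain ⟨p, hp, hpg⟩ := Nat.exists_prime_and_dvd hg
  have hpc : p ∈ c.primeFactors := Nat.mem_primeFactors.2 ⟨hp,
    Int.natCast_dvd_natCast.1 ((Int.natCast_dvd_natCast.2 hpg).trans (Int.gcd_dvd_right _ _)), hc⟩
  refine hxy p hpc ?_
  rw [← ZMod.intCast_zmod_eq_zero_iff_dvd, intCast_eval]
  have hXp : ((X : ℤ) : ZMod p) = ((x p : ℤ) : ZMod p) := by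
    push_cast
    exact (ZMod.natCast_eq_natCast_iff _ _ _).2 (hX p hpc)
  have hYp : ((Y : ℤ) : ZMod p) = ((y p : ℤ) : ZMod p) := by
    push_cast
    exact (ZMod.natCast_eq_natCast_iff _ _ _).2 (hY p hpc)
  have hval := (ZMod.intCast_zmod_eq_zero_iff_dvd _ _).2
    ((Int.natCast_dvd_natCast.2 hpg).trans (Int.gcd_dvd_left _ _))
  rw [intCast_eval] at hval
  rw [hXp, hYp] at hval
  exact hval

end Fermat.Agent.TwoAdic.Theta.BinForm
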