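import Fermat.Agent.TwoAdic.Theta.Field.Recursion
import Fermat.Agent.TwoAdic.Theta.Field.Classes

/-!
# The quadratic field input of the dihedral theta series

Forms of the ideal classes, the symmetry of the character under conjugation, the Hecke recursion
of the parities and the existence of primes with odd parity, for `K = ℚ(√(-2m))`.
-/

set_option autoImplicit false

noncomputable section

namespace Fermat.Agent.TwoAdic.Theta

open scoped NumberField nonZeroDivisors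

variable {K : Type} [Field K] [NumberField K]

theorem exists_fieldData' {m : ℕ} (hm : Odd m) (hsq : Squarefree m)
    (hK : Module.finrank ℚ K = 2) (θ : K) (hθ : θ ^ 2 = -((2 * m : ℕ) : K)) :
    Nonempty (FieldData m K) :=
  (exists_fieldData hm hsq hK θ (by rw [hθ]; push_cast; rfl)).elim fun D _ => ⟨D⟩

theorem exists_classForms {m : ℕ} (hm : Odd m) (hsq : Squarefree m)
    (hK : Module.finrank ℚ K = 2) (θ : K) (hθ : θ ^ 2 = -((2 * m : ℕ) : K))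
    (χ : ClassGroup (𝓞 K) →* Multiplicative (ZMod 3)) (hχ : χ ≠ 1) :
    ∃ Q : ClassGroup (𝓞 K) → BinForm (2 * m),
      (∀ (n : ℕ) (C : ClassGroup (𝓞 K)), 0 < n → (Q C).repCount n =
        2 * Nat.card {J : (Ideal (𝓞 K))⁰ //
          Ideal.absNorm (J : Ideal (𝓞 K)) = n ∧ ClassGroup.mk0 J = C}) ∧
      ∀ (c : ℕ) [NeZero c], ∃ C₀ : ClassGroup (𝓞 K), χ C₀ ≠ 1 ∧
        ∀ (C : ClassGroup (𝓞 K)) (a : ℤ), (Q (C * C₀ * C₀)).gauss c a 0 = (Q C).gauss c a 0 := by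
  obtain ⟨D⟩ := exists_fieldData' hm hsq hK θ hθ
  have hI : ∀ C : ClassGroup (𝓞 K), ∃ I : (Ideal (𝓞 K))⁰, ClassGroup.mk0 I = C⁻¹ :=
    fun C => ClassGroup.mk0_surjective C⁻¹
  choose I hI using hI
  choose k a b h using fun C => D.exists_normalForm (nonZeroDivisors.ne_zero (I C).2)
  refine ⟨fun C => (h C).form, fun n C hn => (h C).repCount_eq hn (hI C), fun c _ => ?_⟩
  obtain ⟨C₀, hC₀⟩ : ∃ C₀, χ C₀ ≠ 1 := by
    by_contra hall
    simp only [ne_eq, not_exists, not_not] at hall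
    exact hχ (MonoidHom.ext hall)
  obtain ⟨P, hP, hPc⟩ := (h C₀).exists_class_coprime (hI C₀) (NeZero.ne c)
  refine ⟨C₀, hC₀, fun C e => ?_⟩
  have hP0 : (P : Ideal (𝓞 K)) ≠ ⊥ := nonZeroDivisors.ne_zero P.2
  let P' : (Ideal (𝓞 K))⁰ :=
    ⟨D.conjIdeal P, mem_nonZeroDivisors_of_ne_zero (D.conjIdeal_ne_bot hP0)⟩
  have hP' : ClassGroup.mk0 P' = C₀⁻¹ := by
    rw [eq_inv_iff_mul_eq_one, ← hP, ← map_mul]
    have hmem : (P' : Ideal (𝓞 K)) * P ∈ (Ideal (𝓞 K))⁰ := (P' * P).2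
    refine (ClassGroup.mk0_eq_one_iff hmem).mpr ⟨⟨(Ideal.absNorm (P : Ideal (𝓞 K)) : 𝓞 K), ?_⟩⟩
    rw [show (P' : Ideal (𝓞 K)) = D.conjIdeal P from rfl, mul_comm, D.mul_conjIdeal]
  obtain ⟨x, y, hx, hy, hxy⟩ := ClassGroup.mk0_eq_mk0_iff.mp
    (show ClassGroup.mk0 (I (C * C₀ * C₀)) = ClassGroup.mk0 (I C * (P' * P')) by
      rw [map_mul, map_mul, hI, hI, hP', mul_inv, mul_inv, mul_assoc])
  obtain ⟨w₁, w₂, hw, hw'⟩ := (h C).exists_transfer (h (C * C₀ * C₀)) (P := P) (x := x) hy hxy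
  exact BinForm.gauss_eq_of_scaled _ _ hPc hw hw' e

theorem card_chi_one_eq_two {m : ℕ} (hm : Odd m) (hsq : Squarefree m)
    (hK : Module.finrank ℚ K = 2) (θ : K) (hθ : θ ^ 2 = -((2 * m : ℕ) : K))
    (χ : ClassGroup (𝓞 K) →* Multiplicative (ZMod 3)) (n : ℕ) :
    Nat.card {J : Ideal (𝓞 K) // Ideal.absNorm J = n ∧ chiIdeal χ J = 1} =
      Nat.card {J : Ideal (𝓞 K) // Ideal.absNorm J = n ∧ chiIdeal χ J = 2} :=
  (exists_fieldData' hm hsq hK θ hθ).elim fun D => D.card_chi_one_eq_two χ n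

theorem parity_recursion {m : ℕ} (hm : Odd m) (hsq : Squarefree m)
    (hK : Module.finrank ℚ K = 2) (θ : K) (hθ : θ ^ 2 = -((2 * m : ℕ) : K))
    (χ : ClassGroup (𝓞 K) →* Multiplicative (ZMod 3)) :
    dihedralParity χ 1 = 1 ∧ ∀ p : ℕ, p.Prime → ∀ n : ℕ,
      dihedralParity χ (p * n) + (if p ∣ 2 * m then 0 else if p ∣ n then dihedralParity χ (n / p) else 0)
        = dihedralParity χ p * dihedralParity χ n :=
  ⟨dihedralParity_one χ, fun _ hp n =>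
    (exists_fieldData' hm hsq hK θ hθ).elim fun D => D.parity_recursion χ hp n⟩

theorem parity_prime {m : ℕ} (hm : Odd m) (hsq : Squarefree m)
    (hK : Module.finrank ℚ K = 2) (θ : K) (hθ : θ ^ 2 = -((2 * m : ℕ) : K))
    (χ : ClassGroup (𝓞 K) →* Multiplicative (ZMod 3)) {p : ℕ} (hp : p.Prime) (hpm : ¬ p ∣ 2 * m) :
    dihedralParity χ p = 1 ↔ ∃ P : Ideal (𝓞 K), Ideal.absNorm P = p ∧ chiIdeal χ P ≠ 0 :=
  (exists_fieldData' hm hsq hK θ hθ).elim fun D => D.parity_prime χ hp hpm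

/-- An ideal with nontrivial character has a prime factor of degree one with nontrivial
character. -/
theorem FieldData.exists_prime_of_chi_ne_zero {m : ℕ} (D : FieldData m K)
    (χ : ClassGroup (𝓞 K) →* Multiplicative (ZMod 3)) :
    ∀ (n : ℕ) (J : Ideal (𝓞 K)), n ≠ 0 → Ideal.absNorm J = n → chiIdeal χ J ≠ 0 →
      ∃ (p : ℕ) (P : Ideal (𝓞 K)), p.Prime ∧ p ∣ n ∧ Ideal.absNorm P = p ∧ chiIdeal χ P ≠ 0 := by
  intro n
  induction n using Nat.strong_induction_on with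
  | _ n ih =>
  intro J hn0 hJ hχJ
  rcases eq_or_ne n 1 with rfl | hn1
  · rw [Ideal.absNorm_eq_one_iff] at hJ
    subst hJ
    refine absurd ?_ hχJ
    rw [← Ideal.span_singleton_one]
    exact chiIdeal_span χ one_ne_zero
  obtain ⟨p, hp, hpn⟩ := Nat.exists_prime_and_dvd hn1
  -- pass to a proper factor
  have step : ∀ R T : Ideal (𝓞 K), J = R * T → 1 < Ideal.absNorm R → chiIdeal χ R = 0 →
      ∃ (p : ℕ) (P : Ideal (𝓞 K)), p.Prime ∧ p ∣ n ∧ Ideal.absNorm P = p ∧ chiIdeal χ P ≠ 0 := by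
    rintro R T rfl hR hR0
    rw [map_mul] at hJ
    have hT : Ideal.absNorm T ≠ 0 := fun e => hn0 (by rw [← hJ, e, mul_zero])
    have hlt : Ideal.absNorm T < n := by
      rw [← hJ]; exact lt_mul_of_one_lt_left (Nat.pos_of_ne_zero hT) hR
    obtain ⟨q, P, hq, hqT, hP, hχP⟩ := ih _ hlt T hT rfl (fun e => hχJ (by
      rw [chiIdeal_mul χ (fun e' => by rw [e', Ideal.absNorm_bot] at hR; omega)
        (fun e' => hT (by rw [e', Ideal.absNorm_bot])), hR0, e, add_zero]))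
    exact ⟨q, P, hq, hqT.trans ⟨_, by rw [← hJ, mul_comm]⟩, hP, hχP⟩
  by_cases hex : ∃ P : Ideal (𝓞 K), Ideal.absNorm P = p
  · obtain ⟨P, hP⟩ := hex
    have key : ∀ R : Ideal (𝓞 K), Ideal.absNorm R = p → R ∣ J →
        ∃ (p : ℕ) (P : Ideal (𝓞 K)), p.Prime ∧ p ∣ n ∧ Ideal.absNorm P = p ∧ chiIdeal χ P ≠ 0 := by
      rintro R hR ⟨T, hT⟩
      by_cases hR0 : chiIdeal χ R = 0
      · exact step R T hT (hR ▸ hp.one_lt) hR0
      · exact ⟨p, R, hp, hpn, hR, hR0⟩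
    rcases D.dvd_or_dvd_of_absNorm hp hP (hJ.symm ▸ hpn) with h | h
    · exact key P hP h
    · exact key _ (by rw [D.absNorm_conjIdeal, hP]) h
  · rw [not_exists] at hex
    obtain ⟨T, hT⟩ := D.span_dvd_of_absNorm hp hex (hJ.symm ▸ hpn)
    exact step _ T hT (by rw [D.absNorm_span_nat]; exact Nat.one_lt_pow two_ne_zero hp.one_lt)
      (chiIdeal_span χ (by exact_mod_cast hp.ne_zero))

theorem exists_prime_parity {m : ℕ} (hm : Odd m) (hsq : Squarefree m)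
    (hK : Module.finrank ℚ K = 2) (θ : K) (hθ : θ ^ 2 = -((2 * m : ℕ) : K))
    (χ : ClassGroup (𝓞 K) →* Multiplicative (ZMod 3)) (hχ : χ ≠ 1) (S : Finset ℕ) :
    ∃ p : ℕ, p.Prime ∧ p ∉ S ∧ ¬ p ∣ 2 * m ∧ dihedralParity χ p = 1 := by
  obtain ⟨D⟩ := exists_fieldData' hm hsq hK θ hθ
  obtain ⟨C₀, hC₀⟩ : ∃ C₀, χ C₀ ≠ 1 := by
    by_contra hall
    simp only [ne_eq, not_exists, not_not] at hall
    exact hχ (MonoidHom.ext hall)
  obtain ⟨I, hI⟩ := ClassGroup.mk0_surjective C₀⁻¹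
  obtain ⟨k, a, b, h⟩ := D.exists_normalForm (nonZeroDivisors.ne_zero I.2)
  have hc : 2 * m * ∏ s ∈ S.erase 0, s ≠ 0 :=
    mul_ne_zero (by have := hm.pos; omega)
      (Finset.prod_ne_zero_iff.mpr fun s hs => Finset.ne_of_mem_erase hs)
  obtain ⟨J, hJ, hJc⟩ := h.exists_class_coprime hI hc
  have hχJ : chiIdeal χ (J : Ideal (𝓞 K)) ≠ 0 := by
    rw [chiIdeal_eq χ J.2]
    simpa [hJ] using hC₀
  obtain ⟨p, P, hp, hpn, hP, hχP⟩ := D.exists_prime_of_chi_ne_zero χ _ (J : Ideal (𝓞 K))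
    (Ideal.absNorm_ne_zero_iff_mem_nonZeroDivisors.mpr J.2) rfl hχJ
  have hpc : ¬ p ∣ 2 * m * ∏ s ∈ S.erase 0, s := fun e =>
    hp.ne_one (Nat.eq_one_of_dvd_coprimes hJc hpn e)
  have hpm : ¬ p ∣ 2 * m := fun e => hpc (e.mul_right _)
  refine ⟨p, hp, fun e => hpc (Dvd.dvd.mul_left ?_ _), hpm,
    (D.parity_prime χ hp hpm).mpr ⟨P, hP, hχP⟩⟩
  exact Finset.dvd_prod_of_mem _ (Finset.mem_erase.mpr ⟨hp.ne_zero, e⟩)

end Fermat.Agent.TwoAdic.Theta
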