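import Fermat.Agent.TwoAdic.Theta.Forms
import Mathlib.NumberTheory.GaussSum
import Mathlib.NumberTheory.LegendreSymbol.JacobiSymbol
import Mathlib.NumberTheory.LSeries.PrimesInAP

/-!
# Gauss sums of forms of discriminant `-8m`, `m` odd squarefree

For `8m ∣ c` every such form has the Gauss sum of the principal one, and its square is
`-(c² · 8m)`; the passage to `c = 8mq`, `q` prime, uses the invariance of `gauss / c` under
`c ↦ c + j · 8m · a`, taken as a hypothesis.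
-/

set_option autoImplicit false

noncomputable section

namespace Fermat.Agent.TwoAdic.Theta

open Complex Finset
open scoped Real NumberTheorySymbols

/-- The one variable quadratic Gauss sum. -/
def gsum (n : ℕ) [NeZero n] (x : ℤ) : ℂ :=
  ∑ r : ZMod n, ZMod.stdAddChar ((x : ZMod n) * r ^ 2)

theorem gsum_congr {n : ℕ} [NeZero n] {x y : ℤ} (h : (x : ZMod n) = y) : gsum n x = gsum n y := by
  unfold gsum
  rw [h]

theorem stdAddChar_scale {k n N : ℕ} [NeZero n] [NeZero N] (hN : N = k * n) (j : ℤ) :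
    ZMod.stdAddChar (((k : ℤ) * j : ℤ) : ZMod N) = ZMod.stdAddChar (j : ZMod n) := by
  rw [ZMod.stdAddChar_coe, ZMod.stdAddChar_coe]
  have hk : (k : ℂ) ≠ 0 := by
    have := NeZero.ne N
    rw [hN] at this
    exact_mod_cast left_ne_zero_of_mul this
  have hn : (n : ℂ) ≠ 0 := by exact_mod_cast NeZero.ne n
  subst hN
  congr 1
  push_cast
  field_simp

theorem sum_zmod_eq_range {M : Type*} [AddCommMonoid M] (n : ℕ) [NeZero n] (f : ZMod n → M) :
    ∑ r : ZMod n, f r = ∑ i ∈ range n, f (i : ZMod n) :=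
  sum_nbij' (fun r => r.val) (fun i => (i : ZMod n))
    (fun r _ => mem_range.2 r.val_lt) (fun i _ => mem_univ _)
    (fun r _ => ZMod.natCast_zmod_val r)
    (fun i hi => ZMod.val_natCast_of_lt (mem_range.1 hi))
    (fun r _ => by rw [ZMod.natCast_zmod_val])

theorem gsum_scale {k n N : ℕ} [NeZero n] [NeZero N] (hN : N = k * n) {x y : ℤ}
    (hx : x = (k : ℤ) * y) : gsum N x = k * gsum n y := by
  have key : ∀ i : ℕ, ZMod.stdAddChar ((x : ZMod N) * (i : ZMod N) ^ 2) =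
      ZMod.stdAddChar ((y : ZMod n) * (i : ZMod n) ^ 2) := fun i => by
    have := stdAddChar_scale hN (y * (i : ℤ) ^ 2)
    rw [← mul_assoc, ← hx] at this
    simpa using this
  unfold gsum
  rw [sum_zmod_eq_range, sum_congr rfl fun i _ => key i, sum_zmod_eq_range, hN]
  generalize k = l
  induction l with
  | zero => simp
  | succ l ih =>
    rw [add_mul, one_mul, sum_range_add, ih, Nat.cast_succ, add_mul, one_mul]
    simp

theorem gsum_mul_of_coprime {a b N : ℕ} [NeZero a] [NeZero b] [NeZero N] (hN : N = a * b)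
    (hab : a.Coprime b) (x : ℤ) : gsum N x = gsum a (b * x) * gsum b (a * x) := by
  let φ : ZMod a × ZMod b → ZMod N := fun p => ((b * p.1.val + a * p.2.val : ℕ) : ZMod N)
  have hφ : Function.Bijective φ := by
    rw [Fintype.bijective_iff_injective_and_card]
    refine ⟨fun p p' h => ?_, by simp [hN]⟩
    have h' := (ZMod.natCast_eq_natCast_iff' _ _ _).1 h
    rw [hN] at h'
    have ha : ((b * p.1.val + a * p.2.val : ℕ) : ZMod a) = (b * p'.1.val + a * p'.2.val : ℕ) :=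
      (ZMod.natCast_eq_natCast_iff _ _ _).2 (Nat.ModEq.of_dvd ⟨b, rfl⟩ h')
    have hb : ((b * p.1.val + a * p.2.val : ℕ) : ZMod b) = (b * p'.1.val + a * p'.2.val : ℕ) :=
      (ZMod.natCast_eq_natCast_iff _ _ _).2 (Nat.ModEq.of_dvd ⟨a, mul_comm a b⟩ h')
    push_cast at ha hb
    simp only [ZMod.natCast_self, zero_mul, add_zero, zero_add, ZMod.natCast_zmod_val] at ha hb
    exact Prod.ext (((ZMod.isUnit_iff_coprime b a).2 hab.symm).mul_left_cancel ha)
      (((ZMod.isUnit_iff_coprime a b).2 hab).mul_left_cancel hb)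
  unfold gsum
  rw [Fintype.sum_mul_sum, ← Fintype.sum_prod_type'
    (fun (r : ZMod a) (s : ZMod b) => ZMod.stdAddChar (((b * x : ℤ) : ZMod a) * r ^ 2) *
      ZMod.stdAddChar (((a * x : ℤ) : ZMod b) * s ^ 2)), ← hφ.sum_comp]
  refine sum_congr rfl fun p _ => ?_
  obtain ⟨r, s⟩ := p
  have hN0 : ((a : ZMod N) * b) = 0 := by rw [← Nat.cast_mul, ← hN, ZMod.natCast_self]
  have h : (x : ZMod N) * φ (r, s) ^ 2 =
      (((b : ℤ) * (b * x * (r.val : ℤ) ^ 2) : ℤ) : ZMod N) +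
        (((a : ℤ) * (a * x * (s.val : ℤ) ^ 2) : ℤ) : ZMod N) := by
    simp only [φ]
    push_cast
    linear_combination (2 * (x : ZMod N) * r.val * s.val) * hN0
  rw [h, AddChar.map_add_eq_mul, stdAddChar_scale (hN.trans (mul_comm a b)),
    stdAddChar_scale hN]
  simp

/-! ### Odd squarefree modulus -/

theorem gsum_prime {p : ℕ} [Fact p.Prime] (hp : p ≠ 2) :
    (∀ x : ℤ, Int.gcd x p = 1 → gsum p x = (J(x | p) : ℂ) * gsum p 1) ∧
      gsum p 1 ^ 2 = (J(-1 | p) : ℂ) * p := by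
  classical
  have hF : ringChar (ZMod p) ≠ 2 := (ZMod.ringChar_zmod_n p).substr hp
  set χ : MulChar (ZMod p) ℂ := (quadraticChar (ZMod p)).ringHomComp (Int.castRingHom ℂ) with hχdef
  have hχ : χ.IsQuadratic := (quadraticChar_isQuadratic _).comp _
  have hχ1 : χ ≠ 1 :=
    (MulChar.ringHomComp_ne_one_iff (f := Int.castRingHom ℂ) Int.cast_injective).2
      (quadraticChar_ne_one hF)
  have hval : ∀ x : ℤ, χ (x : ZMod p) = (J(x | p) : ℂ) := fun x => by
    rw [← jacobiSym.legendreSym.to_jacobiSym]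
    rfl
  have hg : ∀ x : ℤ, (x : ZMod p) ≠ 0 →
      gsum p x = gaussSum χ (AddChar.mulShift ZMod.stdAddChar (x : ZMod p)) := fun x hx => by
    unfold gsum gaussSum
    rw [← sum_fiberwise (univ : Finset (ZMod p)) (fun r => r ^ 2)]
    have hcard : ∀ s : ZMod p,
        ∑ r ∈ univ.filter (fun r : ZMod p => r ^ 2 = s),
          ZMod.stdAddChar ((x : ZMod p) * r ^ 2) =
        (χ s + 1) * ZMod.stdAddChar ((x : ZMod p) * s) := fun s => by
      rw [sum_congr rfl fun r hr => by rw [(mem_filter.1 hr).2], sum_const, nsmul_eq_mul]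
      congr 1
      have hc := quadraticChar_card_sqrts hF s
      rw [Set.toFinset_ofPred] at hc
      have hc' := congrArg (Int.cast : ℤ → ℂ) hc
      push_cast at hc'
      rw [hc']
      rfl
    rw [sum_congr rfl fun s _ => hcard s]
    simp only [add_mul, one_mul, sum_add_distrib, AddChar.mulShift_apply]
    have h0 : ∑ s : ZMod p, ZMod.stdAddChar ((x : ZMod p) * s) = 0 :=
      AddChar.sum_eq_zero_of_ne_one (ψ := AddChar.mulShift ZMod.stdAddChar (x : ZMod p))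
        (ZMod.isPrimitive_stdAddChar p hx)
    rw [h0, add_zero]
  have h1 : gsum p 1 = gaussSum χ (ZMod.stdAddChar (N := p)) := by
    rw [hg 1 (by simp)]
    simp [AddChar.mulShift_one]
  refine ⟨fun x hx => ?_, ?_⟩
  · have hx0 : (x : ZMod p) ≠ 0 := fun h => by
      have hd : (p : ℤ) ∣ x := (ZMod.intCast_zmod_eq_zero_iff_dvd x p).1 h
      have h := Int.dvd_coe_gcd hd (dvd_refl (p : ℤ))
      rw [hx] at h
      exact (Fact.out : p.Prime).not_dvd_one (Int.natCast_dvd_natCast.1 h)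
    have := gaussSum_mulShift χ (ZMod.stdAddChar (N := p)) (Units.mk0 _ hx0)
    rw [Units.val_mk0, ← h1, ← hg x hx0, hval] at this
    rcases jacobiSym.eq_one_or_neg_one hx with h | h <;> rw [h] at this ⊢ <;> push_cast at this ⊢
    · linear_combination this
    · linear_combination -this
  · rw [h1, gaussSum_sq hχ1 hχ (ZMod.isPrimitive_stdAddChar p), ZMod.card, ← hval]
    push_cast
    rfl

theorem gsum_squarefree : ∀ (M : ℕ) [NeZero M], Odd M → Squarefree M →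
    (∀ x : ℤ, Int.gcd x M = 1 → gsum M x = (J(x | M) : ℂ) * gsum M 1) ∧
      gsum M 1 ^ 2 = (J(-1 | M) : ℂ) * M := by
  intro M
  induction M using Nat.strong_induction_on with
  | _ M ih =>
    intro _ ho hs
    by_cases h1 : M = 1
    · subst h1
      have hz : ∀ z : ZMod 1, ZMod.stdAddChar z = 1 := fun z => by
        rw [Subsingleton.elim z 0, AddChar.map_zero_eq_one]
      simp [gsum, hz]
    obtain ⟨p, hp, a, rfl⟩ := Nat.exists_prime_and_dvd h1
    have : Fact p.Prime := ⟨hp⟩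
    have ha0 : a ≠ 0 := fun h => NeZero.ne (p * a) (by simp [h])
    have : NeZero a := ⟨ha0⟩
    obtain ⟨hop, hoa⟩ := Nat.odd_mul.1 ho
    have hp2 : p ≠ 2 := by rintro rfl; simp [Nat.odd_iff] at hop
    have hco : p.Coprime a := Nat.coprime_of_squarefree_mul hs
    obtain ⟨hP, hP2⟩ := gsum_prime (p := p) hp2
    obtain ⟨hA, hA2⟩ := ih a (lt_mul_of_one_lt_left (Nat.pos_of_ne_zero ha0) hp.one_lt) hoa
      (Squarefree.of_mul_right hs)
    have hpa : Int.gcd (p : ℤ) a = 1 := by rw [Int.gcd_natCast_natCast]; exact hco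
    have hap : Int.gcd (a : ℤ) p = 1 := by rw [Int.gcd_comm]; exact hpa
    have h1' : gsum (p * a) 1 = (J((a : ℤ) | p) : ℂ) * J((p : ℤ) | a) * (gsum p 1 * gsum a 1) := by
      rw [gsum_mul_of_coprime rfl hco, mul_one, mul_one, hP _ hap, hA _ hpa]
      ring
    refine ⟨fun x hx => ?_, ?_⟩
    · rw [← Int.isCoprime_iff_gcd_eq_one, Nat.cast_mul] at hx
      rw [← Int.isCoprime_iff_gcd_eq_one] at hpa hap
      have h3 : Int.gcd ((a : ℤ) * x) p = 1 :=
        Int.isCoprime_iff_gcd_eq_one.1 (hap.mul_left hx.of_mul_right_left)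
      have h4 : Int.gcd ((p : ℤ) * x) a = 1 :=
        Int.isCoprime_iff_gcd_eq_one.1 (hpa.mul_left hx.of_mul_right_right)
      rw [gsum_mul_of_coprime rfl hco, hP _ h3, hA _ h4, h1', jacobiSym.mul_left,
        jacobiSym.mul_left, jacobiSym.mul_right]
      push_cast
      ring
    · have s1 : (J((a : ℤ) | p) : ℂ) ^ 2 = 1 := by exact_mod_cast jacobiSym.sq_one hap
      have s2 : (J((p : ℤ) | a) : ℂ) ^ 2 = 1 := by exact_mod_cast jacobiSym.sq_one hpa
      rw [h1', mul_pow, mul_pow, mul_pow, s1, s2, hP2, hA2, jacobiSym.mul_right]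
      push_cast
      ring

/-! ### The two parts modulo powers of two -/

/-- The part at `2` of the Gauss sum of the principal form, up to the factor `8`. -/
def twoSum (w M : ZMod 8) : ℂ :=
  ZMod.stdAddChar (w * M) + ZMod.stdAddChar (w * (M + 2))

theorem stdAddChar_four : ZMod.stdAddChar (4 : ZMod 8) = -1 := by
  have := ZMod.stdAddChar_coe (N := 8) 4
  simp only [Int.cast_ofNat] at this
  rw [this, show (2 * π * I * 4 / ((8 : ℕ) : ℂ)) = π * I by push_cast; ring, exp_pi_mul_I]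

theorem stdAddChar_add_four (k : ZMod 8) :
    ZMod.stdAddChar (k + 4) = -ZMod.stdAddChar k := by
  rw [AddChar.map_add_eq_mul, stdAddChar_four, mul_neg_one]

theorem gsum_eight_mul_four {x m : ℤ} (hx : Odd x) (hm : Odd m) :
    gsum 8 (x * m) * gsum 4 x = 8 * twoSum (x : ZMod 8) (m : ZMod 8) := by
  obtain ⟨i, hi⟩ : Odd (x * m) := hx.mul hm
  have h4 : ((x * m : ℤ) : ZMod 8) * 4 = 4 := by
    rw [hi]; push_cast
    rw [add_mul, one_mul, mul_right_comm, show (2 : ZMod 8) * 4 = 0 by decide, zero_mul, zero_add]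
  have h8 : gsum 8 (x * m) = 4 * ZMod.stdAddChar ((x * m : ℤ) : ZMod 8) := by
    unfold gsum
    generalize ((x * m : ℤ) : ZMod 8) = w at h4
    show ∑ r : Fin 8, ZMod.stdAddChar (w * (r : ZMod 8) ^ 2) = _
    rw [Fin.sum_univ_eight]
    show ZMod.stdAddChar (w * (0 : ZMod 8)) +
      ZMod.stdAddChar (w * (1 : ZMod 8)) +
      ZMod.stdAddChar (w * (4 : ZMod 8)) +
      ZMod.stdAddChar (w * (1 : ZMod 8)) +
      ZMod.stdAddChar (w * (0 : ZMod 8)) +
      ZMod.stdAddChar (w * (1 : ZMod 8)) +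
      ZMod.stdAddChar (w * (4 : ZMod 8)) +
      ZMod.stdAddChar (w * (1 : ZMod 8)) = _
    simp only [mul_zero, mul_one, AddChar.map_zero_eq_one, h4, stdAddChar_four]
    ring
  have h2 : gsum 4 x = 2 * (1 + ZMod.stdAddChar ((2 * x : ℤ) : ZMod 8)) := by
    have hs : ZMod.stdAddChar ((2 * x : ℤ) : ZMod 8) = ZMod.stdAddChar (x : ZMod 4) :=
      stdAddChar_scale (k := 2) (n := 4) (N := 8) rfl x
    rw [hs]
    unfold gsum
    generalize (x : ZMod 4) = w
    show ∑ r : Fin 4, ZMod.stdAddChar (w * (r : ZMod 4) ^ 2) = _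
    rw [Fin.sum_univ_four]
    show ZMod.stdAddChar (w * (0 : ZMod 4)) +
      ZMod.stdAddChar (w * (1 : ZMod 4)) +
      ZMod.stdAddChar (w * (0 : ZMod 4)) +
      ZMod.stdAddChar (w * (1 : ZMod 4)) = _
    simp only [mul_zero, mul_one, AddChar.map_zero_eq_one]
    ring
  rw [h8, h2, twoSum, show ((x : ZMod 8) * ((m : ZMod 8) + 2)) =
    ((x * m : ℤ) : ZMod 8) + ((2 * x : ℤ) : ZMod 8) by push_cast; ring, AddChar.map_add_eq_mul]
  push_cast
  ring

theorem twoSum_sq {w M : ZMod 8} (hw : IsUnit w) (hM : IsUnit M) :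
    twoSum w M ^ 2 = -2 * (ZMod.χ₄ (ZMod.cast M) : ℂ) := by
  have key : ∀ w M : ZMod 8, IsUnit w → IsUnit M →
      w * (M + 2) + w * (M + 2) = w * M + w * M + 4 ∧
      (ZMod.χ₄ (ZMod.cast M) = 1 ∧ w * M + w * (M + 2) = 4 ∨
        ZMod.χ₄ (ZMod.cast M) = -1 ∧ w * M + w * (M + 2) = 0) := by decide
  obtain ⟨h1, h2⟩ := key w M hw hM
  rw [twoSum, add_sq, sq, sq, mul_assoc, ← AddChar.map_add_eq_mul, ← AddChar.map_add_eq_mul,
    ← AddChar.map_add_eq_mul, h1, stdAddChar_add_four]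
  rcases h2 with ⟨h, h'⟩ | ⟨h, h'⟩ <;> rw [h, h'] <;>
    simp [stdAddChar_four]

theorem twoSum_mul {w M u : ZMod 8} (hw : IsUnit w) (hM : IsUnit M) (hu : IsUnit u) :
    twoSum (w * u) M =
      ((ZMod.χ₈' u * (if ZMod.χ₄ (ZMod.cast u) = 1 then 1 else ZMod.χ₄ (ZMod.cast M)) : ℤ) : ℂ) *
        twoSum w M := by
  have hsq1 : ∀ z : ZMod 8, IsUnit z → z * z = 1 := by decide
  have key : ∀ w M u : ZMod 8, w * w = 1 → M * M = 1 → u * u = 1 →
      (ZMod.χ₈' u * (if ZMod.χ₄ (ZMod.cast u) = 1 then 1 else ZMod.χ₄ (ZMod.cast M)) = 1 ∧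
        (w * u * M = w * M ∧ w * u * (M + 2) = w * (M + 2) ∨
          w * u * M = w * (M + 2) ∧ w * u * (M + 2) = w * M)) ∨
      (ZMod.χ₈' u * (if ZMod.χ₄ (ZMod.cast u) = 1 then 1 else ZMod.χ₄ (ZMod.cast M)) = -1 ∧
        (w * u * M = w * M + 4 ∧ w * u * (M + 2) = w * (M + 2) + 4 ∨
          w * u * M = w * (M + 2) + 4 ∧ w * u * (M + 2) = w * M + 4)) := by decide
  rcases key w M u (hsq1 w hw) (hsq1 M hM) (hsq1 u hu) with ⟨hs, h | h⟩ | ⟨hs, h | h⟩
  · rw [twoSum, twoSum, hs, h.1, h.2, Int.cast_one, one_mul]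
  · rw [twoSum, twoSum, hs, h.1, h.2, Int.cast_one, one_mul, add_comm]
  · rw [twoSum, twoSum, hs, h.1, h.2, stdAddChar_add_four, stdAddChar_add_four]
    push_cast; ring
  · rw [twoSum, twoSum, hs, h.1, h.2, stdAddChar_add_four, stdAddChar_add_four]
    push_cast; ring

/-! ### Represented numbers -/

namespace BinForm

variable {d : ℕ}

theorem eval_pos (Q : BinForm d) (hd : 0 < d) {v : ℤ × ℤ} (hv : v ≠ 0) : 0 < Q.eval v := by
  have hA := Q.A_pos
  have hdisc := Q.disc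
  have hd' : (0 : ℤ) < d := by exact_mod_cast hd
  have key : Q.A * Q.eval v = (Q.A * v.1 + Q.B * v.2) ^ 2 + d * v.2 ^ 2 := by
    rw [eval, ← hdisc]; ring
  refine pos_of_mul_pos_right (key ▸ ?_) hA.le
  rcases eq_or_ne v.2 0 with h | h
  · have h1 : v.1 ≠ 0 := fun h1 => hv (Prod.ext h1 h)
    rw [h]; simp only [mul_zero, add_zero, ne_eq, OfNat.ofNat_ne_zero, not_false_eq_true, zero_pow]
    positivity
  · positivity

theorem jacobiSym_neg_eval_eq_one (Q : BinForm d) {v : ℤ × ℤ} (hv : Int.gcd v.1 v.2 = 1) {u : ℕ}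
    (hu : (u : ℤ) = Q.eval v) (hco : Int.gcd (-(d : ℤ)) u = 1) : J(-(d : ℤ) | u) = 1 := by
  refine (jacobiSym.eq_one_or_neg_one hco).resolve_right fun h => ?_
  obtain ⟨p, hp, hpu, hJ⟩ := jacobiSym.eq_neg_one_at_prime_divisor_of_eq_neg_one h
  have : Fact p.Prime := ⟨hp⟩
  have hpu' : (p : ℤ) ∣ Q.eval v := hu ▸ Int.natCast_dvd_natCast.2 hpu
  have h1 := jacobiSym.prime_dvd_of_eq_neg_one hJ (x := Q.A * v.1 + Q.B * v.2) (y := v.2) (by
    have : (Q.A * v.1 + Q.B * v.2) ^ 2 - -(d : ℤ) * v.2 ^ 2 = Q.A * Q.eval v := by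
      rw [eval, ← Q.disc]; ring
    rw [this]; exact hpu'.mul_left _)
  have h2 := jacobiSym.prime_dvd_of_eq_neg_one hJ (x := Q.B * v.1 + Q.C * v.2) (y := v.1) (by
    have : (Q.B * v.1 + Q.C * v.2) ^ 2 - -(d : ℤ) * v.1 ^ 2 = Q.C * Q.eval v := by
      rw [eval, ← Q.disc]; ring
    rw [this]; exact hpu'.mul_left _)
  have := Int.dvd_coe_gcd h2.2 h1.2
  rw [hv] at this
  exact hp.not_dvd_one (by exact_mod_cast this)

/-- A value prime to `c` can be taken at a primitive vector. -/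
theorem exists_primitive_rep (Q : BinForm d) {c : ℕ} (hc : c ≠ 1)
    (h : ∃ v, IsCoprime (Q.eval v) (c : ℤ)) :
    ∃ v, Int.gcd v.1 v.2 = 1 ∧ IsCoprime (Q.eval v) (c : ℤ) := by
  obtain ⟨v, hv⟩ := h
  have hv0 : 0 < Int.gcd v.1 v.2 := by
    refine Nat.pos_of_ne_zero fun h0 => hc ?_
    obtain ⟨h1, h2⟩ := Int.gcd_eq_zero_iff.1 h0
    simp only [eval, h1, h2, mul_zero, add_zero, ne_eq, OfNat.ofNat_ne_zero,
      not_false_eq_true, zero_pow, isCoprime_zero_left] at hv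
    exact_mod_cast Int.isUnit_iff_natAbs_eq.1 hv
  obtain ⟨x, y, hxy, h1, h2⟩ := Int.exists_gcd_one hv0
  refine ⟨(x, y), hxy, hv.of_isCoprime_of_dvd_left ⟨(Int.gcd v.1 v.2 : ℤ) ^ 2, ?_⟩⟩
  simp only [eval]
  generalize (Int.gcd v.1 v.2 : ℤ) = g at h1 h2
  rw [h1, h2]
  ring

theorem gauss_eq_principal (Q : BinForm d) {c : ℕ} [NeZero c] (a : ℤ) (v : ℤ × ℤ) {w : ℤ}
    (hw : ((Q.eval v * w : ℤ) : ZMod c) = 1) :
    Q.gauss c a 0 = (principal d).gauss c (a * w) 0 := by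
  simp only [eval] at hw
  push_cast at hw
  have hd : (Q.A : ZMod c) * Q.C - (Q.B : ZMod c) ^ 2 = (d : ZMod c) := by
    have := congrArg (Int.cast : ℤ → ZMod c) Q.disc
    push_cast at this; exact this
  set α : ZMod c := (Q.A : ZMod c) * v.1 + (Q.B : ZMod c) * v.2 with hα
  set β : ZMod c := (Q.B : ZMod c) * v.1 + (Q.C : ZMod c) * v.2 with hβ
  let e : ZMod c × ZMod c ≃ ZMod c × ZMod c :=
    { toFun := fun r => (α * r.1 + β * r.2, (v.1 : ZMod c) * r.2 - (v.2 : ZMod c) * r.1)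
      invFun := fun X => ((w : ZMod c) * ((v.1 : ZMod c) * X.1 - β * X.2),
        (w : ZMod c) * ((v.2 : ZMod c) * X.1 + α * X.2))
      left_inv := fun r => by
        refine Prod.ext ?_ ?_
        · dsimp only; rw [hα, hβ]; linear_combination r.1 * hw
        · dsimp only; rw [hα, hβ]; linear_combination r.2 * hw
      right_inv := fun r => by
        refine Prod.ext ?_ ?_
        · dsimp only; rw [hα, hβ]; linear_combination r.1 * hw
        · dsimp only; rw [hα, hβ]; linear_combination r.2 * hw }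
  refine Fintype.sum_equiv e _ _ fun r => congrArg _ ?_
  simp only [e, Equiv.coe_fn_mk, principal, evalMod, Prod.fst_zero, Prod.snd_zero, Int.cast_zero,
    zero_mul, add_zero, Int.cast_mul, Int.cast_one, Int.cast_natCast, hα, hβ]
  linear_combination
    -((a : ZMod c) * (Q.A * r.1 ^ 2 + 2 * Q.B * r.1 * r.2 + Q.C * r.2 ^ 2)) * hw +
    ((a : ZMod c) * w * ((v.1 : ZMod c) * r.2 - (v.2 : ZMod c) * r.1) ^ 2) * hd

theorem gauss_principal (c : ℕ) [NeZero c] (x : ℤ) :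
    (principal d).gauss c x 0 = gsum c x * gsum c (d * x) := by
  unfold gauss gsum
  rw [Fintype.sum_mul_sum, ← Fintype.sum_prod_type'
    (fun r s : ZMod c => ZMod.stdAddChar ((x : ZMod c) * r ^ 2) *
      ZMod.stdAddChar ((((d : ℤ) * x : ℤ) : ZMod c) * s ^ 2))]
  refine sum_congr rfl fun r _ => ?_
  rw [← AddChar.map_add_eq_mul]
  congr 1
  simp [principal, evalMod]
  ring

end BinForm

/-! ### The modulus `8mq` -/

section Modulus

variable {m q : ℕ} (hm : Odd m) (hsq : Squarefree m) (hq : q.Prime) (hq2 : q ≠ 2)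
  (hmq : m.Coprime q)

include hm hsq hq hq2 hmq

theorem principal_gauss_eq [NeZero (8 * m * q)] [NeZero m] {x : ℤ}
    (hx : IsCoprime x ((8 * m * q : ℕ) : ℤ)) :
    (BinForm.principal (2 * m)).gauss (8 * m * q) x 0 =
      16 * m * q * (J(-2 * (m : ℤ) | q) : ℂ) * J(8 | m) * gsum m 1 *
        (J(x * q | m) * twoSum ((x * q : ℤ) : ZMod 8) ((m : ℤ) : ZMod 8)) := by
  have : NeZero q := ⟨hq.ne_zero⟩
  have : Fact q.Prime := ⟨hq⟩
  have hqo : Odd q := hq.odd_of_ne_two hq2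
  have hx8 : Odd x := by
    have h := hx.of_isCoprime_of_dvd_right (show (2 : ℤ) ∣ ((8 * m * q : ℕ) : ℤ) from
      ⟨4 * m * q, by push_cast; ring⟩)
    exact Int.not_even_iff_odd.1 fun he => by
      have := h.isUnit_of_dvd' (even_iff_two_dvd.1 he) dvd_rfl
      exact absurd this (by decide)
  have gcd_of : ∀ {y : ℤ} {n : ℕ}, IsCoprime y (n : ℤ) → Int.gcd y n = 1 :=
    fun h => Int.isCoprime_iff_gcd_eq_one.1 h
  have hxm : IsCoprime x (m : ℤ) :=
    hx.of_isCoprime_of_dvd_right ⟨8 * q, by push_cast; ring⟩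
  have hxq : IsCoprime x (q : ℤ) :=
    hx.of_isCoprime_of_dvd_right ⟨8 * m, by push_cast; ring⟩
  have hmq' : IsCoprime (m : ℤ) (q : ℤ) := by rwa [Nat.isCoprime_iff_coprime]
  have h2m : IsCoprime (2 : ℤ) (m : ℤ) :=
    Int.isCoprime_iff_gcd_eq_one.2 (by simpa [Int.gcd] using hm.coprime_two_left)
  have h2q : IsCoprime (2 : ℤ) (q : ℤ) :=
    Int.isCoprime_iff_gcd_eq_one.2 (by simpa [Int.gcd] using hqo.coprime_two_left)
  have h8m : IsCoprime (8 : ℤ) (m : ℤ) := by simpa using h2m.pow_left (m := 3)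
  have h8q : IsCoprime (8 : ℤ) (q : ℤ) := by simpa using h2q.pow_left (m := 3)
  have h4q : IsCoprime (4 : ℤ) (q : ℤ) := by simpa using h2q.pow_left (m := 2)
  obtain ⟨hQ, hQ2⟩ := gsum_prime (p := q) hq2
  obtain ⟨hM, -⟩ := gsum_squarefree m hm hsq
  have : NeZero (4 * q) := ⟨by simp [hq.ne_zero]⟩
  have : NeZero (m * q) := ⟨mul_ne_zero (NeZero.ne m) hq.ne_zero⟩
  have c1 : Nat.Coprime 8 (m * q) := by
    simpa using (Nat.Coprime.mul_right hm.coprime_two_left hqo.coprime_two_left).pow_left 3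
  have c2 : Nat.Coprime 4 q := by simpa using hqo.coprime_two_left.pow_left 2
  rw [BinForm.gauss_principal, gsum_scale (k := 2 * m) (n := 4 * q) (y := x) (by ring) rfl,
    gsum_mul_of_coprime (a := 8) (b := m * q) (mul_assoc 8 m q) c1,
    gsum_mul_of_coprime (a := m) (b := q) rfl hmq, gsum_mul_of_coprime (a := 4) (b := q) rfl c2]
  simp only [Nat.cast_ofNat]
  rw [hQ _ (gcd_of (IsCoprime.mul_left hmq' (h8q.mul_left hxq))),
    hQ _ (gcd_of (h4q.mul_left hxq)),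
    hM _ (gcd_of (IsCoprime.mul_left hmq'.symm (h8m.mul_left hxm)))]
  have e2 := gsum_eight_mul_four (x := x * q) (m := m) (hx8.mul (by exact_mod_cast hqo))
    (by exact_mod_cast hm)
  rw [show ((((m * q : ℕ)) : ℤ) * x) = x * q * m by push_cast; ring, mul_comm (q : ℤ) x]
  have e1 : J((m : ℤ) * (8 * x) | q) * J(4 * x | q) * J(-1 | q) =
      J(-2 * (m : ℤ) | q) := by
    have s : J(4 * x | q) ^ 2 = 1 := jacobiSym.sq_one (gcd_of (h4q.mul_left hxq))
    rw [show ((m : ℤ) * (8 * x)) = 2 * m * (4 * x) by ring,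
      jacobiSym.mul_left, show (-2 * (m : ℤ)) = -1 * (2 * m) by ring, jacobiSym.mul_left (-1)]
    linear_combination (J(2 * (m : ℤ) | q) * J(-1 | q)) * s
  have e3 : J((q : ℤ) * (8 * x) | m) = J(8 | m) * J(x * q | m) := by
    rw [← jacobiSym.mul_left]; congr 1; ring
  rw [e3]
  push_cast at e1 e2 ⊢
  have e1' := congrArg (Int.cast : ℤ → ℂ) e1
  push_cast at e1'
  linear_combination
    (2 * m * (J((m : ℤ) * (8 * x) | q) : ℂ) * J(4 * x | q) * J(8 | m) * J(x * q | m) *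
      gsum m 1 * gsum q 1 ^ 2) * e2 +
    (16 * m * (J((m : ℤ) * (8 * x) | q) : ℂ) * J(4 * x | q) * J(8 | m) * J(x * q | m) *
      gsum m 1 * twoSum ((x : ZMod 8) * (q : ZMod 8)) (m : ZMod 8)) * hQ2 +
    (16 * m * q * (J(8 | m) : ℂ) * J(x * q | m) * gsum m 1 *
      twoSum ((x : ZMod 8) * (q : ZMod 8)) (m : ZMod 8)) * e1'

theorem principal_gauss_sq [NeZero (8 * m * q)] [NeZero m] {x : ℤ}
    (hx : IsCoprime x ((8 * m * q : ℕ) : ℤ)) :
    (BinForm.principal (2 * m)).gauss (8 * m * q) x 0 ^ 2 =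
      -(((8 * m * q : ℕ) : ℂ) ^ 2 * (8 * m)) := by
  have hqo : Odd q := hq.odd_of_ne_two hq2
  have h2m : IsCoprime (2 : ℤ) (m : ℤ) :=
    Int.isCoprime_iff_gcd_eq_one.2 (by simpa [Int.gcd] using hm.coprime_two_left)
  have h2q : IsCoprime (2 : ℤ) (q : ℤ) :=
    Int.isCoprime_iff_gcd_eq_one.2 (by simpa [Int.gcd] using hqo.coprime_two_left)
  have hxm : IsCoprime x (m : ℤ) :=
    hx.of_isCoprime_of_dvd_right ⟨8 * q, by push_cast; ring⟩
  have hmq' : IsCoprime (m : ℤ) (q : ℤ) := by rwa [Nat.isCoprime_iff_coprime]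
  have h1 : J(-2 * (m : ℤ) | q) ^ 2 = 1 :=
    jacobiSym.sq_one (Int.isCoprime_iff_gcd_eq_one.1 (h2q.neg_left.mul_left hmq'))
  have h2 : J(8 | m) ^ 2 = 1 :=
    jacobiSym.sq_one (Int.isCoprime_iff_gcd_eq_one.1 (by simpa using h2m.pow_left (m := 3)))
  have h3 : J(x * q | m) ^ 2 = 1 :=
    jacobiSym.sq_one (Int.isCoprime_iff_gcd_eq_one.1 (hxm.mul_left hmq'.symm))
  have h8 : ∀ {y : ℤ}, IsCoprime y 2 → IsUnit (y : ZMod 8) := fun {y} hy => by
    have := hy.pow_right (n := 3)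
    exact (ZMod.coe_int_isUnit_iff_isCoprime y 8).2 (by simpa [isCoprime_comm] using this)
  have hx2 : IsCoprime x 2 := hx.of_isCoprime_of_dvd_right ⟨4 * m * q, by push_cast; ring⟩
  have h4 := twoSum_sq (h8 (hx2.mul_left h2q.symm)) (h8 h2m.symm)
  have h5 : gsum m 1 ^ 2 = (ZMod.χ₄ (m : ZMod 4) : ℂ) * m := by
    rw [(gsum_squarefree m hm hsq).2, jacobiSym.at_neg_one hm]
  have h6 : ZMod.cast (((m : ℤ)) : ZMod 8) = (m : ZMod 4) := by
    rw [← ZMod.castHom_apply (h := (by norm_num : (4 : ℕ) ∣ 8)), map_intCast, Int.cast_natCast]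
  have h7 : (ZMod.χ₄ (m : ZMod 4) : ℂ) ^ 2 = 1 := by
    have : ((-1 : ℤ).gcd m) = 1 := by simp [Int.gcd]
    exact_mod_cast jacobiSym.at_neg_one hm ▸ jacobiSym.sq_one this
  rw [h6] at h4
  rw [principal_gauss_eq hm hsq hq hq2 hmq hx]
  simp only [mul_pow]
  rw [h4, h5, show ((J(-2 * (m : ℤ) | q) : ℂ)) ^ 2 = 1 by exact_mod_cast h1,
    show ((J(8 | m) : ℂ)) ^ 2 = 1 by exact_mod_cast h2,
    show ((J(x * q | m) : ℂ)) ^ 2 = 1 by exact_mod_cast h3]
  push_cast
  linear_combination (-(512 : ℂ) * m ^ 3 * q ^ 2) * h7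

theorem gauss_eq_of_rep [NeZero (8 * m * q)] [NeZero m] (Q : BinForm (2 * m))
    {a : ℤ} (ha : IsCoprime a ((8 * m * q : ℕ) : ℤ)) {v : ℤ × ℤ} (hv : Int.gcd v.1 v.2 = 1)
    (hu : IsCoprime (Q.eval v) ((8 * m * q : ℕ) : ℤ)) :
    Q.gauss (8 * m * q) a 0 = (BinForm.principal (2 * m)).gauss (8 * m * q) a 0 := by
  have hqo : Odd q := hq.odd_of_ne_two hq2
  have hpos : 0 < Q.eval v := Q.eval_pos (by have := hm.pos; omega) fun h => by simp [h] at hv
  obtain ⟨u, hue⟩ : ∃ u : ℕ, (u : ℤ) = Q.eval v := ⟨_, Int.toNat_of_nonneg hpos.le⟩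
  obtain ⟨w, z, hwz⟩ := hu
  have hw1 : ((Q.eval v * w : ℤ) : ZMod (8 * m * q)) = 1 := by
    have := congrArg (Int.cast : ℤ → ZMod (8 * m * q)) hwz
    simp only [Int.cast_add, Int.cast_mul, Int.cast_natCast, ZMod.natCast_self, mul_zero,
      add_zero, Int.cast_one] at this ⊢
    rw [← this]; ring
  have hwc : IsCoprime w ((8 * m * q : ℕ) : ℤ) := ⟨Q.eval v, z, by linear_combination hwz⟩
  rw [Q.gauss_eq_principal a v hw1]
  set x := a * w with hxdef
  have hu' : IsCoprime (u : ℤ) ((8 * m * q : ℕ) : ℤ) := hue ▸ ⟨w, z, hwz⟩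
  have hxc : IsCoprime x ((8 * m * q : ℕ) : ℤ) := ha.mul_left hwc
  have hcong : (a : ZMod (8 * m * q)) = ((x * u : ℤ) : ZMod (8 * m * q)) := by
    rw [hue, show x * Q.eval v = a * (Q.eval v * w) by rw [hxdef]; ring, Int.cast_mul, hw1, mul_one]
  have hG : (BinForm.principal (2 * m)).gauss (8 * m * q) a 0 =
      (BinForm.principal (2 * m)).gauss (8 * m * q) (x * u) 0 := by
    rw [BinForm.gauss, BinForm.gauss, hcong]
  rw [hG, principal_gauss_eq hm hsq hq hq2 hmq hxc,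
    principal_gauss_eq hm hsq hq hq2 hmq (hxc.mul_left hu')]
  have hu2 : IsCoprime (u : ℤ) 2 :=
    hu'.of_isCoprime_of_dvd_right ⟨4 * m * q, by push_cast; ring⟩
  have huo : Odd u := Int.odd_coe_nat u |>.1 (Int.not_even_iff_odd.1 fun he => by
    have := hu2.isUnit_of_dvd' (even_iff_two_dvd.1 he) dvd_rfl
    exact absurd this (by decide))
  have h8 : ∀ {y : ℤ}, IsCoprime y 2 → IsUnit (y : ZMod 8) := fun {y} hy => by
    have := hy.pow_right (n := 3)
    exact (ZMod.coe_int_isUnit_iff_isCoprime y 8).2 (by simpa [isCoprime_comm] using this)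
  have hx2 : IsCoprime x 2 := hxc.of_isCoprime_of_dvd_right ⟨4 * m * q, by push_cast; ring⟩
  have h2m : IsCoprime (2 : ℤ) (m : ℤ) :=
    Int.isCoprime_iff_gcd_eq_one.2 (by simpa [Int.gcd] using hm.coprime_two_left)
  have hm2 : IsUnit ((m : ℤ) : ZMod 8) := h8 h2m.symm
  have hxq8 : IsUnit ((x * q : ℤ) : ZMod 8) := h8 (hx2.mul_left
    (Int.isCoprime_iff_gcd_eq_one.2 (by simpa [Int.gcd] using hqo.coprime_two_right)))
  rw [show ((x * u * q : ℤ) : ZMod 8) = ((x * q : ℤ) : ZMod 8) * ((u : ℤ) : ZMod 8) by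
      push_cast; ring, twoSum_mul hxq8 hm2 (h8 hu2),
    show (x * u * q : ℤ) = x * q * u by ring, jacobiSym.mul_left (x * q)]
  -- quadratic reciprocity
  have hJ : J(-((2 * m : ℕ) : ℤ) | u) = 1 := Q.jacobiSym_neg_eval_eq_one hv hue
    (Int.isCoprime_iff_gcd_eq_one.1 (hu'.of_isCoprime_of_dvd_right
      ⟨4 * q, by push_cast; ring⟩).symm.neg_left)
  have hcast : ∀ n : ℕ, ZMod.cast ((n : ℤ) : ZMod 8) = (n : ZMod 4) := fun n => by
    rw [← ZMod.castHom_apply (h := (by norm_num : (4 : ℕ) ∣ 8)), map_intCast, Int.cast_natCast]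
  have key : ZMod.χ₈' ((u : ℤ) : ZMod 8) * (if ZMod.χ₄ (ZMod.cast ((u : ℤ) : ZMod 8)) = 1 then 1
      else ZMod.χ₄ (ZMod.cast ((m : ℤ) : ZMod 8))) * J((u : ℤ) | m) = 1 := by
    rw [show (-((2 * m : ℕ) : ℤ)) = -2 * (m : ℤ) by push_cast; ring, jacobiSym.mul_left,
      jacobiSym.at_neg_two huo, jacobiSym.quadratic_reciprocity' hm huo, qrSign] at hJ
    rw [hcast, hcast, Int.cast_natCast]
    rcases Nat.odd_mod_four_iff.1 (Nat.odd_iff.1 huo) with h | h
    · rw [ZMod.χ₄_nat_one_mod_four h] at hJ ⊢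
      rw [jacobiSym.one_left] at hJ
      rw [if_pos rfl, mul_assoc]
      exact hJ
    · rw [ZMod.χ₄_nat_three_mod_four h] at hJ ⊢
      rw [jacobiSym.at_neg_one hm] at hJ
      rw [if_neg (by decide), mul_assoc]
      exact hJ
  have key' := congrArg (Int.cast : ℤ → ℂ) key
  push_cast at key' ⊢
  linear_combination (-(16 * m * q * (J(-2 * (m : ℤ) | q) : ℂ) * J(8 | m) * gsum m 1 *
    J(x * q | m) * twoSum ((x : ZMod 8) * (q : ZMod 8)) (m : ZMod 8))) * key'

end Modulus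

/-- For `8m ∣ c` the product of the Gauss sums of any two forms is `-(c² · 8m)`. -/
theorem gauss_mul_gauss {m : ℕ} (hm : Odd m) (hsq : Squarefree m)
    (hshift : ∀ (Q : BinForm (2 * m)) (c c' : ℕ) [NeZero c] [NeZero c'] (a j : ℤ),
      4 * (2 * m) ∣ c → IsCoprime a (c : ℤ) →
      (c' : ℤ) = c + j * ((4 * (2 * m) : ℕ) : ℤ) * a →
      Q.gauss c' a 0 / c' = Q.gauss c a 0 / c)
    (Q Q' : BinForm (2 * m)) (c : ℕ) [NeZero c] (hN : 4 * (2 * m) ∣ c) (a : ℤ)
    (ha : IsCoprime a (c : ℤ)) :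
    Q.gauss c a 0 * Q'.gauss c a 0 = -((c : ℂ) ^ 2 * ((4 * (2 * m) : ℕ) : ℂ)) := by
  rw [show 4 * (2 * m) = 8 * m by ring] at hN ⊢
  obtain ⟨k, rfl⟩ := hN
  have hm0 : m ≠ 0 := hm.pos.ne'
  have : NeZero m := ⟨hm0⟩
  have ha0 : a.natAbs ≠ 0 := fun h => by
    rw [Int.natAbs_eq_zero.1 h, isCoprime_zero_left, Int.isUnit_iff_natAbs_eq] at ha
    have h1 : 8 * m * k = 1 := by exact_mod_cast ha
    have := Nat.eq_one_of_mul_eq_one_right (Nat.eq_one_of_mul_eq_one_right h1)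
    omega
  have hk : IsCoprime (k : ℤ) (a.natAbs : ℤ) := by
    have := (ha.of_isCoprime_of_dvd_right (show (k : ℤ) ∣ ((8 * m * k : ℕ) : ℤ) from
      ⟨8 * m, by push_cast; ring⟩)).symm
    rcases Int.natAbs_eq a with h | h
    · rwa [← h]
    · rw [show (a.natAbs : ℤ) = -a by omega]; exact this.neg_right
  obtain ⟨q, hql, hq, hmod⟩ :=
    Nat.forall_exists_prime_gt_and_modEq (2 * m + a.natAbs) ha0 (Nat.isCoprime_iff_coprime.1 hk)
  have hq2 : q ≠ 2 := by have := hm.pos; omega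
  have hmq : m.Coprime q :=
    ((hq.coprime_iff_not_dvd).2 fun h => by
      have := Nat.le_of_dvd hm.pos h; omega).symm
  have : NeZero q := ⟨hq.ne_zero⟩
  have : NeZero (8 * m * q) := ⟨by simp [hm0, hq.ne_zero]⟩
  obtain ⟨j, hj⟩ : (a : ℤ) ∣ (q : ℤ) - k := by
    rw [← Int.natAbs_dvd]
    exact Int.modEq_iff_dvd.1 (Int.natCast_modEq_iff.2 hmod).symm
  have hjeq : ((8 * m * q : ℕ) : ℤ) = ((8 * m * k : ℕ) : ℤ) +
      j * ((4 * (2 * m) : ℕ) : ℤ) * a := by
    push_cast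
    linear_combination (8 * (m : ℤ)) * hj
  have ha' : IsCoprime a ((8 * m * q : ℕ) : ℤ) := by
    have h1 : IsCoprime a ((8 * m : ℕ) : ℤ) := ha.of_isCoprime_of_dvd_right
      (Int.natCast_dvd_natCast.2 (dvd_mul_right _ _))
    have h2 : IsCoprime a (q : ℤ) := by
      rw [Int.isCoprime_iff_gcd_eq_one, Int.gcd, Int.natAbs_natCast]
      exact ((hq.coprime_iff_not_dvd).2 fun h => by
        have := Nat.le_of_dvd (Nat.pos_of_ne_zero ha0) h; omega).symm
    simpa using h1.mul_right h2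
  have hs : ∀ R : BinForm (2 * m),
      R.gauss (8 * m * k) a 0 / ((8 * m * k : ℕ) : ℂ) =
        (BinForm.principal (2 * m)).gauss (8 * m * q) a 0 / ((8 * m * q : ℕ) : ℂ) := fun R => by
    rw [← hshift R (8 * m * k) (8 * m * q) a j ⟨k, by ring⟩ ha hjeq]
    obtain ⟨v, hv, hvc⟩ := R.exists_primitive_rep
      (c := 8 * m * q) (fun h => by
        have := Nat.eq_one_of_mul_eq_one_left h; exact hq.ne_one this)
      (R.exists_rep_coprime (Nat.squarefree_mul hm.coprime_two_left |>.2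
        ⟨Nat.prime_two.squarefree, hsq⟩) (dvd_mul_right 2 m) (NeZero.ne _))
    rw [gauss_eq_of_rep hm hsq hq hq2 hmq R ha' hv hvc]
  have h0 : ((8 * m * k : ℕ) : ℂ) ≠ 0 := Nat.cast_ne_zero.2 (NeZero.ne _)
  have h1 : ((8 * m * q : ℕ) : ℂ) ≠ 0 := Nat.cast_ne_zero.2 (NeZero.ne _)
  have hQ := hs Q
  have hQ' := hs Q'
  rw [div_eq_iff h0] at hQ hQ'
  have hsqr := principal_gauss_sq hm hsq hq hq2 hmq ha'
  rw [hQ, hQ', div_mul_eq_mul_div, div_mul_div_comm,
    show ∀ z w : ℂ, z * w * (z * w) = z ^ 2 * w ^ 2 from fun z w => by ring, hsqr]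
  have hqC : (q : ℂ) ≠ 0 := Nat.cast_ne_zero.2 hq.ne_zero
  push_cast
  field_simp

end Fermat.Agent.TwoAdic.Theta
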