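import Fermat.Agent.HeckeDuality.DeligneSerre
import Fermat.Agent.IntegralStructure.Main

/-!
# An integral form which is an eigenform modulo two is congruent to an eigenform
-/

set_option autoImplicit false

noncomputable section

namespace Fermat.Agent.TwoAdic.Theta

open CongruenceSubgroup ModularFormClass
open Fermat.Agent.HeckeDuality

variable {N : ℕ} [NeZero N]

/-- `g` has integral coefficients congruent to `d • a` modulo two. -/
def CongTwo (a : ℕ → ℤ) (g : CuspForm (Gamma0 N) 2) (d : ℤ) : Prop :=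
  ∀ n, ∃ m : ℤ, qCoeff g n = (m : ℂ) ∧ (2 : ℤ) ∣ m - d * a n

/-- The recursion of an eigensystem modulo two. -/
def IsParityEigen (N : ℕ) (a : ℕ → ℤ) : Prop :=
  (2 : ℤ) ∣ a 1 - 1 ∧ ∀ ℓ : ℕ, ℓ.Prime → ∀ n : ℕ,
    (2 : ℤ) ∣ a (ℓ * n) + (if ℓ ∣ N then 0 else if ℓ ∣ n then a (n / ℓ) else 0) - a ℓ * a n

theorem two_dvd_cast_sub_one {ℓ : ℕ} (hℓ : ℓ.Prime) (h : ℓ ≠ 2) : (2 : ℤ) ∣ (ℓ : ℤ) - 1 := by
  obtain ⟨k, hk⟩ := hℓ.odd_of_ne_two h
  exact ⟨k, by rw [hk]; push_cast; ring⟩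

theorem congTwo_heckeOp (hN : 2 ∣ N) {a : ℕ → ℤ} (ha : IsParityEigen N a)
    {ℓ : ℕ} (hℓ : ℓ.Prime) {g : CuspForm (Gamma0 N) 2} {d : ℤ} (hg : CongTwo a g d) :
    CongTwo a ((heckeOp N 2 ℓ hℓ).1 g) (a ℓ * d) := by
  intro n
  obtain ⟨m₁, hm₁, h₁⟩ := hg (n * ℓ)
  obtain ⟨m₂, hm₂, h₂⟩ := hg (n / ℓ)
  have he := ha.2 ℓ hℓ n
  rw [mul_comm ℓ n] at he
  rw [coeff_heckeOp hℓ g n, hm₁, hm₂, eulerWeight]
  by_cases hNℓ : ℓ ∣ N
  · refine ⟨m₁, by simp [hNℓ], ?_⟩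
    rw [if_pos hNℓ, add_zero] at he
    have e : m₁ - a ℓ * d * a n = (m₁ - d * a (n * ℓ)) + d * (a (n * ℓ) - a ℓ * a n) := by ring
    rw [e]
    exact dvd_add h₁ (he.mul_left d)
  · rw [if_neg hNℓ] at he
    by_cases hd : ℓ ∣ n
    · refine ⟨m₁ + ℓ * m₂, by simp [hd, hNℓ], ?_⟩
      rw [if_pos hd] at he
      have hodd := two_dvd_cast_sub_one hℓ (fun h => hNℓ (h ▸ hN))
      have e : m₁ + (ℓ : ℤ) * m₂ - a ℓ * d * a n = (m₁ - d * a (n * ℓ)) +
          (ℓ : ℤ) * (m₂ - d * a (n / ℓ)) + ((ℓ : ℤ) - 1) * (d * a (n / ℓ)) +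
          d * (a (n * ℓ) + a (n / ℓ) - a ℓ * a n) := by ring
      rw [e]
      exact dvd_add (dvd_add (dvd_add h₁ (h₂.mul_left _)) (hodd.mul_right _)) (he.mul_left d)
    · refine ⟨m₁, by simp [hd], ?_⟩
      rw [if_neg hd, add_zero] at he
      have e : m₁ - a ℓ * d * a n = (m₁ - d * a (n * ℓ)) + d * (a (n * ℓ) - a ℓ * a n) := by ring
      rw [e]
      exact dvd_add h₁ (he.mul_left d)

/-- The character modulo two of the Hecke algebra cut out by a parity eigensystem. -/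
theorem exists_modTwo_character (hN : 2 ∣ N) {a : ℕ → ℤ} (ha : IsParityEigen N a)
    {f : CuspForm (Gamma0 N) 2} (hf : CongTwo a f 1) :
    ∃ χ : ↥(CuspForm.heckeAlgebra N 2 ∅) →+* ZMod 2,
      ∀ ℓ (hℓ : ℓ.Prime), χ (heckeOp N 2 ℓ hℓ) = (a ℓ : ZMod 2) := by
  let P : ↥(CuspForm.heckeAlgebra N 2 ∅) → Prop := fun t =>
    ∃ c : ℤ, ∀ g d, CongTwo a g d → CongTwo a (t.1 g) (c * d)
  have hP : ∀ t, P t := by
    rintro ⟨t, ht⟩
    show P ⟨t, ht⟩
    induction ht using Algebra.adjoin_induction with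
    | mem x hx =>
      rcases hx with ⟨ℓ, hℓ, hℓN, -, rfl⟩ | ⟨q, hqN, hq, -, rfl⟩
      · refine ⟨a ℓ, fun g d hg => ?_⟩
        have := congTwo_heckeOp hN ha hℓ hg
        rwa [heckeOp, dif_neg hℓN] at this
      · refine ⟨a q, fun g d hg => ?_⟩
        have := congTwo_heckeOp hN ha hq hg
        rwa [heckeOp, dif_pos hqN] at this
    | algebraMap r =>
      refine ⟨r, fun g d hg n => ?_⟩
      obtain ⟨m, hm, h2⟩ := hg n
      refine ⟨r * m, ?_, ?_⟩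
      · show qCoeff ⇑((algebraMap ℤ (Module.End ℂ (CuspForm (Gamma0 N) 2)) r) g) n = _
        rw [Module.algebraMap_end_apply, coeff_zsmul, hm]
        push_cast
        rfl
      · rw [mul_assoc, ← mul_sub]
        exact h2.mul_left _
    | add x y _ _ hx hy =>
      obtain ⟨cx, hcx⟩ := hx
      obtain ⟨cy, hcy⟩ := hy
      refine ⟨cx + cy, fun g d hg n => ?_⟩
      obtain ⟨m, hm, h2⟩ := hcx g d hg n
      obtain ⟨m', hm', h2'⟩ := hcy g d hg n
      refine ⟨m + m', ?_, ?_⟩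
      · show qCoeff ⇑((x + y) g) n = _
        rw [LinearMap.add_apply, coeff_add, hm, hm']
        push_cast
        rfl
      · rw [show m + m' - (cx + cy) * d * a n = (m - cx * d * a n) + (m' - cy * d * a n) by ring]
        exact dvd_add h2 h2'
    | mul x y _ _ hx hy =>
      obtain ⟨cx, hcx⟩ := hx
      obtain ⟨cy, hcy⟩ := hy
      refine ⟨cx * cy, fun g d hg => ?_⟩
      have := hcx _ _ (hcy g d hg)
      rw [mul_assoc]
      exact this
  choose c hc using hP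
  have h1 : ((a 1 : ℤ) : ZMod 2) = 1 := by
    have := (ZMod.intCast_zmod_eq_zero_iff_dvd (a 1 - 1) 2).2 (by exact_mod_cast ha.1)
    push_cast at this
    exact sub_eq_zero.1 this
  have huniq : ∀ (t : ↥(CuspForm.heckeAlgebra N 2 ∅)) (d : ℤ),
      CongTwo a (t.1 f) d → (c t : ZMod 2) = (d : ZMod 2) := by
    intro t d hd
    obtain ⟨m, hm, h2⟩ := hc t f 1 hf 1
    obtain ⟨m', hm', h2'⟩ := hd 1
    have hmm : m = m' := by exact_mod_cast hm.symm.trans hm'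
    subst hmm
    have e := (ZMod.intCast_zmod_eq_zero_iff_dvd _ 2).2 (by exact_mod_cast h2)
    have e' := (ZMod.intCast_zmod_eq_zero_iff_dvd _ 2).2 (by exact_mod_cast h2')
    push_cast at e e'
    rw [h1, mul_one] at e e'
    rw [mul_one, sub_eq_zero] at e
    rw [sub_eq_zero] at e'
    exact e.symm.trans e'
  have hcast : ∀ t, CongTwo a (t.1 f) (c t) := fun t => by
    simpa using hc t f 1 hf
  refine ⟨{ toFun := fun t => (c t : ZMod 2), map_one' := ?_, map_mul' := fun s t => ?_,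
            map_zero' := ?_, map_add' := fun s t => ?_ }, fun ℓ hℓ => ?_⟩
  · rw [huniq 1 1 (by simpa using hf), Int.cast_one]
  · rw [huniq (s * t) (c s * c t) (hc s _ _ (hcast t)), Int.cast_mul]
  · rw [huniq 0 0 (fun n => ⟨0, by
      show qCoeff ⇑((0 : Module.End ℂ (CuspForm (Gamma0 N) 2)) f) n = _
      simpa using (coeffLin N 2 n).map_zero, by simp⟩), Int.cast_zero]
  · rw [huniq (s + t) (c s + c t) ?_, Int.cast_add]
    intro n
    obtain ⟨m, hm, h2⟩ := hcast s n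
    obtain ⟨m', hm', h2'⟩ := hcast t n
    refine ⟨m + m', ?_, ?_⟩
    · show qCoeff ⇑((s.1 + t.1) f) n = _
      rw [LinearMap.add_apply, coeff_add, hm, hm']
      push_cast
      rfl
    · rw [show m + m' - (c s + c t) * a n = (m - c s * a n) + (m' - c t * a n) by ring]
      exact dvd_add h2 h2'
  · exact huniq _ _ (by simpa using congTwo_heckeOp hN ha hℓ hf)

/-- A form congruent modulo two to a parity eigensystem gives a congruent eigenform. -/
theorem exists_eigenform_of_congTwo (hN : 2 ∣ N) {a : ℕ → ℤ} (ha : IsParityEigen N a)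
    {f : CuspForm (Gamma0 N) 2} (hf : CongTwo a f 1) :
    ∃ (g : CuspForm (Gamma0 N) 2) (_ : g.IsNormalizedEigenform)
      (𝔪 : Ideal (integralClosure ℤ ℂ)), 𝔪.IsMaximal ∧ (2 : integralClosure ℤ ℂ) ∈ 𝔪 ∧
      ∀ ℓ : ℕ, ℓ.Prime → ∃ c : integralClosure ℤ ℂ, (c : ℂ) = qCoeff g ℓ ∧
        c - (a ℓ : integralClosure ℤ ℂ) ∈ 𝔪 := by
  obtain ⟨χ, hχ⟩ := exists_modTwo_character hN ha hf
  obtain ⟨g, hg, 𝔪, hm, h2, hc⟩ := exists_eigenform_lifting (p := 2)
    (IntegralStructure.hasIntegralStructure N 2) χ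
  exact ⟨g, hg, 𝔪, hm, by simpa using h2, fun ℓ hℓ => hc ℓ hℓ (a ℓ) (hχ ℓ hℓ)⟩

end Fermat.Agent.TwoAdic.Theta
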