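import Fermat.Agent.TwoAdic.Theta.CuspForm
import Fermat.Agent.TwoAdic.Theta.Residual
import Fermat.Agent.TwoAdic.Theta.Field
import Fermat.Agent.TwoAdic.Theta.Gauss
import Fermat.Agent.TwoAdic.Theta.Descent

/-!
# Residual modularity of the dihedral system modulo two, with minimal level

For `K = ℚ(√-2m)`, `m` odd squarefree, and a nontrivial character `χ` of order three of its class
group: `f = (∑_C χ(C) θ_C / 2) θ_{x² + 2m y²}` is a cusp form of weight two on `Γ₀(8m)` congruent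
modulo two to the dihedral system, so some newform of level dividing `2m` is congruent to it.
-/

set_option autoImplicit false

noncomputable section

namespace Fermat.Agent.TwoAdic.Theta

open CongruenceSubgroup ModularFormClass
open scoped NumberField nonZeroDivisors

variable {K : Type} [Field K] [NumberField K] (χ : ClassGroup (𝓞 K) →* Multiplicative (ZMod 3))

/-- The weight `χ(C)/2` of a class, as a complex number. -/
def classWeight (C : ClassGroup (𝓞 K)) : ℂ :=
  ZMod.stdAddChar (Multiplicative.toAdd (χ C)) / 2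

theorem classWeight_mul (C D : ClassGroup (𝓞 K)) :
    classWeight χ (C * D) = classWeight χ C * ZMod.stdAddChar (Multiplicative.toAdd (χ D)) := by
  rw [classWeight, classWeight, map_mul, toAdd_mul, AddChar.map_add_eq_mul]
  ring

theorem stdAddChar_three_ne_one {x : ZMod 3} (hx : x ≠ 0) : ZMod.stdAddChar x ≠ (1 : ℂ) := fun h =>
  hx (ZMod.injective_stdAddChar (h.trans (AddChar.map_zero_eq_one _).symm))

variable {χ}

theorem sum_classWeight (hχ : χ ≠ 1) : ∑ C, classWeight χ C = 0 := by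
  obtain ⟨C₀, hC₀⟩ : ∃ C₀, χ C₀ ≠ 1 := by
    by_contra! h
    exact hχ (MonoidHom.ext h)
  have h := Fintype.sum_equiv (Equiv.mulRight C₀) (fun C => classWeight χ (C * C₀))
    (fun C => classWeight χ C) fun C => rfl
  simp only [classWeight_mul, ← Finset.sum_mul] at h
  have h1 := stdAddChar_three_ne_one (x := Multiplicative.toAdd (χ C₀))
    (fun h0 => hC₀ (Multiplicative.toAdd.injective (h0.trans toAdd_one.symm)))
  by_contra hne
  exact h1 (mul_left_cancel₀ hne (h.trans (mul_one _).symm))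

theorem sum_classWeight_gauss {d : ℕ} (Q : ClassGroup (𝓞 K) → BinForm d) {c : ℕ} [NeZero c]
    {a : ℤ} {C₀ : ClassGroup (𝓞 K)} (hC₀ : χ C₀ ≠ 1)
    (h : ∀ C, (Q (C * C₀ * C₀)).gauss c a 0 = (Q C).gauss c a 0) :
    ∑ C, classWeight χ C * (Q C).gauss c a 0 = 0 := by
  have h2 := Fintype.sum_equiv (Equiv.mulRight (C₀ * C₀))
    (fun C => classWeight χ (C * (C₀ * C₀)) * (Q (C * C₀ * C₀)).gauss c a 0)
    (fun C => classWeight χ C * (Q C).gauss c a 0) (fun C => by
      simp [mul_assoc])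
  simp only [h, classWeight_mul χ _ (C₀ * C₀)] at h2
  set z : ℂ := ZMod.stdAddChar (Multiplicative.toAdd (χ (C₀ * C₀)))
  have hz : z ≠ 1 := stdAddChar_three_ne_one fun h0 => hC₀ (by
    rw [map_mul, toAdd_mul] at h0
    refine Multiplicative.toAdd.injective ?_
    rw [toAdd_one]
    generalize Multiplicative.toAdd (χ C₀) = x at h0 ⊢
    revert x
    decide)
  rw [show ∑ C, classWeight χ C * z * (Q C).gauss c a 0 =
    (∑ C, classWeight χ C * (Q C).gauss c a 0) * z by
      rw [Finset.sum_mul]; exact Finset.sum_congr rfl fun C _ => by ring] at h2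
  by_contra hne
  exact hz (mul_left_cancel₀ hne (h2.trans (mul_one _).symm))

theorem finite_absNorm_eq {n : ℕ} (hn : n ≠ 0) :
    Finite {J : Ideal (𝓞 K) // Ideal.absNorm J = n} :=
  (Ideal.finite_setOf_absNorm_eq (S := 𝓞 K) n).to_subtype

theorem mem_nonZeroDivisors_of_absNorm {n : ℕ} (hn : n ≠ 0) {J : Ideal (𝓞 K)}
    (hJ : Ideal.absNorm J = n) : J ∈ (Ideal (𝓞 K))⁰ := by
  rw [mem_nonZeroDivisors_iff_ne_zero]
  rintro rfl
  exact hn (by rw [← hJ]; simp)

variable (χ) in
/-- The weighted representation numbers are the dihedral coefficients. -/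
theorem sum_classWeight_repCount {d : ℕ} (Q : ClassGroup (𝓞 K) → BinForm d)
    (hQ : ∀ (n : ℕ) (C : ClassGroup (𝓞 K)), 0 < n → (Q C).repCount n =
        2 * Nat.card {J : (Ideal (𝓞 K))⁰ //
          Ideal.absNorm (J : Ideal (𝓞 K)) = n ∧ ClassGroup.mk0 J = C})
    (hcard : ∀ n : ℕ, Nat.card {J : Ideal (𝓞 K) // Ideal.absNorm J = n ∧ chiIdeal χ J = 1} =
      Nat.card {J : Ideal (𝓞 K) // Ideal.absNorm J = n ∧ chiIdeal χ J = 2})
    {n : ℕ} (hn : n ≠ 0) :
    ∑ C, classWeight χ C * ((Q C).repCount n : ℂ) = (dihedralCoeff χ n : ℂ) := by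
  classical
  have := finite_absNorm_eq (K := K) hn
  let T := {J : Ideal (𝓞 K) // Ideal.absNorm J = n}
  have : Fintype T := Fintype.ofFinite T
  let cls : T → ClassGroup (𝓞 K) := fun J =>
    ClassGroup.mk0 ⟨J.1, mem_nonZeroDivisors_of_absNorm hn J.2⟩
  have hchi : ∀ J : T, chiIdeal χ J.1 = Multiplicative.toAdd (χ (cls J)) := fun J => by
    rw [chiIdeal, dif_pos (mem_nonZeroDivisors_of_absNorm hn J.2)]
  have h1 : ∀ C, classWeight χ C * ((Q C).repCount n : ℂ) =
      ∑ J ∈ Finset.univ.filter (fun J : T => cls J = C), ZMod.stdAddChar (chiIdeal χ J.1) := by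
    intro C
    have hcardC : Nat.card {J : (Ideal (𝓞 K))⁰ //
        Ideal.absNorm (J : Ideal (𝓞 K)) = n ∧ ClassGroup.mk0 J = C} =
        (Finset.univ.filter (fun J : T => cls J = C)).card := by
      rw [← Fintype.card_subtype, ← Nat.card_eq_fintype_card]
      exact Nat.card_congr
        { toFun := fun J => ⟨⟨(J.1 : Ideal (𝓞 K)), J.2.1⟩, J.2.2⟩
          invFun := fun J => ⟨⟨J.1.1, mem_nonZeroDivisors_of_absNorm hn J.1.2⟩, J.1.2, J.2⟩
          left_inv := fun _ => rfl
          right_inv := fun _ => rfl }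
    rw [hQ n C (Nat.pos_of_ne_zero hn), hcardC,
      Finset.sum_congr rfl fun J hJ => by rw [hchi J, (Finset.mem_filter.1 hJ).2],
      Finset.sum_const, classWeight, nsmul_eq_mul]
    push_cast
    ring
  rw [Finset.sum_congr rfl fun C _ => h1 C,
    Finset.sum_fiberwise_of_maps_to (fun J _ => Finset.mem_univ (cls J)),
    ← Finset.sum_fiberwise (Finset.univ : Finset T) (fun J => chiIdeal χ J.1)]
  have h2 : ∀ x : ZMod 3, ∑ J ∈ Finset.univ.filter (fun J : T => chiIdeal χ J.1 = x),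
      ZMod.stdAddChar (chiIdeal χ J.1) =
      (Nat.card {J : Ideal (𝓞 K) // Ideal.absNorm J = n ∧ chiIdeal χ J = x} : ℂ) *
        ZMod.stdAddChar x := by
    intro x
    rw [Finset.sum_congr rfl fun J hJ => by rw [(Finset.mem_filter.1 hJ).2], Finset.sum_const,
      nsmul_eq_mul, ← Fintype.card_subtype, ← Nat.card_eq_fintype_card]
    congr 2
    exact Nat.card_congr (Equiv.subtypeSubtypeEquivSubtypeInter
      (fun J : Ideal (𝓞 K) => Ideal.absNorm J = n) (fun J => chiIdeal χ J = x))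
  rw [Finset.sum_congr rfl fun x _ => h2 x, dihedralCoeff, if_neg hn]
  have h3 : ∑ x : ZMod 3, ZMod.stdAddChar x = (0 : ℂ) :=
    AddChar.sum_eq_zero_of_ne_one (fun h => stdAddChar_three_ne_one (x := 1) (by decide)
      (DFunLike.congr_fun h 1))
  have huniv : (Finset.univ : Finset (ZMod 3)) = {0, 1, 2} := by decide
  rw [huniv] at h3 ⊢
  rw [Finset.sum_insert (by decide), Finset.sum_insert (by decide), Finset.sum_singleton] at h3 ⊢
  rw [AddChar.map_zero_eq_one] at h3 ⊢
  rw [← hcard n]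
  push_cast
  linear_combination
    (Nat.card {J : Ideal (𝓞 K) // Ideal.absNorm J = n ∧ chiIdeal χ J = 1} : ℂ) * h3

/-- The cusp form of level `8m` congruent modulo two to the dihedral system. -/
theorem exists_cuspForm_congTwo {m : ℕ} [NeZero m] (hm : Odd m) (hsq : Squarefree m)
    (hK : Module.finrank ℚ K = 2) (θ : K) (hθ : θ ^ 2 = -((2 * m : ℕ) : K)) (hχ : χ ≠ 1) :
    ∃ f : CuspForm (Gamma0 (8 * m)) 2, CongTwo (dihedralCoeff χ) f 1 := by
  classical
  obtain ⟨Q, hQ, hQc⟩ := exists_classForms hm hsq hK θ hθ χ hχ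
  have : NeZero (2 * m) := ⟨mul_ne_zero two_ne_zero (NeZero.ne m)⟩
  have hd : 0 < 2 * m := Nat.pos_of_ne_zero (NeZero.ne _)
  obtain ⟨f, hf⟩ := exists_cuspForm (classWeight χ) Q (BinForm.principal (2 * m))
    (sum_classWeight hχ)
    (fun C c _ a hN hac => gauss_mul_gauss hm hsq
      (fun Q' c c' _ _ a j h1 h2 h3 => Q'.gauss_shift hd c c' a j h1 h2 h3) _ _ c hN a hac)
    (fun c _ a _ => by
      obtain ⟨C₀, hC₀, hC⟩ := hQc c
      exact sum_classWeight_gauss Q hC₀ fun C => hC C a)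
  have hS : ∀ i, ∑ C, classWeight χ C * ((Q C).repCount i : ℂ) = (dihedralCoeff χ i : ℂ) := by
    intro i
    rcases eq_or_ne i 0 with rfl | hi
    · simp [fun C => (Q C).repCount_zero hd, sum_classWeight hχ, dihedralCoeff]
    · exact sum_classWeight_repCount χ Q hQ (card_chi_one_eq_two hm hsq hK θ hθ χ) hi
  have key : ∀ n, ∃ M : ℤ, qCoeff f n = (M : ℂ) ∧ (2 : ℤ) ∣ M - dihedralCoeff χ n := by
    intro n
    refine ⟨∑ p ∈ Finset.HasAntidiagonal.antidiagonal n,
      dihedralCoeff χ p.1 * ((BinForm.principal (2 * m)).repCount p.2 : ℤ), ?_, ?_⟩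
    · rw [hf n, prodCoeff, Int.cast_sum]
      exact Finset.sum_congr rfl fun p _ => by rw [hS]; push_cast; rfl
    · have hz : (((∑ p ∈ Finset.HasAntidiagonal.antidiagonal n,
          dihedralCoeff χ p.1 * ((BinForm.principal (2 * m)).repCount p.2 : ℤ)) -
            dihedralCoeff χ n : ℤ) : ZMod 2) = 0 := by
        push_cast
        rw [Finset.sum_eq_single (n, 0), BinForm.repCount_zero _ hd]
        · simp
        · rintro ⟨i, j⟩ hij hne
          rw [Finset.HasAntidiagonal.mem_antidiagonal] at hij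
          have hj : j ≠ 0 := fun h => hne (by subst h; simp at hij; subst hij; rfl)
          rw [(ZMod.natCast_eq_zero_iff_even).2 ((BinForm.principal (2 * m)).even_repCount hd hj),
            mul_zero]
        · simp
      exact_mod_cast (ZMod.intCast_zmod_eq_zero_iff_dvd _ 2).1 hz
  have hN : 4 * (2 * m) = 8 * m := by ring
  rw [← hN]
  exact ⟨f, fun n => by simpa using key n⟩

/-- **Residual modularity of level `8m`.** -/
theorem exists_eigenform_dihedral {m : ℕ} [NeZero m] (hm : Odd m) (hsq : Squarefree m)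
    (hK : Module.finrank ℚ K = 2) (θ : K) (hθ : θ ^ 2 = -((2 * m : ℕ) : K)) (hχ : χ ≠ 1) :
    ∃ (g : CuspForm (Gamma0 (8 * m)) 2) (_ : g.IsNormalizedEigenform)
      (𝔪 : Ideal (integralClosure ℤ ℂ)), 𝔪.IsMaximal ∧ (2 : integralClosure ℤ ℂ) ∈ 𝔪 ∧
      ∀ p : ℕ, p.Prime → ∃ c : integralClosure ℤ ℂ, (c : ℂ) = qCoeff g p ∧
        c - ((dihedralParity χ p).val : integralClosure ℤ ℂ) ∈ 𝔪 := by
  have : NeZero (8 * m) := ⟨mul_ne_zero (by norm_num) (NeZero.ne m)⟩
  obtain ⟨f, hf⟩ := exists_cuspForm_congTwo hm hsq hK θ hθ hχ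
  obtain ⟨h1, hrec⟩ := parity_recursion hm hsq hK θ hθ χ
  have ha : IsParityEigen (8 * m) (dihedralCoeff χ) := by
    refine ⟨?_, fun p hp n => ?_⟩
    · have : (((dihedralCoeff χ 1 - 1 : ℤ)) : ZMod 2) = 0 := by
        push_cast
        exact sub_eq_zero.2 h1
      exact_mod_cast (ZMod.intCast_zmod_eq_zero_iff_dvd _ 2).1 this
    · have hiff : p ∣ 8 * m ↔ p ∣ 2 * m := by
        constructor <;> intro h <;> rcases hp.dvd_mul.1 h with h' | h'
        · exact dvd_mul_of_dvd_left ((Nat.Prime.dvd_of_dvd_pow (m := 2) (n := 3) hp h')) m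
        · exact dvd_mul_of_dvd_right h' 2
        · exact dvd_mul_of_dvd_left (h'.trans (by norm_num)) m
        · exact dvd_mul_of_dvd_right h' 8
      have hp' := hrec p hp n
      simp only [dihedralParity] at hp'
      have : ((dihedralCoeff χ (p * n) + (if p ∣ 8 * m then 0 else if p ∣ n then
          dihedralCoeff χ (n / p) else 0) - dihedralCoeff χ p * dihedralCoeff χ n : ℤ) : ZMod 2) = 0 := by
        push_cast
        rw [sub_eq_zero, ← hp']
        simp only [hiff, apply_ite (Int.cast : ℤ → ZMod 2), Int.cast_zero]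
      exact_mod_cast (ZMod.intCast_zmod_eq_zero_iff_dvd _ 2).1 this
  obtain ⟨g, hg, 𝔪, hmax, h2, hcong⟩ := exists_eigenform_of_congTwo
    (dvd_mul_of_dvd_left (by norm_num) m) ha hf
  refine ⟨g, hg, 𝔪, hmax, h2, fun p hp => ?_⟩
  obtain ⟨c, hc, hcm⟩ := hcong p hp
  refine ⟨c, hc, ?_⟩
  obtain ⟨k, hk⟩ := (ZMod.intCast_eq_intCast_iff_dvd_sub
    ((dihedralParity χ p).val : ℤ) (dihedralCoeff χ p) 2).1 (by simp [dihedralParity])
  have hk' : ((dihedralCoeff χ p : ℤ) : integralClosure ℤ ℂ) -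
      ((dihedralParity χ p).val : integralClosure ℤ ℂ) = 2 * (k : integralClosure ℤ ℂ) := by
    have := congrArg (Int.cast : ℤ → integralClosure ℤ ℂ) hk
    push_cast at this
    exact this
  rw [show c - ((dihedralParity χ p).val : integralClosure ℤ ℂ) =
    (c - (dihedralCoeff χ p : integralClosure ℤ ℂ)) + 2 * (k : integralClosure ℤ ℂ) by
      rw [← hk']; ring]
  exact add_mem hcm (Ideal.mul_mem_right _ _ h2)

/-- **The dihedral system modulo two comes from a newform of level dividing `2m`.** -/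
theorem exists_newform_dihedral {m : ℕ} [NeZero m] (hm : Odd m) (hsq : Squarefree m)
    (hK : Module.finrank ℚ K = 2) (θ : K) (hθ : θ ^ 2 = -((2 * m : ℕ) : K)) (hχ : χ ≠ 1) :
    ∃ (L : ℕ) (g : CuspForm (Gamma0 L) 2), L ∣ 2 * m ∧ g.IsNewform ∧
      ∃ 𝔪 : Ideal (integralClosure ℤ ℂ), 𝔪.IsMaximal ∧ (2 : integralClosure ℤ ℂ) ∈ 𝔪 ∧
        ∀ p : ℕ, p.Prime → ¬ p ∣ 2 * m → ∃ c : integralClosure ℤ ℂ,
          (c : ℂ) = qCoeff g p ∧ c - ((dihedralParity χ p).val : integralClosure ℤ ℂ) ∈ 𝔪 := by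
  obtain ⟨g, hg, 𝔪, hmax, h2, hcong⟩ := exists_eigenform_dihedral hm hsq hK θ hθ hχ
  obtain ⟨p, hp, -, hpm, hpar⟩ := exists_prime_parity hm hsq hK θ hθ χ hχ ∅
  exact exists_newform_of_congruent hm hsq _ g hg 𝔪 hmax h2 (fun q hq _ => hcong q hq)
    ⟨p, hp, hpm, hpar⟩

end Fermat.Agent.TwoAdic.Theta
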