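import Fermat.Agent.TwoAdic.Theta.Field
import Fermat.Agent.TwoAdic.Theta.Main
import Fermat.Agent.GaloisReps.OfInjective
import Fermat.Agent.FiniteFlat.Injective
import Fermat.Agent.TwoAdic.Curve.TwoTorsion
import Fermat.Agent.TwoAdic.CFT.Main
import Fermat.Agent.GaloisReps.Attach
import Fermat.Prelude.Def_CuspForm_Newforms
import Fermat.Agent.Arith.Chebotarev.Main

/-!
# The dihedral system is the mod two system of the curve

Let `ρ` be a mod two representation of a form with the dihedral parities, `t` its trace. Then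
`t` vanishes outside `G_K` and on the elements fixing `W[2]`, and is `1` at a Frobenius of parity
`1`; the identity `tr (A U A⁻¹ U) = tr A tr U x - x² - (det U) (tr A)² + 2 det A det U`,
`x = tr (A U)`, then forces `t` to be the trace on `W[2]`.
-/

set_option autoImplicit false
set_option linter.style.haveILetI false

noncomputable section

namespace Fermat.Agent.TwoAdic.Theta

open scoped NumberField
open Fermat.Agent.Arith (QBar GQ)
open Fermat.Agent.TwoAdic.Curve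
open WeierstrassCurve

theorem trace_conj_identity {R : Type*} [CommRing R] (A U : Matrix (Fin 2) (Fin 2) R) :
    (A * U * A.adjugate * U).trace = A.trace * U.trace * (A * U).trace - (A * U).trace ^ 2
      - U.det * A.trace ^ 2 + 2 * (A.det * U.det) := by
  simp [Matrix.trace_fin_two, Matrix.det_fin_two, Matrix.adjugate_fin_two, Matrix.mul_apply,
    Fin.sum_univ_two]
  ring

theorem perm_moves_cases : ∀ π π₀ : Equiv.Perm (Fin 3), (∀ i, π i ≠ i) → (∀ i, π₀ i ≠ i) →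
    π = π₀ ∨ π = π₀ * π₀ := by decide

theorem perm_not_moves_of_sign : ∀ π : Equiv.Perm (Fin 3), Equiv.Perm.sign π ≠ 1 →
    ¬ ∀ i, π i ≠ i := by decide

theorem perm_moves_or_eq_one : ∀ π : Equiv.Perm (Fin 3), Equiv.Perm.sign π = 1 →
    (∀ i, π i ≠ i) ∨ π = 1 := by decide

variable {W : WeierstrassCurve ℤ} (hW : IsTwoAdicCurve W)
include hW

/-- The trace of a representation with dihedral parities is the trace on `W[2]`. -/
theorem trace_eq_moves {k : Type} [Field k] [CharP k 2] (ρ : ResidualGaloisRep k) (S : Finset ℕ)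
    (par : ℕ → ZMod 2)
    (hfrob : ∀ q : ℕ, q.Prime → q ∉ S → ∀ A : ValuationSubring QBar, A.LiesOverPrime q →
      ∀ σ : GQ, A.IsFrobeniusAt σ q →
        LinearMap.trace k ρ.V (ρ.ρ σ) = ((par q).val : k) ∧ LinearMap.det (ρ.ρ σ) = 1 ∧
        (par q = 1 → σ (sqrtDisc W) = sqrtDisc W ∧ perm hW.delta_ne_zero σ ≠ 1))
    (hex : ∃ q : ℕ, q.Prime ∧ q ∉ S ∧ par q = 1) (g : GQ) :
    LinearMap.trace k ρ.V (ρ.ρ g) = if ∀ i, perm hW.delta_ne_zero g i ≠ i then 1 else 0 := by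
  classical
  set π := perm hW.delta_ne_zero
  obtain ⟨L, hL, hLρ⟩ := ρ.factorsThroughFiniteLevel
  let R : IntermediateField ℚ QBar := IntermediateField.adjoin ℚ (Set.range (root W))
  haveI : FiniteDimensional ℚ R :=
    IntermediateField.finiteDimensional_adjoin fun x _ => Algebra.IsIntegral.isIntegral x
  haveI := hL
  -- every element looks like a Frobenius
  have cheb : ∀ g : GQ, ∃ q : ℕ, q.Prime ∧ q ∉ S ∧
      LinearMap.trace k ρ.V (ρ.ρ g) = ((par q).val : k) ∧ LinearMap.det (ρ.ρ g) = 1 ∧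
      (par q = 1 → Equiv.Perm.sign (π g) = 1 ∧ π g ≠ 1) := fun g => by
    obtain ⟨q, hq, hqS, A, hA, σ, hσ, he⟩ := Arith.Chebotarev.exists_frobenius_eq
      (ρ.ρ.prod π) (L ⊔ R) (fun σ hσ => Prod.ext (hLρ σ fun x hx => hσ x (SetLike.le_def.1 le_sup_left hx))
        ((perm_eq_one_iff _).2 fun i => hσ _ (SetLike.le_def.1 le_sup_right
          (IntermediateField.subset_adjoin _ _ ⟨i, rfl⟩)))) g S
    obtain ⟨ht, hd, hp⟩ := hfrob q hq hqS A hA σ hσ
    simp only [MonoidHom.prod_apply, Prod.mk.injEq] at he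
    rw [← he.1, ← he.2]
    exact ⟨q, hq, hqS, ht, hd, fun h => ⟨(sign_perm_eq_one_iff _).2 (hp h).1, (hp h).2⟩⟩
  have h01 : ∀ c : ZMod 2, c = 0 ∨ c = 1 := by decide
  have hdet : ∀ g : GQ, LinearMap.det (ρ.ρ g) = 1 := fun g => (cheb g).choose_spec.2.2.2.1
  have hzero : ∀ g : GQ, Equiv.Perm.sign (π g) ≠ 1 ∨ π g = 1 →
      LinearMap.trace k ρ.V (ρ.ρ g) = 0 := fun g hg => by
    obtain ⟨q, -, -, ht, -, hp⟩ := cheb g
    rcases h01 (par q) with h | h
    · rw [ht, h]; simp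
    · rcases hg with hg | hg
      · exact absurd (hp h).1 hg
      · exact absurd hg (hp h).2
  let b := Module.finBasisOfFinrankEq k ρ.V ρ.finrank_eq
  let M : GQ → Matrix (Fin 2) (Fin 2) k := fun g => LinearMap.toMatrix b b (ρ.ρ g)
  have htr : ∀ g, LinearMap.trace k ρ.V (ρ.ρ g) = (M g).trace := fun g =>
    LinearMap.trace_eq_matrix_trace k b _
  have hMdet : ∀ g, (M g).det = 1 := fun g => by
    rw [LinearMap.det_toMatrix]; exact hdet g
  have hmul : ∀ g h, M (g * h) = M g * M h := fun g h => by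
    simp only [M, map_mul, LinearMap.toMatrix_mul]
  have hinv : ∀ g, M g⁻¹ = (M g).adjugate := fun g => by
    have h1 : M g⁻¹ * M g = 1 := by
      rw [← hmul, inv_mul_cancel]; simp [M, map_one, LinearMap.toMatrix_one]
    calc M g⁻¹ = M g⁻¹ * (M g * (M g).adjugate) := by
          rw [Matrix.mul_adjugate, hMdet, one_smul, mul_one]
      _ = (M g).adjugate := by rw [← mul_assoc, h1, one_mul]
  -- the key step
  have key : ∀ a u : GQ, LinearMap.trace k ρ.V (ρ.ρ a) = 1 → π u = 1 →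
      LinearMap.trace k ρ.V (ρ.ρ (a * u)) = 1 := fun a u ha hu => by
    have h0 := hzero (a * u * a⁻¹ * u) (Or.inr (by simp [map_mul, map_inv, hu]))
    have hu0 := hzero u (Or.inr hu)
    rw [htr] at h0 ha hu0 ⊢
    rw [hmul, hmul, hmul, hinv, trace_conj_identity, hMdet, hMdet, ha, hu0, ← hmul] at h0
    have h2 : (2 : k) = 0 := CharTwo.two_eq_zero
    have : ((M (a * u)).trace - 1) ^ 2 = 0 := by
      linear_combination -h0 + (1 - (M (a * u)).trace) * h2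
    exact sub_eq_zero.1 (pow_eq_zero_iff two_ne_zero |>.1 this)
  obtain ⟨q₀, hq₀, hq₀S, hpar₀⟩ := hex
  obtain ⟨A₀, hA₀⟩ := Arith.exists_liesOverPrime hq₀
  obtain ⟨σ₀, hσ₀⟩ := Arith.exists_isFrobeniusAt hA₀ hq₀
  obtain ⟨ht₀, -, hp₀⟩ := hfrob q₀ hq₀ hq₀S A₀ hA₀ σ₀ hσ₀
  rw [hpar₀, ZMod.val_one, Nat.cast_one] at ht₀
  have hmv₀ : ∀ i, π σ₀ i ≠ i :=
    (perm_moves_or_eq_one _ ((sign_perm_eq_one_iff _).2 (hp₀ hpar₀).1)).resolve_right (hp₀ hpar₀).2
  have hsq : LinearMap.trace k ρ.V (ρ.ρ (σ₀ * σ₀)) = 1 := by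
    rw [htr] at ht₀ ⊢
    have h : ∀ A : Matrix (Fin 2) (Fin 2) k, (A * A).trace = A.trace ^ 2 - 2 * A.det := fun A => by
      simp [Matrix.trace_fin_two, Matrix.det_fin_two, Matrix.mul_apply, Fin.sum_univ_two]
      ring
    rw [hmul, h, ht₀]
    linear_combination -(M σ₀).det * (CharTwo.two_eq_zero : (2 : k) = 0)
  by_cases hg : ∀ i, π g i ≠ i
  · rw [if_pos hg]
    rcases perm_moves_cases _ _ hg hmv₀ with h | h
    · have := key σ₀ (σ₀⁻¹ * g) ht₀ (by simp [map_mul, map_inv, h])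
      rwa [mul_inv_cancel_left] at this
    · have := key (σ₀ * σ₀) ((σ₀ * σ₀)⁻¹ * g) hsq (by simp [map_mul, map_inv, h])
      rwa [mul_inv_cancel_left] at this
  · rw [if_neg hg]
    refine hzero g ?_
    by_cases hs : Equiv.Perm.sign (π g) = 1
    · exact Or.inr ((perm_moves_or_eq_one _ hs).resolve_left hg)
    · exact Or.inl hs

/-- A form with the dihedral parities is congruent to the curve modulo two. -/
theorem congruent_of_dihedral
    (hD : ∀ (N p : ℕ) [NeZero N] [Fact p.Prime], Nonempty (GaloisReps.HeckeGaloisModel N p))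
    {m : ℕ} (hbad : ∀ q : ℕ, q.Prime → (q ∣ 2 * m ↔ (q : ℤ) ∣ W.Δ))
    (χ : ClassGroup (𝓞 (CFT.quadField W)) →* Multiplicative (ZMod 3))
    (hA : ∀ q : ℕ, q.Prime → ∀ A : ValuationSubring QBar, A.LiesOverPrime q →
      ∀ σ : GQ, A.IsFrobeniusAt σ q → perm hW.delta_ne_zero σ = 1 →
        ∀ P : Ideal (𝓞 (CFT.quadField W)), Ideal.absNorm P = q → chiIdeal χ P = 0)
    (hpar : ∀ p : ℕ, p.Prime → ¬ p ∣ 2 * m →
      (dihedralParity χ p = 1 ↔ ∃ P : Ideal (𝓞 (CFT.quadField W)), Ideal.absNorm P = p ∧ chiIdeal χ P ≠ 0))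
    (hex : ∀ S : Finset ℕ, ∃ p : ℕ, p.Prime ∧ p ∉ S ∧ ¬ p ∣ 2 * m ∧ dihedralParity χ p = 1)
    {L : ℕ} (hL : L ∣ 2 * m) {g : CuspForm (CongruenceSubgroup.Gamma0 L) 2}
    (hg : g.IsNormalizedEigenform) {𝔪 : Ideal (integralClosure ℤ ℂ)} (hmax : 𝔪.IsMaximal)
    (h2 : (2 : integralClosure ℤ ℂ) ∈ 𝔪)
    (hcong : ∀ p : ℕ, p.Prime → ¬ p ∣ 2 * m → ∃ c : integralClosure ℤ ℂ,
      (c : ℂ) = ModularFormClass.qCoeff g p ∧
        c - ((dihedralParity χ p).val : integralClosure ℤ ℂ) ∈ 𝔪) :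
    ∀ q : ℕ, q.Prime → W.IsGoodPrimeFor q → ∃ c : integralClosure ℤ ℂ,
      (c : ℂ) = ModularFormClass.qCoeff g q ∧
        c - ((W.apOfModel q : ℤ) : integralClosure ℤ ℂ) ∈ 𝔪 := by
  classical
  letI : Field (integralClosure ℤ ℂ ⧸ 𝔪) := Ideal.Quotient.field 𝔪
  haveI : CharP (integralClosure ℤ ℂ ⧸ 𝔪) 2 :=
    (CharP.charP_iff_prime_eq_zero Nat.prime_two).2 (by
      rw [← map_natCast (Ideal.Quotient.mk 𝔪) 2, Ideal.Quotient.eq_zero_iff_mem]
      exact_mod_cast h2)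
  set φ := Ideal.Quotient.mk 𝔪
  obtain ⟨ρ, hatt, -⟩ := GaloisReps.exists_residual_eigenform hD hg Nat.prime_two φ
  have htwo : ∀ q : ℕ, q.Prime → ¬ q ∣ 2 * m → q ≠ 2 := fun q _ hd h => hd (h ▸ dvd_mul_right 2 m)
  have hSm : ∀ q : ℕ, q ∉ (2 * m).divisors → 2 * m ≠ 0 → ¬ q ∣ 2 * m := fun q hq h0 hd =>
    hq (Nat.mem_divisors.2 ⟨hd, h0⟩)
  have hm0 : 2 * m ≠ 0 := fun h => by
    obtain ⟨l, hl, hlg⟩ := Nat.exists_infinite_primes (W.Δ.natAbs + 1) |>.imp fun l h => h.symm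
    exact absurd (Nat.le_of_dvd (Int.natAbs_pos.2 hW.delta_ne_zero)
      (Int.ofNat_dvd_left.1 ((hbad l hl).1 (h ▸ dvd_zero l)))) (by omega)
  -- facts at Frobenius elements
  have hfrob : ∀ q : ℕ, q.Prime → ¬ q ∣ 2 * m → ∀ A : ValuationSubring QBar, A.LiesOverPrime q →
      ∀ σ : GQ, A.IsFrobeniusAt σ q →
        LinearMap.trace _ ρ.V (ρ.ρ σ) = (((dihedralParity χ q).val : ℕ) : integralClosure ℤ ℂ ⧸ 𝔪)
          ∧ LinearMap.det (ρ.ρ σ) = 1 ∧
        (dihedralParity χ q = 1 → σ (sqrtDisc W) = sqrtDisc W ∧ perm hW.delta_ne_zero σ ≠ 1) := by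
    intro q hq hqm A hAq σ hσ
    have hodd := hq.odd_of_ne_two (htwo q hq hqm)
    have hq1 : ((q : ℕ) : integralClosure ℤ ℂ ⧸ 𝔪) = 1 := by
      rw [CharTwo.natCast_eq_ite, if_neg (Nat.not_even_iff_odd.2 hodd)]
    obtain ⟨a, ha, hchar⟩ := hatt q hq (fun h => hqm (h.trans hL)) (by rw [hq1]; exact one_ne_zero)
      A hAq σ hσ
    obtain ⟨c, hc, hcm⟩ := hcong q hq hqm
    have hac : a = c := Subtype.ext (ha.trans hc.symm)
    have hfree := ρ.finrank_eq
    refine ⟨?_, ?_, fun hone => ?_⟩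
    · rw [LinearMap.trace_eq_matrix_trace _ (Module.finBasisOfFinrankEq _ ρ.V ρ.finrank_eq),
        Matrix.trace_eq_neg_charpoly_coeff, LinearMap.charpoly_toMatrix, hchar, Fintype.card_fin]
      simp only [Polynomial.coeff_add, Polynomial.coeff_sub, Polynomial.coeff_X_pow,
        Polynomial.coeff_C_mul, Polynomial.coeff_X, Polynomial.coeff_C]
      norm_num
      rw [hac, ← sub_eq_zero, ← ZMod.natCast_val, ← map_natCast φ, ← map_sub, Ideal.Quotient.eq_zero_iff_mem]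
      exact hcm
    · rw [LinearMap.det_eq_sign_charpoly_coeff, hchar, hfree]
      simp [hq1]
    · obtain ⟨P, hP, hPne⟩ := (hpar q hq hqm).1 hone
      exact ⟨(CFT.exists_absNorm_eq_iff hW.delta_neg hq (htwo q hq hqm)
          (fun h => hqm ((hbad q hq).2 h)) hAq hσ).1 ⟨P, hP⟩,
        fun h1 => hPne (hA q hq A hAq σ hσ h1 P hP)⟩
  intro q hq hgood
  have hqm : ¬ q ∣ 2 * m := fun h => hgood ((hbad q hq).1 h)
  obtain ⟨A, hAq⟩ := Arith.exists_liesOverPrime hq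
  obtain ⟨σ, hσ⟩ := Arith.exists_isFrobeniusAt hAq hq
  obtain ⟨c, hc, hcm⟩ := hcong q hq hqm
  refine ⟨c, hc, ?_⟩
  have ht := trace_eq_moves hW ρ (2 * m).divisors (dihedralParity χ)
    (fun l hl hlS => hfrob l hl (hSm l hlS hm0))
    (by obtain ⟨p, hp, hpS, -, hp1⟩ := hex (2 * m).divisors; exact ⟨p, hp, hpS, hp1⟩) σ
  rw [(hfrob q hq hqm A hAq σ hσ).1] at ht
  rw [← Ideal.Quotient.eq_zero_iff_mem, map_sub, sub_eq_zero] at hcm ⊢
  rw [hcm, map_natCast, ht, map_intCast]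
  have hap := apOfModel_mod_two hW.delta_ne_zero hq hgood (htwo q hq hqm) hAq hσ
  rw [← ZMod.cast_intCast (R := integralClosure ℤ ℂ ⧸ 𝔪) (n := 2) dvd_rfl (W.apOfModel q), hap]
  split_ifs <;> simp

/-- **The newform of level dividing `2m` congruent to the curve modulo two.** -/
theorem exists_newform_congruent :
    ∃ (m L : ℕ) (g : CuspForm (CongruenceSubgroup.Gamma0 L) 2), Odd m ∧ Squarefree m ∧
      (∀ q : ℕ, q.Prime → (q ∣ 2 * m ↔ (q : ℤ) ∣ W.Δ)) ∧ L ∣ 2 * m ∧ g.IsNewform ∧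
      ∃ 𝔪 : Ideal (integralClosure ℤ ℂ), 𝔪.IsMaximal ∧ (2 : integralClosure ℤ ℂ) ∈ 𝔪 ∧
        ∀ q : ℕ, q.Prime → W.IsGoodPrimeFor q → ∃ c : integralClosure ℤ ℂ,
          (c : ℂ) = ModularFormClass.qCoeff g q ∧
            c - ((W.apOfModel q : ℤ) : integralClosure ℤ ℂ) ∈ 𝔪 := by
  obtain ⟨m, s, hmo, hmsq, hs, hΔ, hbad'⟩ :=
    CFT.exists_eq_neg_two_mul_mul_sq hW.delta_neg hW.two_dvd hW.odd_val
  have hbad : ∀ q : ℕ, q.Prime → (q ∣ 2 * m ↔ (q : ℤ) ∣ W.Δ) := fun q hq => by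
    by_cases h2 : q = 2
    · subst h2
      exact iff_of_true (dvd_mul_right 2 m) hW.two_dvd
    · rw [← hbad' q hq h2]
      exact ⟨fun h => (hq.dvd_mul.1 h).resolve_left fun h' =>
        h2 ((Nat.prime_dvd_prime_iff_eq hq Nat.prime_two).1 h'), fun h => h.mul_left 2⟩
  haveI : NeZero m := ⟨hmo.pos.ne'⟩
  obtain ⟨χ, hχ, hA, -⟩ := CFT.exists_classChar hW
  have hθ : (CFT.sqrtDiscK W / (s : CFT.quadField W)) ^ 2 = -((2 * m : ℕ) : CFT.quadField W) := by
    rw [div_pow, CFT.sqrtDiscK_sq, hΔ]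
    push_cast
    field_simp
  have hK := CFT.finrank_quadField hW.delta_neg
  have hA' : ∀ q : ℕ, q.Prime → ∀ A : ValuationSubring QBar, A.LiesOverPrime q →
      ∀ σ : GQ, A.IsFrobeniusAt σ q → perm hW.delta_ne_zero σ = 1 →
        ∀ P : Ideal (𝓞 (CFT.quadField W)), Ideal.absNorm P = q → chiIdeal χ P = 0 :=
    fun q hq A hAq σ hσ hperm P hP => by
      unfold chiIdeal
      split_ifs with h
      · rw [hA q hq A hAq σ hσ hperm ⟨P, h⟩ hP, toAdd_one]
      · rfl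
  obtain ⟨L, g, hL, hg, 𝔪, hmax, h2, hcong⟩ := exists_newform_dihedral hmo hmsq hK _ hθ hχ
  exact ⟨m, L, g, hmo, hmsq, hbad, hL, hg, 𝔪, hmax, h2,
    congruent_of_dihedral hW
      (GaloisReps.models_of_injective fun N _ => EichlerShimura.injectiveOnTorsion N) hbad χ hA'
      (fun p hp hpm => parity_prime hmo hmsq hK _ hθ χ hp hpm)
      (exists_prime_parity hmo hmsq hK _ hθ χ hχ) hL hg.1 hmax h2 hcong⟩

end Fermat.Agent.TwoAdic.Theta
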