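import Mathlib.NumberTheory.ModularForms.JacobiTheta.TwoVariable
import Mathlib.Analysis.Normed.Ring.InfiniteSum
import Mathlib.Analysis.Normed.Group.Tannery
import Mathlib.Analysis.Complex.LocallyUniformLimit
import Mathlib.Analysis.Complex.UpperHalfPlane.FunctionsBoundedAtInfty
import Mathlib.Analysis.Complex.UpperHalfPlane.Manifold
import Mathlib.Analysis.Complex.Periodic
import Fermat.Agent.TwoAdic.Theta.Defs

/-!
# Analysis of the theta series of a binary quadratic form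

Two dimensional Poisson summation (by iterating the Jacobi functional equation), the behaviour
of `θ_Q` under `SL(2, ℤ)`, the transformation law on `Γ₀(4d)`, and the `q`-expansion.
-/

set_option autoImplicit false

noncomputable section

open Complex Filter
open UpperHalfPlane hiding I I_im I_re
open scoped Real MatrixGroups Topology Manifold

namespace Fermat.Agent.TwoAdic.Theta

/-! ### One variable -/

/-- A shifted Gaussian sum. -/
theorem tsum_exp_shift (w t : ℂ) :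
    ∑' n : ℤ, cexp (2 * π * I * w * ((n : ℂ) + t) ^ 2) =
      1 / (-I * (2 * w)) ^ (1 / 2 : ℂ) *
        ∑' k : ℤ, cexp (2 * π * I * k * t - π * I * k ^ 2 / (2 * w)) := by
  rcases eq_or_ne w 0 with rfl | hw
  · simp
  have h1 : ∀ n : ℤ, cexp (2 * π * I * w * ((n : ℂ) + t) ^ 2) =
      cexp (2 * π * I * w * t ^ 2) * jacobiTheta₂_term n (2 * w * t) (2 * w) := by
    intro n
    rw [jacobiTheta₂_term, ← Complex.exp_add]
    ring_nf
  have h2 : ∀ k : ℤ, cexp (2 * π * I * k * t - π * I * k ^ 2 / (2 * w)) =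
      jacobiTheta₂_term k (2 * w * t / (2 * w)) (-1 / (2 * w)) := by
    intro k
    rw [jacobiTheta₂_term]
    congr 1
    field_simp
    ring
  rw [tsum_congr h1, tsum_mul_left, ← jacobiTheta₂, jacobiTheta₂_functional_equation,
    tsum_congr h2, ← jacobiTheta₂]
  have h3 : cexp (2 * π * I * w * t ^ 2) * cexp (-π * I * (2 * w * t) ^ 2 / (2 * w)) = 1 := by
    rw [← Complex.exp_add, ← Complex.exp_zero]
    congr 1
    field_simp
    ring
  linear_combination (1 / (-I * (2 * w)) ^ (1 / 2 : ℂ) *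
    jacobiTheta₂ (2 * w * t / (2 * w)) (-1 / (2 * w))) * h3

/-- A Gaussian in one integer variable, shifted by a real number, is summable. -/
theorem summable_exp_neg_sq {r : ℝ} (hr : 0 < r) (s : ℝ) :
    Summable fun n : ℤ => Real.exp (-r * ((n : ℝ) + s) ^ 2) := by
  have h := (summable_jacobiTheta₂_term_iff ((r / π * s : ℝ) * I) ((r / π : ℝ) * I)).2
    (by simp; positivity)
  have h' := (h.norm.mul_left (Real.exp (-r * s ^ 2)))
  refine h'.congr fun n => ?_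
  rw [norm_jacobiTheta₂_term, ← Real.exp_add]
  congr 1
  simp only [ofReal_mul, mul_im, ofReal_re, I_im, mul_one, ofReal_im, I_re, mul_zero, add_zero,
    mul_re, zero_mul, sub_zero]
  field_simp
  ring

theorem summable_mul_exp_neg_sq {r r' : ℝ} (hr : 0 < r) (hr' : 0 < r') (s s' : ℝ) :
    Summable fun x : ℤ × ℤ =>
      Real.exp (-r * ((x.1 : ℝ) + s) ^ 2) * Real.exp (-r' * ((x.2 : ℝ) + s') ^ 2) :=
  (summable_exp_neg_sq hr s).mul_of_nonneg (summable_exp_neg_sq hr' s')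
    (fun _ => (Real.exp_pos _).le) (fun _ => (Real.exp_pos _).le)

theorem sqrt_pos_cpow {r : ℝ} (hr : 0 < r) {x : ℂ} (hx : x ≠ 0) :
    ((r : ℂ) * x) ^ (1 / 2 : ℂ) = ((√r : ℝ) : ℂ) * x ^ (1 / 2 : ℂ) := by
  have hr0 : (r : ℂ) ≠ 0 := by exact_mod_cast hr.ne'
  rw [Real.sqrt_eq_rpow, ofReal_cpow hr.le, cpow_def_of_ne_zero (mul_ne_zero hr0 hx),
    log_ofReal_mul hr hx, cpow_def_of_ne_zero hr0, cpow_def_of_ne_zero hx,
    ← ofReal_log hr.le, ← Complex.exp_add]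
  congr 1
  push_cast
  ring

namespace BinForm

variable {d : ℕ} (Q : BinForm d)

/-- The value at a real vector. -/
def evalR (Q : BinForm d) (x y : ℝ) : ℝ := Q.A * x ^ 2 + 2 * Q.B * x * y + Q.C * y ^ 2

theorem disc_real : (Q.A : ℝ) * Q.C - (Q.B : ℝ) ^ 2 = d := by
  exact_mod_cast congrArg (fun t : ℤ => (t : ℝ)) Q.disc

theorem disc_complex : (Q.A : ℂ) * Q.C - (Q.B : ℂ) ^ 2 = d := by
  exact_mod_cast congrArg (fun t : ℤ => (t : ℂ)) Q.disc

theorem evalR_eq (v : ℤ × ℤ) : Q.evalR v.1 v.2 = (Q.eval v : ℝ) := by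
  simp [evalR, eval]

theorem evalR_bound (hd : 0 < d) (x y : ℝ) :
    (d : ℝ) / Q.C * x ^ 2 / 2 + (d : ℝ) / Q.A * y ^ 2 / 2 ≤ Q.evalR x y := by
  have hA : (0 : ℝ) < Q.A := by exact_mod_cast Q.A_pos
  have hC : (0 : ℝ) < Q.C := by exact_mod_cast Q.C_pos hd
  have h1 : (d : ℝ) / Q.C * x ^ 2 ≤ Q.evalR x y := by
    rw [div_mul_eq_mul_div, div_le_iff₀ hC, evalR, ← Q.disc_real]
    nlinarith [sq_nonneg ((Q.B : ℝ) * x + Q.C * y)]
  have h2 : (d : ℝ) / Q.A * y ^ 2 ≤ Q.evalR x y := by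
    rw [div_mul_eq_mul_div, div_le_iff₀ hA, evalR, ← Q.disc_real]
    nlinarith [sq_nonneg ((Q.A : ℝ) * x + Q.B * y)]
  linarith

theorem evalR_nonneg (hd : 0 < d) (x y : ℝ) : 0 ≤ Q.evalR x y := by
  refine le_trans ?_ (Q.evalR_bound hd x y)
  have hA : (0 : ℝ) < Q.A := by exact_mod_cast Q.A_pos
  have hC : (0 : ℝ) < Q.C := by exact_mod_cast Q.C_pos hd
  positivity

theorem eval_nonneg (hd : 0 < d) (v : ℤ × ℤ) : 0 ≤ Q.eval v := by
  have := Q.evalR_nonneg hd v.1 v.2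
  rw [evalR_eq] at this
  exact_mod_cast this

theorem sq_le_mul_eval (v : ℤ × ℤ) :
    (d : ℤ) * v.1 ^ 2 ≤ Q.C * Q.eval v ∧ (d : ℤ) * v.2 ^ 2 ≤ Q.A * Q.eval v := by
  rw [← Q.disc]
  constructor
  · simp only [eval]; nlinarith [sq_nonneg (Q.B * v.1 + Q.C * v.2)]
  · simp only [eval]; nlinarith [sq_nonneg (Q.A * v.1 + Q.B * v.2)]

theorem eval_eq_zero_iff (hd : 0 < d) {v : ℤ × ℤ} : Q.eval v = 0 ↔ v = 0 := by
  refine ⟨fun h => ?_, fun h => by simp [h, eval]⟩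
  obtain ⟨h1, h2⟩ := Q.sq_le_mul_eval v
  rw [h, mul_zero] at h1 h2
  have hd' : (0 : ℤ) < d := by exact_mod_cast hd
  have e1 : v.1 ^ 2 = 0 := le_antisymm (by nlinarith) (sq_nonneg _)
  have e2 : v.2 ^ 2 = 0 := le_antisymm (by nlinarith) (sq_nonneg _)
  exact Prod.ext (pow_eq_zero_iff two_ne_zero |>.1 e1) (pow_eq_zero_iff two_ne_zero |>.1 e2)

theorem norm_exp_eval (u : ℂ) (x y : ℝ) :
    ‖cexp (2 * π * I * u * (Q.evalR x y : ℂ))‖ = Real.exp (-(2 * π * u.im) * Q.evalR x y) := by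
  rw [Complex.norm_exp]
  congr 1
  simp [mul_re, mul_im]

theorem norm_exp_eval_le (hd : 0 < d) {u : ℂ} {T : ℝ} (hT : 0 ≤ T) (hu : T ≤ u.im) (x y : ℝ) :
    ‖cexp (2 * π * I * u * (Q.evalR x y : ℂ))‖ ≤
      Real.exp (-(π * T * d / Q.C) * x ^ 2) * Real.exp (-(π * T * d / Q.A) * y ^ 2) := by
  rw [norm_exp_eval, ← Real.exp_add, Real.exp_le_exp]
  have h1 := Q.evalR_bound hd x y
  have h2 := Q.evalR_nonneg hd x y
  have h3 : 0 ≤ (u.im - T) * Q.evalR x y := mul_nonneg (by linarith) h2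
  have h4 := mul_le_mul_of_nonneg_left h1 (show 0 ≤ 2 * π * T by positivity)
  calc -(2 * π * u.im) * Q.evalR x y ≤ -(2 * π * T) * Q.evalR x y := by
        nlinarith [Real.pi_pos]
    _ ≤ _ := by
        rw [show -(π * T * d / Q.C) * x ^ 2 + -(π * T * d / Q.A) * y ^ 2 =
          -(2 * π * T * ((d : ℝ) / Q.C * x ^ 2 / 2 + (d : ℝ) / Q.A * y ^ 2 / 2)) by ring]
        linarith

theorem summable_bound (hd : 0 < d) {T : ℝ} (hT : 0 < T) (s₁ s₂ : ℝ) :
    Summable fun v : ℤ × ℤ => Real.exp (-(π * T * d / Q.C) * ((v.1 : ℝ) + s₁) ^ 2) *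
      Real.exp (-(π * T * d / Q.A) * ((v.2 : ℝ) + s₂) ^ 2) := by
  have hA : (0 : ℝ) < Q.A := by exact_mod_cast Q.A_pos
  have hC : (0 : ℝ) < Q.C := by exact_mod_cast Q.C_pos hd
  exact summable_mul_exp_neg_sq (by positivity) (by positivity) s₁ s₂

/-- The series over a translate of the lattice. -/
def shiftSum (Q : BinForm d) (z : ℂ) (s : ℝ × ℝ) : ℂ :=
  ∑' v : ℤ × ℤ, cexp (2 * π * I * z * (Q.evalR ((v.1 : ℝ) + s.1) ((v.2 : ℝ) + s.2) : ℂ))

theorem summable_shiftSum (hd : 0 < d) {z : ℂ} (hz : 0 < z.im) (s : ℝ × ℝ) :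
    Summable fun v : ℤ × ℤ =>
      cexp (2 * π * I * z * (Q.evalR ((v.1 : ℝ) + s.1) ((v.2 : ℝ) + s.2) : ℂ)) :=
  (Q.summable_bound hd hz s.1 s.2).of_norm_bounded fun _ =>
    Q.norm_exp_eval_le hd hz.le le_rfl _ _

/-- Poisson summation for a translate of `ℤ²`. -/
theorem shiftSum_eq (hd : 0 < d) {z : ℂ} (hz : 0 < z.im) (s : ℝ × ℝ) :
    Q.shiftSum z s = I / (z * ((Real.sqrt (4 * d : ℕ) : ℝ) : ℂ)) * ∑' n : ℤ × ℤ,
      cexp (2 * π * I * ((n.1 : ℂ) * s.1 + n.2 * s.2 -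
        ((Q.adj hd).eval n : ℂ) / ((4 * d : ℕ) * z))) := by
  obtain ⟨s₁, s₂⟩ := s
  have hA : (0 : ℝ) < Q.A := by exact_mod_cast Q.A_pos
  have hdR : (0 : ℝ) < d := by exact_mod_cast hd
  have hA0 : (Q.A : ℂ) ≠ 0 := by exact_mod_cast hA.ne'
  have hd0 : (d : ℂ) ≠ 0 := by exact_mod_cast hd.ne'
  have hz0 : z ≠ 0 := fun h => by simp [h] at hz
  set w : ℂ := z * (d / Q.A) with hw
  have hw_im : 0 < w.im := by
    rw [hw, show (d : ℂ) / Q.A = (((d : ℝ) / Q.A : ℝ) : ℂ) by push_cast; ring, im_mul_ofReal]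
    positivity
  -- the mixed summand, after transforming the first variable
  let F : ℤ × ℤ → ℂ := fun x =>
    cexp (2 * π * I * x.1 * (s₁ + Q.B / Q.A * (x.2 + s₂)) - π * I * x.1 ^ 2 / (2 * (z * Q.A))) *
      cexp (2 * π * I * w * ((x.2 : ℂ) + s₂) ^ 2)
  have hF : Summable F := by
    have hr : 0 < π * z.im / (2 * Q.A * normSq z) := by
      have := normSq_pos.2 hz0
      positivity
    have hr' : 0 < 2 * π * w.im := by positivity
    refine (summable_mul_exp_neg_sq hr hr' 0 s₂).of_norm_bounded fun x => le_of_eq ?_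
    simp only [F, norm_mul, Complex.norm_exp]
    congr 1
    · congr 1
      rw [show π * I * (x.1 : ℂ) ^ 2 / (2 * (z * Q.A)) =
        ((π * (x.1 : ℝ) ^ 2 / (2 * Q.A) : ℝ) : ℂ) * (I * z⁻¹) by push_cast; field_simp]
      rw [show 2 * π * I * (x.1 : ℂ) * (s₁ + Q.B / Q.A * (x.2 + s₂)) =
        ((2 * π * x.1 * (s₁ + Q.B / Q.A * (x.2 + s₂)) : ℝ) : ℂ) * I by push_cast; ring]
      simp only [sub_re, re_ofReal_mul, I_re, I_mul_re, inv_im, mul_zero, zero_sub, add_zero]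
      ring
    · congr 1
      rw [show 2 * π * I * w * ((x.2 : ℂ) + s₂) ^ 2 =
        ((2 * π * ((x.2 : ℝ) + s₂) ^ 2 : ℝ) : ℂ) * (I * w) by push_cast; ring]
      simp only [re_ofReal_mul, I_mul_re]
      ring
  have hsum := Q.summable_shiftSum hd hz (s₁, s₂)
  have hinner : ∀ y : ℤ, ∑' x : ℤ,
      cexp (2 * π * I * z * (Q.evalR ((x : ℝ) + s₁) ((y : ℝ) + s₂) : ℂ)) =
      1 / (-I * (2 * (z * Q.A))) ^ (1 / 2 : ℂ) * ∑' n : ℤ, F (n, y) := by
    intro y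
    have h1 : ∀ x : ℤ, cexp (2 * π * I * z * (Q.evalR ((x : ℝ) + s₁) ((y : ℝ) + s₂) : ℂ)) =
        cexp (2 * π * I * (z * Q.A) * ((x : ℂ) + (s₁ + Q.B / Q.A * (y + s₂))) ^ 2) *
          cexp (2 * π * I * w * ((y : ℂ) + s₂) ^ 2) := by
      intro x
      rw [← Complex.exp_add, hw, ← Q.disc_complex]
      congr 1
      simp only [evalR]
      push_cast
      field_simp
      ring
    rw [tsum_congr h1, tsum_mul_right, tsum_exp_shift, mul_assoc, ← tsum_mul_right]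
  have houter : ∀ n : ℤ, ∑' y : ℤ, F (n, y) = 1 / (-I * (2 * w)) ^ (1 / 2 : ℂ) * ∑' k : ℤ,
      cexp (2 * π * I * ((n : ℂ) * s₁ + k * s₂ -
        ((Q.adj hd).eval (n, k) : ℂ) / ((4 * d : ℕ) * z))) := by
    intro n
    have h1 : ∀ y : ℤ, F (n, y) =
        cexp (2 * π * I * n * s₁ - π * I * n ^ 2 / (2 * (z * Q.A)) -
            π * I * (n * Q.B / Q.A) ^ 2 / (2 * w)) *
          cexp (2 * π * I * w * ((y : ℂ) + (s₂ + n * Q.B / Q.A / (2 * w))) ^ 2) := by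
      intro y
      simp only [F]
      rw [← Complex.exp_add, ← Complex.exp_add]
      congr 1
      have hw0 : w ≠ 0 := fun h => by simp [h] at hw_im
      field_simp
      ring
    rw [tsum_congr h1, tsum_mul_left, tsum_exp_shift, mul_left_comm, ← tsum_mul_left]
    congr 1
    refine tsum_congr fun k => ?_
    rw [← Complex.exp_add, hw]
    congr 1
    simp only [eval, adj]
    push_cast
    rw [← Q.disc_complex]
    have hdc : (Q.A : ℂ) * Q.C - (Q.B : ℂ) ^ 2 ≠ 0 := by rw [Q.disc_complex]; exact hd0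
    field_simp
    ring
  let G : ℤ × ℤ → ℂ := fun n => cexp (2 * π * I * ((n.1 : ℂ) * s₁ + n.2 * s₂ -
    ((Q.adj hd).eval n : ℂ) / ((4 * d : ℕ) * z)))
  have hG : Summable G := by
    have h0 : 0 < (-1 / ((4 * d : ℕ) * z)).im := by
      rw [neg_div, neg_im, one_div, inv_im, neg_div, neg_neg,
        show (((4 * d : ℕ) : ℂ) * z).im = ((4 * d : ℕ) : ℝ) * z.im by simp]
      exact div_pos (by positivity) (normSq_pos.2 (mul_ne_zero (by simp [hd.ne']) hz0))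
    refine ((Q.adj hd).summable_bound hd h0 0 0).of_norm_bounded fun n => ?_
    simp only [G, add_zero]
    refine le_trans (le_of_eq ?_) ((Q.adj hd).norm_exp_eval_le hd h0.le le_rfl _ _)
    rw [evalR_eq, show 2 * π * I * ((n.1 : ℂ) * s₁ + n.2 * s₂ -
        ((Q.adj hd).eval n : ℂ) / ((4 * d : ℕ) * z)) =
      ((2 * π * ((n.1 : ℝ) * s₁ + n.2 * s₂) : ℝ) : ℂ) * I +
        2 * π * I * (-1 / ((4 * d : ℕ) * z)) * (((Q.adj hd).eval n : ℝ) : ℂ) by push_cast; ring,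
      Complex.exp_add, norm_mul, norm_exp_ofReal_mul_I, one_mul]
  rw [shiftSum, ← (Equiv.prodComm ℤ ℤ).tsum_eq,
    Summable.tsum_prod (by exact hsum.comp_injective (Equiv.prodComm ℤ ℤ).injective)]
  simp only [Equiv.prodComm_apply, Prod.swap]
  rw [tsum_congr hinner, tsum_mul_left,
    Summable.tsum_comm (f := fun n y : ℤ => F (n, y)) hF, tsum_congr houter, tsum_mul_left,
    ← hG.tsum_prod, ← mul_assoc]
  congr 1
  have e1 : -I * (2 * (z * Q.A)) = ((2 * Q.A : ℝ) : ℂ) * (-I * z) := by push_cast; ring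
  have e2 : -I * (2 * w) = ((2 * (d / Q.A) : ℝ) : ℂ) * (-I * z) := by rw [hw]; push_cast; ring
  have hIz : -I * z ≠ 0 := mul_ne_zero (neg_ne_zero.2 I_ne_zero) hz0
  rw [e1, e2, sqrt_pos_cpow (by positivity) hIz, sqrt_pos_cpow (by positivity) hIz]
  have hs : ((√((4 * d : ℕ) : ℝ) : ℝ) : ℂ) =
      ((√(2 * (Q.A : ℝ)) : ℝ) : ℂ) * ((√(2 * ((d : ℝ) / Q.A)) : ℝ) : ℂ) := by
    rw [← ofReal_mul, ← Real.sqrt_mul (by positivity)]
    congr 2
    push_cast
    field_simp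
    ring
  have hsq : (-I * z) ^ (1 / 2 : ℂ) * (-I * z) ^ (1 / 2 : ℂ) = -I * z := by
    rw [← cpow_add _ _ hIz]; norm_num
  rw [hs, one_div_mul_one_div, mul_mul_mul_comm, hsq]
  have hI : I = -I⁻¹ := by simp [inv_I]
  conv_rhs => rw [hI]
  ring

theorem theta_eq (τ : ℍ) :
    Q.theta τ = ∑' v : ℤ × ℤ, cexp (2 * π * I * (τ : ℂ) * (Q.evalR v.1 v.2 : ℂ)) := by
  refine tsum_congr fun v => ?_
  rw [evalR_eq]
  push_cast
  ring_nf

theorem norm_gauss_le (c : ℕ) [NeZero c] (a : ℤ) (n : ℤ × ℤ) :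
    ‖Q.gauss c a n‖ ≤ (c : ℝ) ^ 2 := by
  refine (norm_sum_le _ _).trans ?_
  rw [Finset.sum_congr rfl fun r _ => AddChar.norm_apply _ _]
  simp [sq]

/-- Weighted theta series are summable. -/
theorem summable_weighted (hd : 0 < d) {w : ℤ × ℤ → ℂ} {B : ℝ} (hw : ∀ v, ‖w v‖ ≤ B) {u : ℂ}
    (hu : 0 < u.im) :
    Summable fun v : ℤ × ℤ => w v * cexp (2 * π * I * u * (Q.eval v : ℂ)) := by
  refine ((Q.summable_bound hd hu 0 0).mul_left B).of_norm_bounded fun v => ?_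
  simp only [add_zero]
  rw [norm_mul]
  refine mul_le_mul (hw v) ?_ (norm_nonneg _) (le_trans (norm_nonneg _) (hw v))
  have := Q.norm_exp_eval_le hd hu.le le_rfl v.1 v.2
  rwa [evalR_eq, ofReal_intCast] at this

/-- A weighted theta series tends to its constant term. -/
theorem tendsto_weighted (hd : 0 < d) {w : ℤ × ℤ → ℂ} {B : ℝ} (hw : ∀ v, ‖w v‖ ≤ B)
    {ι : Type*} {l : Filter ι} {u : ι → ℂ} (hu : Tendsto (fun i => (u i).im) l atTop) :
    Tendsto (fun i => ∑' v : ℤ × ℤ, w v * cexp (2 * π * I * u i * (Q.eval v : ℂ))) l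
      (𝓝 (w 0)) := by
  classical
  have hlim : ∀ v : ℤ × ℤ, Tendsto (fun i => w v * cexp (2 * π * I * u i * (Q.eval v : ℂ))) l
      (𝓝 (if v = 0 then w v else 0)) := by
    intro v
    split_ifs with h
    · subst h
      simpa [eval] using tendsto_const_nhds
    · have hpos : (0 : ℝ) < (Q.eval v : ℝ) := by
        exact_mod_cast lt_of_le_of_ne (Q.eval_nonneg hd v)
          fun e => h ((Q.eval_eq_zero_iff hd).1 e.symm)
      rw [← mul_zero (w v)]
      refine (tendsto_zero_iff_norm_tendsto_zero.2 ?_).const_mul (w v)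
      have h0 : ∀ i, ‖cexp (2 * π * I * u i * (Q.eval v : ℂ))‖ =
          Real.exp (-(2 * π * (Q.eval v : ℝ)) * (u i).im) := by
        intro i
        rw [← ofReal_intCast, ← Q.evalR_eq, norm_exp_eval]
        congr 1
        ring
      simp only [h0]
      refine Real.tendsto_exp_atBot.comp ?_
      exact hu.const_mul_atTop_of_neg (by nlinarith [Real.pi_pos])
  have h := tendsto_tsum_of_dominated_convergence ((Q.summable_bound hd one_pos 0 0).mul_left B)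
    hlim (by
      filter_upwards [hu.eventually_ge_atTop 1] with i hi v
      simp only [add_zero]
      rw [norm_mul]
      refine mul_le_mul (hw v) ?_ (norm_nonneg _) (le_trans (norm_nonneg _) (hw v))
      have := Q.norm_exp_eval_le hd zero_le_one hi v.1 v.2
      rwa [evalR_eq, ofReal_intCast] at this)
  rwa [tsum_ite_eq 0 w] at h

/-- Splitting a sum over `ℤ²` into residue classes. -/
theorem tsum_classes {c : ℕ} [NeZero c] (φ : ZMod c × ZMod c → ℂ) (g : ℤ × ℤ → ℂ)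
    (hg : Summable g) :
    ∑' v : ℤ × ℤ, φ ((v.1 : ZMod c), (v.2 : ZMod c)) * g v =
      ∑ r, φ r * ∑' y : ℤ × ℤ, g ((r.1.val : ℤ) + c * y.1, (r.2.val : ℤ) + c * y.2) := by
  classical
  have hc : (c : ℤ) ≠ 0 := by exact_mod_cast NeZero.ne c
  have hs : ∀ r : ZMod c × ZMod c, Summable fun v : ℤ × ℤ =>
      φ r * if ((v.1 : ZMod c), (v.2 : ZMod c)) = r then g v else 0 := fun r =>
    ((hg.indicator {v : ℤ × ℤ | ((v.1 : ZMod c), (v.2 : ZMod c)) = r}).congr fun v => by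
      simp [Set.indicator_apply]).mul_left _
  have h1 : ∀ r : ZMod c × ZMod c,
      ∑' y : ℤ × ℤ, g ((r.1.val : ℤ) + c * y.1, (r.2.val : ℤ) + c * y.2) =
        ∑' v : ℤ × ℤ, if ((v.1 : ZMod c), (v.2 : ZMod c)) = r then g v else 0 := by
    intro r
    have hinj : Function.Injective fun y : ℤ × ℤ =>
        ((r.1.val : ℤ) + c * y.1, (r.2.val : ℤ) + c * y.2) := fun x y h => by
      simp only [Prod.mk.injEq] at h
      exact Prod.ext (mul_left_cancel₀ hc (add_left_cancel h.1))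
        (mul_left_cancel₀ hc (add_left_cancel h.2))
    refine Eq.trans (tsum_congr fun y => ?_) (hinj.tsum_eq ?_)
    · simp
    · intro v hv
      have hv' : ((v.1 : ZMod c), (v.2 : ZMod c)) = r := by
        by_contra h
        simp [h] at hv
      obtain ⟨r₁, r₂⟩ := r
      simp only [Prod.mk.injEq] at hv'
      obtain ⟨i, hi⟩ := (ZMod.intCast_eq_intCast_iff_dvd_sub (r₁.val : ℤ) v.1 c).1
        (by simp [hv'.1])
      obtain ⟨j, hj⟩ := (ZMod.intCast_eq_intCast_iff_dvd_sub (r₂.val : ℤ) v.2 c).1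
        (by simp [hv'.2])
      exact ⟨(i, j), Prod.ext (by show (r₁.val : ℤ) + c * i = v.1; linarith)
        (by show (r₂.val : ℤ) + c * j = v.2; linarith)⟩
  simp only [h1, ← tsum_mul_left]
  rw [← Summable.tsum_finsetSum fun r _ => hs r]
  exact tsum_congr fun v => by simp [mul_ite]

/-- `θ_Q` at a point `γ τ`, `c > 0`. -/
theorem theta_moeb (hd : 0 < d) (γ : SL(2, ℤ)) (c : ℕ) [NeZero c] (hc : γ 1 0 = (c : ℤ)) (τ : ℍ) :
    Q.theta (γ • τ) = ((c : ℂ) * τ + ((γ 1 1 : ℤ) : ℂ)) /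
      (I * c * ((Real.sqrt (4 * d : ℕ) : ℝ) : ℂ)) *
      ∑' n : ℤ × ℤ, Q.gauss c (γ 0 0) n *
        cexp (2 * π * I * (((c : ℂ) * τ + ((γ 1 1 : ℤ) : ℂ)) / (c * (4 * d : ℕ))) *
          ((Q.adj hd).eval n : ℂ)) := by
  have hc0 : (c : ℂ) ≠ 0 := by exact_mod_cast NeZero.ne c
  have hd0 : (d : ℂ) ≠ 0 := by exact_mod_cast hd.ne'
  set D : ℂ := (c : ℂ) * τ + ((γ 1 1 : ℤ) : ℂ) with hD
  have hDim : 0 < D.im := by
    have : D.im = (c : ℝ) * τ.im := by simp [hD]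
    rw [this]; positivity [NeZero.ne c, τ.im_pos]
  have hD0 : D ≠ 0 := fun h => by simp [h] at hDim
  set z : ℂ := -(c : ℂ) / D with hz
  have hzim : 0 < z.im := by
    rw [hz, neg_div, neg_im, div_eq_mul_inv,
      show ((c : ℂ) * D⁻¹).im = (c : ℝ) * D⁻¹.im by simp, inv_im]
    rw [show -((c : ℝ) * (-D.im / normSq D)) = (c : ℝ) * D.im / normSq D by ring]
    have := normSq_pos.2 hD0
    positivity [NeZero.ne c]
  have hcoe : ((γ • τ : ℍ) : ℂ) = (γ 0 0 : ℤ) / (c : ℂ) + -1 / ((c : ℂ) * D) := by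
    rw [coe_specialLinearGroup_apply]
    simp only [algebraMap_int_eq, eq_intCast, ofReal_intCast, hc, Int.cast_natCast, ofReal_natCast,
      ← hD]
    have hdet := congrArg (fun t : ℤ => (t : ℂ)) ((Matrix.det_fin_two γ.1).symm.trans γ.2)
    push_cast [hc] at hdet
    rw [div_add_div _ _ hc0 (mul_ne_zero hc0 hD0), div_eq_div_iff hD0
      (mul_ne_zero hc0 (mul_ne_zero hc0 hD0)), hD]
    linear_combination (-(c : ℂ) * ((c : ℂ) * τ + ((γ 1 1 : ℤ) : ℂ))) * hdet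
  let φ : ZMod c × ZMod c → ℂ := fun r => ZMod.stdAddChar ((γ 0 0 : ZMod c) * Q.evalMod r)
  let g : ℤ × ℤ → ℂ := fun v => cexp (2 * π * I * (-1 / ((c : ℂ) * D)) * (Q.eval v : ℂ))
  have hgim : 0 < (-1 / ((c : ℂ) * D)).im := by
    rw [neg_div, neg_im, one_div, inv_im, neg_div, neg_neg,
      show ((c : ℂ) * D).im = (c : ℝ) * D.im by simp]
    exact div_pos (by positivity [NeZero.ne c]) (normSq_pos.2 (mul_ne_zero hc0 hD0))
  have hg : Summable g := by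
    simpa [g] using Q.summable_weighted hd (w := fun _ => 1) (B := 1) (by simp) hgim
  have h1 : Q.theta (γ • τ) = ∑' v : ℤ × ℤ, φ ((v.1 : ZMod c), (v.2 : ZMod c)) * g v := by
    refine tsum_congr fun v => ?_
    have hev : Q.evalMod ((v.1 : ZMod c), (v.2 : ZMod c)) = ((Q.eval v : ℤ) : ZMod c) := by
      simp [eval, evalMod]
    simp only [φ, g, hev]
    rw [← Int.cast_mul, ZMod.stdAddChar_coe, ← Complex.exp_add, hcoe]
    push_cast
    ring_nf
  have h2 : ∀ r : ZMod c × ZMod c,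
      ∑' y : ℤ × ℤ, g ((r.1.val : ℤ) + c * y.1, (r.2.val : ℤ) + c * y.2) =
        Q.shiftSum z ((r.1.val : ℝ) / c, (r.2.val : ℝ) / c) := by
    intro r
    refine tsum_congr fun y => ?_
    simp only [g, evalR, eval, hz]
    congr 1
    push_cast
    field_simp
    ring
  rw [h1, tsum_classes φ g hg]
  simp only [h2, Q.shiftSum_eq hd hzim, ← tsum_mul_left]
  have hsum : ∀ r : ZMod c × ZMod c, Summable fun n : ℤ × ℤ =>
      φ r * (I / (z * ((Real.sqrt (4 * d : ℕ) : ℝ) : ℂ)) *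
        cexp (2 * π * I * ((n.1 : ℂ) * (((r.1.val : ℝ) / c : ℝ) : ℂ) +
          n.2 * (((r.2.val : ℝ) / c : ℝ) : ℂ) - ((Q.adj hd).eval n : ℂ) / ((4 * d : ℕ) * z)))) := by
    intro r
    have hu : 0 < (D / (c * (4 * d : ℕ))).im := by
      rw [show (c : ℂ) * (4 * d : ℕ) = ((c * (4 * d) : ℕ) : ℂ) by push_cast; ring, div_natCast_im]
      positivity [NeZero.ne c]
    refine (((Q.adj hd).summable_weighted hd (w := fun n => cexp
      (2 * π * I * (((n.1 * r.1.val + n.2 * r.2.val : ℤ) : ℂ) / c))) (B := 1) (fun n => le_of_eq ?_)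
      hu).mul_left (I / (z * ((Real.sqrt (4 * d : ℕ) : ℝ) : ℂ)))).mul_left (φ r) |>.congr fun n => ?_
    · rw [show 2 * π * I * (((n.1 * r.1.val + n.2 * r.2.val : ℤ) : ℂ) / c) =
        ((2 * π * ((n.1 * r.1.val + n.2 * r.2.val : ℤ) : ℝ) / c : ℝ) : ℂ) * I by push_cast; ring]
      exact norm_exp_ofReal_mul_I _
    · rw [← Complex.exp_add, hz]
      congr 3
      push_cast
      field_simp
      ring
  rw [← Summable.tsum_finsetSum fun r _ => hsum r]
  refine tsum_congr fun n => ?_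
  rw [gauss, Finset.sum_mul, Finset.mul_sum]
  refine Finset.sum_congr rfl fun r _ => ?_
  have e1 : ZMod.stdAddChar ((γ 0 0 : ZMod c) * Q.evalMod r + (n.1 : ZMod c) * r.1 +
      (n.2 : ZMod c) * r.2) = φ r *
        cexp (2 * π * I * (((n.1 * r.1.val + n.2 * r.2.val : ℤ) : ℂ) / c)) := by
    rw [add_assoc, AddChar.map_add_eq_mul]
    congr 1
    rw [show (n.1 : ZMod c) * r.1 + (n.2 : ZMod c) * r.2 =
      ((n.1 * r.1.val + n.2 * r.2.val : ℤ) : ZMod c) by simp, ZMod.stdAddChar_coe]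
    ring_nf
  rw [e1, mul_assoc (φ r) (cexp _), ← Complex.exp_add, mul_left_comm _ (φ r)]
  congr 2
  · rw [hz]
    simp only [div_eq_mul_inv, mul_inv, inv_inv, inv_neg, inv_I]
    ring
  · congr 1
    rw [hz]
    push_cast
    field_simp
    ring

/-- A linear term outside the image of the doubled Gram matrix kills the Gauss sum when
`4 d ∣ c`. -/
theorem exists_preimage_of_gauss_ne_zero (hd : 0 < d) {c : ℕ} [NeZero c] (hN : 4 * d ∣ c) (a : ℤ)
    (n : ℤ × ℤ) (h : Q.gauss c a n ≠ 0) :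
    ∃ z : ℤ × ℤ, n = (2 * (Q.A * z.1 + Q.B * z.2), 2 * (Q.B * z.1 + Q.C * z.2)) := by
  classical
  obtain ⟨k, hk⟩ := hN
  -- invariance under a shift by `(2k) • adj j`
  have key : ∀ j₁ j₂ : ℤ, (c : ℤ) ∣
      2 * k * (n.1 * (Q.C * j₁ - Q.B * j₂) + n.2 * (-Q.B * j₁ + Q.A * j₂)) := by
    intro j₁ j₂
    set t₁ : ℤ := 2 * k * (Q.C * j₁ - Q.B * j₂) with ht₁
    set t₂ : ℤ := 2 * k * (-Q.B * j₁ + Q.A * j₂) with ht₂
    have hcz : (4 : ZMod c) * (d : ZMod c) * (k : ZMod c) = 0 := by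
      have h0 : ((4 * d * k : ℕ) : ZMod c) = 0 :=
        (congrArg (fun t : ℕ => (t : ZMod c)) hk).symm.trans (ZMod.natCast_self c)
      push_cast at h0
      exact h0
    have hdisc : (Q.A : ZMod c) * Q.C - (Q.B : ZMod c) ^ 2 = (d : ZMod c) := by
      exact_mod_cast congrArg (fun t : ℤ => (t : ZMod c)) Q.disc
    have hshift : ∀ r : ZMod c × ZMod c,
        (a : ZMod c) * Q.evalMod (r.1 + (t₁ : ZMod c), r.2 + (t₂ : ZMod c)) +
            (n.1 : ZMod c) * (r.1 + (t₁ : ZMod c)) + (n.2 : ZMod c) * (r.2 + (t₂ : ZMod c)) =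
          ((a : ZMod c) * Q.evalMod r + (n.1 : ZMod c) * r.1 + (n.2 : ZMod c) * r.2) +
            ((n.1 * t₁ + n.2 * t₂ : ℤ) : ZMod c) := by
      intro r
      simp only [evalMod, ht₁, ht₂]
      push_cast
      linear_combination ((a : ZMod c) * (r.1 * j₁ + r.2 * j₂ +
          (k : ZMod c) * ((Q.C : ZMod c) * j₁ ^ 2 - 2 * (Q.B : ZMod c) * j₁ * j₂ +
            (Q.A : ZMod c) * j₂ ^ 2))) * hcz +
        ((a : ZMod c) * (4 * k * (r.1 * j₁ + r.2 * j₂) +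
          4 * (k : ZMod c) ^ 2 * ((Q.C : ZMod c) * j₁ ^ 2 - 2 * (Q.B : ZMod c) * j₁ * j₂ +
            (Q.A : ZMod c) * j₂ ^ 2))) * hdisc
    have hG : Q.gauss c a n =
        ZMod.stdAddChar ((n.1 * t₁ + n.2 * t₂ : ℤ) : ZMod c) * Q.gauss c a n := by
      conv_lhs => rw [gauss, ← Equiv.sum_comp
        (Equiv.addRight ((t₁ : ZMod c), (t₂ : ZMod c)))]
      rw [gauss, Finset.mul_sum]
      refine Finset.sum_congr rfl fun r _ => ?_
      simp only [Equiv.coe_addRight, Prod.fst_add, Prod.snd_add]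
      rw [← AddChar.map_add_eq_mul]
      refine congrArg _ ?_
      rw [show r + ((t₁ : ZMod c), (t₂ : ZMod c)) = (r.1 + (t₁ : ZMod c), r.2 + (t₂ : ZMod c))
        from rfl, hshift, add_comm]
    have h1 : (ZMod.stdAddChar ((n.1 * t₁ + n.2 * t₂ : ℤ) : ZMod c) : ℂ) = 1 :=
      mul_right_cancel₀ h (by rw [one_mul, ← hG])
    have h2 : ((n.1 * t₁ + n.2 * t₂ : ℤ) : ZMod c) = 0 :=
      ZMod.injective_stdAddChar (h1.trans (AddChar.map_zero_eq_one _).symm)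
    have h3 := (ZMod.intCast_zmod_eq_zero_iff_dvd _ _).1 h2
    rw [show n.1 * t₁ + n.2 * t₂ =
      2 * k * (n.1 * (Q.C * j₁ - Q.B * j₂) + n.2 * (-Q.B * j₁ + Q.A * j₂)) by
        rw [ht₁, ht₂]; ring] at h3
    exact h3
  have hk0 : (2 * k : ℤ) ≠ 0 := by
    have : k ≠ 0 := by rintro rfl; exact NeZero.ne c (by simpa using hk)
    simp [this]
  have hc' : (c : ℤ) = 2 * k * (2 * d) := by rw [hk]; push_cast; ring
  obtain ⟨z₁, hz₁⟩ := (mul_dvd_mul_iff_left hk0).1 (hc' ▸ key 1 0)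
  obtain ⟨z₂, hz₂⟩ := (mul_dvd_mul_iff_left hk0).1 (hc' ▸ key 0 1)
  have hd' : (d : ℤ) ≠ 0 := by exact_mod_cast hd.ne'
  refine ⟨(z₁, z₂), Prod.ext (mul_left_cancel₀ hd' ?_) (mul_left_cancel₀ hd' ?_)⟩
  · linear_combination Q.A * hz₁ + Q.B * hz₂ - n.1 * Q.disc
  · linear_combination Q.B * hz₁ + Q.C * hz₂ - n.2 * Q.disc

theorem gauss_image {c : ℕ} [NeZero c] {a e : ℤ} (hae : ((a * e : ℤ) : ZMod c) = 1) (z : ℤ × ℤ) :
    Q.gauss c a (2 * (Q.A * z.1 + Q.B * z.2), 2 * (Q.B * z.1 + Q.C * z.2)) =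
      ZMod.stdAddChar ((-e * Q.eval z : ℤ) : ZMod c) * Q.gauss c a 0 := by
  rw [gauss, gauss, Finset.mul_sum, ← Equiv.sum_comp
    (Equiv.addRight (((-e * z.1 : ℤ) : ZMod c), ((-e * z.2 : ℤ) : ZMod c)))]
  refine Finset.sum_congr rfl fun r _ => ?_
  rw [← AddChar.map_add_eq_mul]
  refine congrArg _ ?_
  push_cast at hae
  simp only [Equiv.coe_addRight, evalMod, eval, Prod.fst_add, Prod.snd_add, Prod.fst_zero,
    Prod.snd_zero]
  push_cast
  linear_combination (((e : ZMod c) * ((Q.A : ZMod c) * z.1 ^ 2 + 2 * (Q.B : ZMod c) * z.1 * z.2 +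
    (Q.C : ZMod c) * z.2 ^ 2)) - 2 * ((Q.A : ZMod c) * r.1 * z.1 +
    (Q.B : ZMod c) * (r.1 * z.2 + r.2 * z.1) + (Q.C : ZMod c) * r.2 * z.2)) * hae

/-- `θ_Q|γ` for `4d ∣ c`. -/
theorem theta_moeb_level (hd : 0 < d) (γ : SL(2, ℤ)) (c : ℕ) [NeZero c] (hc : γ 1 0 = (c : ℤ))
    (hN : 4 * d ∣ c) (τ : ℍ) :
    Q.theta (γ • τ) = ((c : ℂ) * τ + ((γ 1 1 : ℤ) : ℂ)) *
      (Q.gauss c (γ 0 0) 0 / (I * c * ((Real.sqrt (4 * d : ℕ) : ℝ) : ℂ))) * Q.theta τ := by
  rw [Q.theta_moeb hd γ c hc τ]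
  have hinj : Function.Injective fun z : ℤ × ℤ =>
      (2 * (Q.A * z.1 + Q.B * z.2), 2 * (Q.B * z.1 + Q.C * z.2)) := by
    intro x y h
    simp only [Prod.mk.injEq] at h
    have hd' : (2 : ℤ) * d ≠ 0 := by simp [hd.ne']
    refine Prod.ext (mul_left_cancel₀ hd' ?_) (mul_left_cancel₀ hd' ?_)
    · linear_combination Q.C * h.1 - Q.B * h.2 - 2 * (x.1 - y.1) * Q.disc
    · linear_combination Q.A * h.2 - Q.B * h.1 - 2 * (x.2 - y.2) * Q.disc
  rw [← hinj.tsum_eq]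
  swap
  · intro n hn
    obtain ⟨z, hz⟩ := Q.exists_preimage_of_gauss_ne_zero hd hN (γ 0 0) n (left_ne_zero_of_mul hn)
    exact ⟨z, hz.symm⟩
  have hae : ((γ 0 0 * γ 1 1 : ℤ) : ZMod c) = 1 := by
    have hdet := congrArg (fun t : ℤ => (t : ZMod c)) ((Matrix.det_fin_two γ.1).symm.trans γ.2)
    push_cast [hc] at hdet ⊢
    simpa [ZMod.natCast_self] using hdet
  have hterm : ∀ z : ℤ × ℤ,
      Q.gauss c (γ 0 0) (2 * (Q.A * z.1 + Q.B * z.2), 2 * (Q.B * z.1 + Q.C * z.2)) *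
        cexp (2 * π * I * (((c : ℂ) * τ + ((γ 1 1 : ℤ) : ℂ)) / (c * (4 * d : ℕ))) *
          ((Q.adj hd).eval (2 * (Q.A * z.1 + Q.B * z.2), 2 * (Q.B * z.1 + Q.C * z.2)) : ℂ)) =
      Q.gauss c (γ 0 0) 0 * cexp (2 * π * I * (Q.eval z : ℂ) * (τ : ℂ)) := by
    intro z
    rw [Q.gauss_image hae, ZMod.stdAddChar_coe, mul_comm (cexp _) (Q.gauss c _ 0), mul_assoc,
      ← Complex.exp_add]
    have hadj : (Q.adj hd).eval (2 * (Q.A * z.1 + Q.B * z.2), 2 * (Q.B * z.1 + Q.C * z.2)) =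
        4 * d * Q.eval z := by
      rw [← Q.disc]; simp only [eval, adj]; ring
    have hc0 : (c : ℂ) ≠ 0 := by exact_mod_cast NeZero.ne c
    have hd0 : (d : ℂ) ≠ 0 := by exact_mod_cast hd.ne'
    rw [hadj]
    congr 2
    push_cast
    field_simp
    ring
  rw [tsum_congr hterm, tsum_mul_left, ← theta]
  ring

theorem adj_adj (hd : 0 < d) : (Q.adj hd).adj hd = Q := by
  cases Q
  simp [adj]

theorem theta_vadd (j : ℤ) (τ : ℍ) (σ : ℍ) (h : (σ : ℂ) = τ + j) : Q.theta σ = Q.theta τ := by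
  refine tsum_congr fun v => ?_
  rw [h, mul_add, Complex.exp_add,
    show 2 * π * I * (Q.eval v : ℂ) * (j : ℂ) = ((Q.eval v * j : ℤ) : ℂ) * (2 * π * I) by
      push_cast; ring, Complex.exp_int_mul_two_pi_mul_I, mul_one]

/-- The inversion formula. -/
theorem theta_inv (hd : 0 < d) (τ σ w : ℍ) (hσ : (σ : ℂ) = -1 / τ)
    (hw : (w : ℂ) = τ / (4 * d : ℕ)) :
    Q.theta σ = τ / (I * ((Real.sqrt (4 * d : ℕ) : ℝ) : ℂ)) * (Q.adj hd).theta w := by
  have h10 : ModularGroup.S 1 0 = ((1 : ℕ) : ℤ) := by simp [ModularGroup.S]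
  have h := Q.theta_moeb hd ModularGroup.S 1 h10 τ
  have hs : ModularGroup.S • τ = σ := by
    apply UpperHalfPlane.ext
    rw [UpperHalfPlane.modular_S_smul, hσ]
    simp [neg_div, inv_neg]
  have hg : ∀ n, Q.gauss 1 (ModularGroup.S 0 0) n = 1 := fun n => by
    simp [gauss, Subsingleton.elim (_ : ZMod 1) 0]
  rw [hs] at h
  rw [h, theta]
  congr 1
  · simp [ModularGroup.S]
  · refine tsum_congr fun n => ?_
    rw [hg, one_mul, hw]
    simp [ModularGroup.S]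
    ring_nf

theorem tendsto_theta (hd : 0 < d) : Tendsto Q.theta atImInfty (𝓝 1) := by
  have h := Q.tendsto_weighted hd (w := fun _ => (1 : ℂ)) (B := 1) (by simp)
    (u := fun τ : ℍ => (τ : ℂ)) (tendsto_comap : Tendsto UpperHalfPlane.im atImInfty atTop)
  refine h.congr fun τ => tsum_congr fun v => ?_
  rw [one_mul]
  ring_nf

theorem exists_theta_ne_zero (hd : 0 < d) : ∃ τ : ℍ, Q.theta τ ≠ 0 :=
  ((Q.tendsto_theta hd).eventually_ne one_ne_zero).exists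

/-- `θ_Q` is invariant under `(1 0; 4dj 1)`. -/
theorem theta_lower (hd : 0 < d) (j : ℤ) (τ σ : ℍ)
    (hσ : (σ : ℂ) = τ / ((j * (4 * d : ℕ) : ℤ) * (τ : ℂ) + 1)) :
    Q.theta σ = ((j * (4 * d : ℕ) : ℤ) * (τ : ℂ) + 1) * Q.theta τ := by
  have hτ0 : (τ : ℂ) ≠ 0 := UpperHalfPlane.ne_zero τ
  have hN0 : ((4 * d : ℕ) : ℂ) ≠ 0 := by simp [hd.ne']
  have hd0 : (d : ℂ) ≠ 0 := by exact_mod_cast hd.ne'
  have hNR : (0 : ℝ) < (4 * d : ℕ) := by simp [hd]
  have him : 0 < (-(j * (4 * d : ℕ) : ℤ) - 1 / (τ : ℂ)).im := by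
    simp only [sub_im, neg_im, intCast_im, neg_zero, zero_sub, one_div, inv_im, neg_div, neg_neg]
    exact div_pos τ.im_pos (normSq_pos.2 hτ0)
  set w : ℍ := ⟨_, him⟩ with hw
  have hwc : (w : ℂ) = -(j * (4 * d : ℕ) : ℤ) - 1 / (τ : ℂ) := rfl
  have him2 : 0 < ((w : ℂ) / (4 * d : ℕ)).im := by
    rw [div_natCast_im]; exact div_pos w.im_pos hNR
  have him3 : 0 < (((4 * d : ℕ) : ℂ) * τ).im := by
    rw [show (((4 * d : ℕ) : ℂ) * τ).im = ((4 * d : ℕ) : ℝ) * τ.im by simp]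
    exact mul_pos hNR τ.im_pos
  have him4 : 0 < (-1 / (((4 * d : ℕ) : ℂ) * τ)).im := by
    rw [neg_div, neg_im, one_div, inv_im, neg_div, neg_neg]
    exact div_pos him3 (normSq_pos.2 (mul_ne_zero hN0 hτ0))
  have h1 := Q.theta_inv hd w σ ⟨_, him2⟩ (by
    rw [hσ, hwc]
    have hden : ((j * (4 * d : ℕ) : ℤ) : ℂ) * τ + 1 ≠ 0 := by
      intro e
      have : -((j * (4 * d : ℕ) : ℤ) : ℂ) - 1 / (τ : ℂ) = 0 := by
        field_simp; linear_combination -e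
      rw [this] at him
      simp at him
    rw [show -((j * (4 * d : ℕ) : ℤ) : ℂ) - 1 / (τ : ℂ) =
      -(((j * (4 * d : ℕ) : ℤ) : ℂ) * τ + 1) / τ by field_simp; ring]
    field_simp) rfl
  have h2 := (Q.adj hd).theta_vadd (-j) ⟨_, him4⟩ ⟨_, him2⟩ (by
    show (w : ℂ) / (4 * d : ℕ) = -1 / (((4 * d : ℕ) : ℂ) * τ) + ((-j : ℤ) : ℂ)
    rw [hwc]; push_cast; field_simp; ring)
  have h3 := (Q.adj hd).theta_inv hd ⟨_, him3⟩ ⟨_, him4⟩ τ rfl (by
    show (τ : ℂ) = ((4 * d : ℕ) : ℂ) * τ / (4 * d : ℕ)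
    field_simp)
  rw [h1, h2, h3, Q.adj_adj hd, hwc]
  have hS : ((Real.sqrt (4 * d : ℕ) : ℝ) : ℂ) * ((Real.sqrt (4 * d : ℕ) : ℝ) : ℂ) = (4 * d : ℕ) := by
    rw [← ofReal_mul, Real.mul_self_sqrt hNR.le]; simp
  show _ / _ * ((((4 * d : ℕ) : ℂ) * τ) / _ * _) = _
  generalize ((Real.sqrt (4 * d : ℕ) : ℝ) : ℂ) = S at hS ⊢
  have hS0 : S ≠ 0 := by rintro rfl; exact hN0 (by simpa using hS.symm)
  field_simp
  push_cast at hS ⊢
  linear_combination (Q.theta τ * ((j * (4 * d) : ℂ) * τ + 1)) * hS -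
    (Q.theta τ * S * S * ((j * (4 * d) : ℂ) * τ + 1)) * I_sq

theorem gauss_shift (hd : 0 < d) (c c' : ℕ) [NeZero c] [NeZero c'] (a j : ℤ) (hN : 4 * d ∣ c)
    (hac : IsCoprime a (c : ℤ)) (hc' : (c' : ℤ) = c + j * (4 * d : ℕ) * a) :
    Q.gauss c' a 0 / c' = Q.gauss c a 0 / c := by
  obtain ⟨x, y, hxy⟩ := hac
  let γ : SL(2, ℤ) := ⟨!![a, -y; (c : ℤ), x], by
    rw [Matrix.det_fin_two_of]; linear_combination hxy⟩
  let L : SL(2, ℤ) := ⟨!![1, 0; j * (4 * d : ℕ), 1], by rw [Matrix.det_fin_two_of]; ring⟩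
  have h00 : (L * γ) 0 0 = a := by
    show (L.1 * γ.1) 0 0 = a
    simp [γ, L, Matrix.mul_apply, Fin.sum_univ_two]
  have h10 : (L * γ) 1 0 = (c' : ℤ) := by
    show (L.1 * γ.1) 1 0 = (c' : ℤ)
    simp [γ, L, Matrix.mul_apply, Fin.sum_univ_two, hc']; ring
  have h11 : (L * γ) 1 1 = j * (4 * d : ℕ) * -y + x := by
    show (L.1 * γ.1) 1 1 = _
    simp [γ, L, Matrix.mul_apply, Fin.sum_univ_two]
  have hN' : 4 * d ∣ c' := by
    have : ((4 * d : ℕ) : ℤ) ∣ (c' : ℤ) :=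
      hc' ▸ dvd_add (Int.natCast_dvd_natCast.2 hN) (Dvd.dvd.mul_right (dvd_mul_left _ _) _)
    exact Int.natCast_dvd_natCast.1 this
  obtain ⟨τ, hτ⟩ := Q.exists_theta_ne_zero hd
  have e1 := Q.theta_moeb_level hd γ c rfl hN τ
  have e2 := Q.theta_moeb_level hd (L * γ) c' h10 hN' τ
  rw [h00, h11, mul_smul] at e2
  rw [show γ 0 0 = a from rfl, show γ 1 1 = x from rfl] at e1
  have hγτ : ((γ • τ : ℍ) : ℂ) = ((a : ℂ) * τ + (-y : ℤ)) / ((c : ℂ) * τ + x) := by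
    rw [coe_specialLinearGroup_apply]; simp [γ]
  have hL := Q.theta_lower hd j (γ • τ) (L • (γ • τ)) (by
    rw [coe_specialLinearGroup_apply]; simp [L])
  rw [hL, e1, hγτ] at e2
  have hden : (c : ℂ) * τ + x ≠ 0 := by
    intro e
    have := congrArg Complex.im e
    simp [NeZero.ne c, τ.im_pos.ne'] at this
  have hden' : (c' : ℂ) * τ + ((j * (4 * d : ℕ) * -y + x : ℤ) : ℂ) ≠ 0 := by
    intro e
    have := congrArg Complex.im e
    simp [NeZero.ne c', τ.im_pos.ne'] at this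
  have hfac : (((j * (4 * d : ℕ) : ℤ) : ℂ) * (((a : ℂ) * τ + (-y : ℤ)) / ((c : ℂ) * τ + x)) + 1) *
      ((c : ℂ) * τ + x) = (c' : ℂ) * τ + ((j * (4 * d : ℕ) * -y + x : ℤ) : ℂ) := by
    have hcC : (c' : ℂ) = c + j * (4 * d : ℕ) * a := by
      exact_mod_cast congrArg (fun t : ℤ => (t : ℂ)) hc'
    rw [add_mul, mul_assoc, div_mul_cancel₀ _ hden, hcC]
    push_cast; ring
  rw [← mul_assoc, ← mul_assoc, hfac] at e2
  have e3 := mul_left_cancel₀ hden' (mul_right_cancel₀ hτ e2)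
  have hS : ((Real.sqrt (4 * d : ℕ) : ℝ) : ℂ) ≠ 0 := by
    simp only [ne_eq, ofReal_eq_zero, Real.sqrt_eq_zero (Nat.cast_nonneg _)]
    simp [hd.ne']
  have hkey : ∀ G : ℂ, ∀ k : ℕ, G / (k : ℂ) =
      G / (I * k * ((Real.sqrt (4 * d : ℕ) : ℝ) : ℂ)) * (I * ((Real.sqrt (4 * d : ℕ) : ℝ) : ℂ)) := by
    intro G k
    field_simp
  rw [hkey _ c', hkey _ c, e3]

theorem tendsto_theta_moeb (hd : 0 < d) (γ : SL(2, ℤ)) (c : ℕ) [NeZero c] (hc : γ 1 0 = (c : ℤ)) :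
    Tendsto (fun τ : ℍ => Q.theta (γ • τ) / ((c : ℂ) * τ + ((γ 1 1 : ℤ) : ℂ))) atImInfty
      (𝓝 (Q.gauss c (γ 0 0) 0 / (I * c * ((Real.sqrt (4 * d : ℕ) : ℝ) : ℂ)))) := by
  have hu : Tendsto (fun τ : ℍ =>
      ((((c : ℂ) * τ + ((γ 1 1 : ℤ) : ℂ)) / (c * (4 * d : ℕ))) : ℂ).im) atImInfty atTop := by
    have h : ∀ τ : ℍ, ((((c : ℂ) * τ + ((γ 1 1 : ℤ) : ℂ)) / (c * (4 * d : ℕ))) : ℂ).im =
        τ.im / (4 * d : ℕ) := by
      intro τ
      rw [show (c : ℂ) * (4 * d : ℕ) = ((c * (4 * d) : ℕ) : ℂ) by push_cast; ring, div_natCast_im]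
      have hc0 : (c : ℝ) ≠ 0 := by exact_mod_cast NeZero.ne c
      have hd0 : (d : ℝ) ≠ 0 := by exact_mod_cast hd.ne'
      simp
      field_simp
    simp only [h]
    exact (tendsto_comap : Tendsto UpperHalfPlane.im atImInfty atTop).atTop_div_const
      (by simp [hd])
  have hlim := ((Q.adj hd).tendsto_weighted hd (w := Q.gauss c (γ 0 0))
    (fun n => Q.norm_gauss_le c (γ 0 0) n) hu).div_const
      (I * c * ((Real.sqrt (4 * d : ℕ) : ℝ) : ℂ))
  refine hlim.congr fun τ => ?_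
  have hden : (c : ℂ) * τ + ((γ 1 1 : ℤ) : ℂ) ≠ 0 := by
    intro e
    have := congrArg Complex.im e
    simp [NeZero.ne c, τ.im_pos.ne'] at this
  rw [Q.theta_moeb hd γ c hc τ]
  field_simp

theorem finite_eval_eq (hd : 0 < d) (n : ℕ) : Finite {v : ℤ × ℤ // Q.eval v = (n : ℤ)} := by
  refine Set.Finite.to_subtype (Set.Finite.subset
    ((Set.finite_Icc (-(Q.C * n)) (Q.C * n)).prod (Set.finite_Icc (-(Q.A * n)) (Q.A * n))) ?_)
  intro v hv
  obtain ⟨h1, h2⟩ := Q.sq_le_mul_eval v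
  rw [show Q.eval v = (n : ℤ) from hv] at h1 h2
  have hd' : (1 : ℤ) ≤ d := by exact_mod_cast hd
  simp only [Set.mem_prod, Set.mem_Icc]
  refine ⟨abs_le.1 ?_, abs_le.1 ?_⟩
  · nlinarith [Int.le_self_sq |v.1|, sq_abs v.1, sq_nonneg v.1]
  · nlinarith [Int.le_self_sq |v.2|, sq_abs v.2, sq_nonneg v.2]

theorem hasSum_theta (hd : 0 < d) (τ : ℍ) :
    HasSum (fun n : ℕ => (Q.repCount n : ℂ) * Function.Periodic.qParam 1 τ ^ n) (Q.theta τ) := by
  have hsum : HasSum (fun v : ℤ × ℤ => cexp (2 * π * I * (Q.eval v : ℂ) * (τ : ℂ))) (Q.theta τ) := by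
    refine Summable.hasSum ((Q.summable_weighted hd (w := fun _ => (1 : ℂ)) (B := 1) (by simp)
      τ.im_pos).congr fun v => ?_)
    rw [one_mul]
    ring_nf
  let e : (Σ n : ℕ, {v : ℤ × ℤ // Q.eval v = (n : ℤ)}) ≃ ℤ × ℤ :=
    { toFun := fun x => x.2.1
      invFun := fun v => ⟨(Q.eval v).toNat, v, (Int.toNat_of_nonneg (Q.eval_nonneg hd v)).symm⟩
      left_inv := fun x => by
        obtain ⟨n, v, hv⟩ := x
        exact Sigma.subtype_ext (by simp [hv]) rfl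
      right_inv := fun v => rfl }
  refine HasSum.sigma (e.hasSum_iff.2 hsum) fun n => ?_
  have := Q.finite_eval_eq hd n
  have := Fintype.ofFinite {v : ℤ × ℤ // Q.eval v = (n : ℤ)}
  have h := hasSum_fintype fun x : {v : ℤ × ℤ // Q.eval v = (n : ℤ)} =>
    cexp (2 * π * I * (Q.eval x.1 : ℂ) * (τ : ℂ))
  refine (show (Q.repCount n : ℂ) * Function.Periodic.qParam 1 (τ : ℂ) ^ n = _ from ?_).symm ▸ h
  rw [Finset.sum_congr rfl fun x _ => by rw [x.2], Finset.sum_const, Finset.card_univ,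
    repCount, Nat.card_eq_fintype_card, nsmul_eq_mul, Function.Periodic.qParam,
    ← Complex.exp_nat_mul]
  congr 2
  push_cast
  ring

theorem repCount_zero (hd : 0 < d) : Q.repCount 0 = 1 := by
  rw [repCount, Nat.card_eq_one_iff_unique]
  refine ⟨⟨fun x y => Subtype.ext ?_⟩, ⟨⟨0, by simp [eval]⟩⟩⟩
  have hx : Q.eval x.1 = 0 := by simpa using x.2
  have hy : Q.eval y.1 = 0 := by simpa using y.2
  rw [(Q.eval_eq_zero_iff hd).1 hx, (Q.eval_eq_zero_iff hd).1 hy]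

theorem even_repCount (hd : 0 < d) {n : ℕ} (hn : n ≠ 0) : Even (Q.repCount n) := by
  classical
  have := Q.finite_eval_eq hd n
  have := Fintype.ofFinite {v : ℤ × ℤ // Q.eval v = (n : ℤ)}
  rw [repCount, Nat.card_eq_fintype_card, ← ZMod.natCast_eq_zero_iff_even, ← Finset.card_univ,
    Finset.card_eq_sum_ones, Nat.cast_sum]
  let ι : {v : ℤ × ℤ // Q.eval v = (n : ℤ)} → {v : ℤ × ℤ // Q.eval v = (n : ℤ)} := fun x =>
    ⟨-x.1, (by simp [eval] : Q.eval (-x.1) = Q.eval x.1).trans x.2⟩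
  refine Finset.sum_involution (fun x _ => ι x) (fun x _ => by simp; decide) (fun x _ _ h => ?_)
    (fun x _ => Finset.mem_univ _) (fun x _ => Subtype.ext (neg_neg x.1))
  have h' : -x.1 = x.1 := congrArg Subtype.val h
  have h1 : x.1.1 = 0 := by have := congrArg Prod.fst h'; simp at this; omega
  have h2 : x.1.2 = 0 := by have := congrArg Prod.snd h'; simp at this; omega
  have := x.2
  simp [eval, h1, h2] at this
  exact hn (by exact_mod_cast this.symm)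

theorem mdifferentiable_theta (hd : 0 < d) : MDiff Q.theta := by
  rw [UpperHalfPlane.mdifferentiable_iff]
  set F : ℂ → ℂ := fun z => ∑' v : ℤ × ℤ, cexp (2 * π * I * (Q.eval v : ℂ) * z) with hF
  have heq : ∀ z ∈ {z : ℂ | 0 < z.im}, (Q.theta ∘ UpperHalfPlane.ofComplex) z = F z := by
    intro z hz
    simp only [Function.comp_apply, ofComplex_apply_of_im_pos hz]
    rfl
  refine DifferentiableOn.congr (fun z₀ hz₀ => ?_) heq
  set U : Set ℂ := {z : ℂ | z₀.im / 2 < z.im} with hU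
  have hUo : IsOpen U := isOpen_lt continuous_const Complex.continuous_im
  have hT : 0 < z₀.im / 2 := half_pos hz₀
  have hd' : DifferentiableOn ℂ F U := by
    refine differentiableOn_tsum_of_summable_norm (Q.summable_bound hd hT 0 0)
      (fun v => ((differentiable_id.const_mul (2 * π * I * (Q.eval v : ℂ))).cexp).differentiableOn)
      hUo fun v z hz => ?_
    simp only [add_zero]
    have h := Q.norm_exp_eval_le hd hT.le (le_of_lt (show z₀.im / 2 < z.im from hz)) v.1 v.2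
    rw [evalR_eq, ofReal_intCast] at h
    refine le_trans (le_of_eq ?_) h
    congr 2
    ring
  exact (hd'.differentiableAt (hUo.mem_nhds (show z₀.im / 2 < z₀.im from half_lt_self hz₀))).differentiableWithinAt

end BinForm

end Fermat.Agent.TwoAdic.Theta
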