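import Fermat.Agent.DeligneSerre.Conjugate
import Fermat.Agent.TwoAdic.Theta.Analytic
import Fermat.Agent.TwoAdic.Theta.Forms
import Fermat.Prelude.Def_FLTPrelim_Modularity
import Fermat.Prelude.Thm_CongruenceSubgroup_one_mem_strictPeriods_Gamma0

/-!
# The weight two cusp form `(∑ wᵢ θ_{Qᵢ}) θ_{Q₀}` on `Γ₀(4d)`

For forms `Qᵢ`, `Q₀` of discriminant `-4d` with `G(Qᵢ) G(Q₀) = -4d c²` and weights `wᵢ` with
`∑ wᵢ = 0` and `∑ wᵢ G(Qᵢ, c, a) = 0`, the product is a cusp form with trivial character.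
-/

set_option autoImplicit false

noncomputable section

namespace Fermat.Agent.TwoAdic.Theta

open Complex Filter CongruenceSubgroup ModularFormClass
open UpperHalfPlane hiding I
open scoped Real MatrixGroups Topology Manifold ModularForm

variable {d : ℕ}

namespace BinForm

theorem eval_principal (v : ℤ × ℤ) : (principal d).eval v = v.1 ^ 2 + (d : ℤ) * v.2 ^ 2 := by
  simp [eval, principal]

theorem theta_periodic (Q : BinForm d) (hd : 0 < d) (n : ℤ) (τ : ℍ) :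
    Q.theta ((n : ℝ) +ᵥ τ) = Q.theta τ := by
  refine ((Q.hasSum_theta hd _).unique ((Q.hasSum_theta hd τ).congr_fun fun k => ?_))
  congr 2
  simp only [Function.Periodic.qParam, coe_vadd]
  rw [show 2 * (π : ℂ) * I * (((n : ℝ) : ℂ) + (τ : ℂ)) / ((1 : ℝ) : ℂ) =
      2 * (π : ℂ) * I * (τ : ℂ) / ((1 : ℝ) : ℂ) + (n : ℂ) * (2 * (π : ℂ) * I) by push_cast; ring,
    exp_add, exp_int_mul_two_pi_mul_I, mul_one]

end BinForm

variable {ι : Type} [Fintype ι] (w : ι → ℂ) (Q : ι → BinForm d) (Q₀ : BinForm d)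

/-- The product. -/
def thetaProd : ℍ → ℂ := fun τ => (∑ i, w i * (Q i).theta τ) * Q₀.theta τ

/-- Its coefficients. -/
def prodCoeff (n : ℕ) : ℂ :=
  ∑ p ∈ Finset.HasAntidiagonal.antidiagonal n,
    (∑ i, w i * ((Q i).repCount p.1 : ℂ)) * (Q₀.repCount p.2 : ℂ)

theorem hasSum_thetaProd (hd : 0 < d) (τ : ℍ) :
    HasSum (fun n : ℕ => prodCoeff w Q Q₀ n * Function.Periodic.qParam 1 τ ^ n)
      (thetaProd w Q Q₀ τ) := by
  set q := Function.Periodic.qParam 1 (τ : ℂ)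
  have h1 : HasSum (fun n : ℕ => (∑ i, w i * ((Q i).repCount n : ℂ)) * q ^ n)
      (∑ i, w i * (Q i).theta τ) := by
    refine (hasSum_sum fun i _ => ((Q i).hasSum_theta hd τ).mul_left (w i)).congr_fun fun n => ?_
    rw [Finset.sum_mul]
    exact Finset.sum_congr rfl fun i _ => mul_assoc _ _ _
  have h2 := Q₀.hasSum_theta hd τ
  have hs1 : Summable fun n : ℕ => ‖(∑ i, w i * ((Q i).repCount n : ℂ)) * q ^ n‖ :=
    h1.summable.norm
  have hs2 : Summable fun n : ℕ => ‖(Q₀.repCount n : ℂ) * q ^ n‖ := h2.summable.norm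
  have h3 := tsum_mul_tsum_eq_tsum_sum_antidiagonal_of_summable_norm hs1 hs2
  have h4 := (summable_norm_sum_mul_antidiagonal_of_summable_norm hs1 hs2).of_norm.hasSum
  rw [← h3, h1.tsum_eq, h2.tsum_eq] at h4
  refine h4.congr_fun fun n => ?_
  rw [prodCoeff, Finset.sum_mul]
  refine Finset.sum_congr rfl fun p hp => ?_
  rw [Finset.HasAntidiagonal.mem_antidiagonal] at hp
  rw [← hp, pow_add]
  ring

theorem mdifferentiable_thetaProd (hd : 0 < d) : MDiff (thetaProd w Q Q₀) := by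
  have h : thetaProd w Q Q₀ = (∑ i, w i • (Q i).theta) * Q₀.theta := by
    funext τ
    simp [thetaProd]
  rw [h]
  exact (MDifferentiable.sum fun i _ => ((Q i).mdifferentiable_theta hd).const_smul (w i)).mul
    (Q₀.mdifferentiable_theta hd)

theorem thetaProd_periodic (hd : 0 < d) (n : ℤ) (τ : ℍ) :
    thetaProd w Q Q₀ ((n : ℝ) +ᵥ τ) = thetaProd w Q Q₀ τ := by
  simp [thetaProd, BinForm.theta_periodic _ hd]

/-- Reduction of a slash action to a positive lower left entry or to a translation. -/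
theorem slash_cases {f : ℍ → ℂ} (γ : SL(2, ℤ)) :
    (∃ (δ : SL(2, ℤ)) (c : ℕ), c ≠ 0 ∧ δ 1 0 = (c : ℤ) ∧ (γ = δ ∨ γ = -δ) ∧
        ∀ τ, (f ∣[(2 : ℤ)] γ) τ = f (δ • τ) / ((c : ℂ) * τ + ((δ 1 1 : ℤ) : ℂ)) ^ 2) ∨
      γ 1 0 = 0 ∧ ∃ n : ℤ, ∀ τ, (f ∣[(2 : ℤ)] γ) τ = f ((n : ℝ) +ᵥ τ) := by
  rcases lt_trichotomy (γ 1 0) 0 with h | h | h
  · refine Or.inl ⟨-γ, (γ 1 0).natAbs, by omega, ?_, Or.inr (neg_neg γ).symm, fun τ => ?_⟩
    · show -(γ 1 0) = _
      omega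
    · rw [ModularForm.SL_slash_apply, ModularGroup.SL_neg_smul, div_eq_mul_inv]
      congr 1
      rw [zpow_neg, zpow_two, ← pow_two]
      congr 1
      rw [← neg_sq]
      congr 1
      have hz : ((γ 1 0).natAbs : ℤ) = -(γ 1 0) := by omega
      have hc : (((γ 1 0).natAbs : ℕ) : ℂ) = -((γ 1 0 : ℤ) : ℂ) := by
        rw [← Int.cast_natCast, hz, Int.cast_neg]
      simp [UpperHalfPlane.denom, hc]
      ring
  · refine Or.inr ⟨h, γ 0 1 * γ 1 1, fun τ => ?_⟩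
    have hdet : γ 0 0 * γ 1 1 = 1 := by
      have := γ.det_coe
      rw [Matrix.det_fin_two, h] at this
      simpa using this
    have h11 : ((γ 1 1 : ℤ) : ℂ) ≠ 0 := by
      intro h0
      rw [Int.cast_eq_zero] at h0
      simp [h0] at hdet
    have hsq : ((γ 1 1 : ℤ) : ℂ) * ((γ 1 1 : ℤ) : ℂ) = 1 := by
      rcases Int.eq_one_or_neg_one_of_mul_eq_one' hdet with ⟨-, h'⟩ | ⟨-, h'⟩ <;> simp [h']
    rw [ModularForm.SL_slash_apply]
    have e : γ • τ = ((γ 0 1 * γ 1 1 : ℤ) : ℝ) +ᵥ τ := by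
      refine UpperHalfPlane.ext ?_
      rw [UpperHalfPlane.coe_specialLinearGroup_apply, coe_vadd]
      have haz : γ 0 0 = γ 1 1 := by
        rcases Int.eq_one_or_neg_one_of_mul_eq_one' hdet with ⟨h1, h2⟩ | ⟨h1, h2⟩ <;> rw [h1, h2]
      simp [h, haz]
      rw [div_eq_iff h11]
      linear_combination -((γ 0 1 : ℤ) : ℂ) * hsq
    rw [e]
    simp [UpperHalfPlane.denom, h, pow_two, hsq]
  · refine Or.inl ⟨γ, (γ 1 0).natAbs, by omega, by omega, Or.inl rfl, fun τ => ?_⟩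
    rw [ModularForm.SL_slash_apply, div_eq_mul_inv]
    congr 1
    rw [zpow_neg, zpow_two, ← pow_two]
    congr 1
    have hz : ((γ 1 0).natAbs : ℤ) = γ 1 0 := by omega
    have hc : (((γ 1 0).natAbs : ℕ) : ℂ) = ((γ 1 0 : ℤ) : ℂ) := by
      rw [← Int.cast_natCast, hz]
    simp [UpperHalfPlane.denom, hc]

theorem isCoprime_of_lowerLeft {δ : SL(2, ℤ)} {c : ℕ} (h : δ 1 0 = (c : ℤ)) :
    IsCoprime (δ 0 0) (c : ℤ) := by
  have := δ.det_coe
  rw [Matrix.det_fin_two, h] at this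
  exact ⟨δ 1 1, -δ 0 1, by linear_combination this⟩

/-- The product is invariant under `Γ₀(4d)`. -/
theorem slash_thetaProd (hd : 0 < d)
    (hG : ∀ (i : ι) (c : ℕ) [NeZero c] (a : ℤ), 4 * d ∣ c → IsCoprime a (c : ℤ) →
      (Q i).gauss c a 0 * Q₀.gauss c a 0 = -((c : ℂ) ^ 2 * ((4 * d : ℕ) : ℂ)))
    {γ : SL(2, ℤ)} (hγ : γ ∈ Gamma0 (4 * d)) :
    thetaProd w Q Q₀ ∣[(2 : ℤ)] γ = thetaProd w Q Q₀ := by
  funext τ
  rcases slash_cases (f := thetaProd w Q Q₀) γ with ⟨δ, c, hc0, hc, hδ, he⟩ | ⟨-, n, he⟩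
  · have : NeZero c := ⟨hc0⟩
    have hN : 4 * d ∣ c := by
      have h1 := (ZMod.intCast_zmod_eq_zero_iff_dvd (γ 1 0) (4 * d)).1 (Gamma0_mem.1 hγ)
      rw [← Int.natCast_dvd_natCast, ← hc]
      rcases hδ with rfl | rfl
      · exact h1
      · simpa using h1
    rw [he τ]
    set W : ℂ := (c : ℂ) * τ + ((δ 1 1 : ℤ) : ℂ) with hWdef
    have hW : W ≠ 0 := by
      intro h0
      have := congrArg Complex.im h0
      simp [hWdef, hc0, τ.im_pos.ne'] at this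
    have key : ∀ i, (Q i).theta (δ • τ) * Q₀.theta (δ • τ) =
        W ^ 2 * ((Q i).theta τ * Q₀.theta τ) := by
      intro i
      rw [(Q i).theta_moeb_level hd δ c hc hN τ, Q₀.theta_moeb_level hd δ c hc hN τ]
      set s : ℂ := ((Real.sqrt (4 * d : ℕ) : ℝ) : ℂ) with hsdef
      have hs : s * s = ((4 * d : ℕ) : ℂ) := by
        rw [hsdef, ← ofReal_mul, Real.mul_self_sqrt (Nat.cast_nonneg _)]
        simp
      have hone : (Q i).gauss c (δ 0 0) 0 / (I * c * s) * (Q₀.gauss c (δ 0 0) 0 / (I * c * s)) = 1 := by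
        rw [div_mul_div_comm, hG i c (δ 0 0) hN (isCoprime_of_lowerLeft hc),
          show I * c * s * (I * c * s) = (I * I) * ((c : ℂ) ^ 2 * (s * s)) by ring, I_mul_I, hs,
          neg_one_mul, neg_div_neg_eq, div_self]
        refine mul_ne_zero (pow_ne_zero _ (by exact_mod_cast hc0)) ?_
        exact_mod_cast (by omega : 4 * d ≠ 0)
      linear_combination (W ^ 2 * (Q i).theta τ * Q₀.theta τ) * hone
    simp only [thetaProd, Finset.sum_mul, mul_assoc, key, Finset.sum_div]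
    refine Finset.sum_congr rfl fun i _ => ?_
    field_simp
  · rw [he τ, thetaProd_periodic w Q Q₀ hd]

/-- The product vanishes at every cusp. -/
theorem isZeroAtImInfty_slash_thetaProd (hd : 0 < d) (hw : ∑ i, w i = 0)
    (hcusp : ∀ (c : ℕ) [NeZero c] (a : ℤ), IsCoprime a (c : ℤ) →
      ∑ i, w i * (Q i).gauss c a 0 = 0) (γ : SL(2, ℤ)) :
    IsZeroAtImInfty (thetaProd w Q Q₀ ∣[(2 : ℤ)] γ) := by
  rcases slash_cases (f := thetaProd w Q Q₀) γ with ⟨δ, c, hc0, hc, -, he⟩ | ⟨-, n, he⟩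
  · have : NeZero c := ⟨hc0⟩
    set s : ℂ := I * c * ((Real.sqrt (4 * d : ℕ) : ℝ) : ℂ)
    have h1 := tendsto_finsetSum Finset.univ fun i (_ : i ∈ Finset.univ) =>
      ((Q i).tendsto_theta_moeb hd δ c hc).const_mul (w i)
    have h2 := Q₀.tendsto_theta_moeb hd δ c hc
    have h3 := h1.mul h2
    rw [show ∑ i, w i * ((Q i).gauss c (δ 0 0) 0 / s) = (∑ i, w i * (Q i).gauss c (δ 0 0) 0) / s by
      rw [Finset.sum_div]; exact Finset.sum_congr rfl fun i _ => (mul_div_assoc _ _ _).symm,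
      hcusp c (δ 0 0) (isCoprime_of_lowerLeft hc), zero_div, zero_mul] at h3
    refine h3.congr fun τ => ?_
    rw [he τ, thetaProd, Finset.sum_mul, Finset.sum_mul, Finset.sum_div]
    refine Finset.sum_congr rfl fun i _ => ?_
    generalize (Q i).theta (δ • τ) = A, Q₀.theta (δ • τ) = B,
      (c : ℂ) * (τ : ℂ) + ((δ 1 1 : ℤ) : ℂ) = W
    rw [pow_two, div_eq_mul_inv, div_eq_mul_inv, div_eq_mul_inv, mul_inv]
    ring
  · have h1 := tendsto_finsetSum Finset.univ fun i (_ : i ∈ Finset.univ) =>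
      ((Q i).tendsto_theta hd).const_mul (w i)
    simp only [mul_one, hw] at h1
    have h3 := h1.mul (Q₀.tendsto_theta hd)
    rw [mul_one] at h3
    exact h3.congr fun τ => by rw [he τ, thetaProd_periodic w Q Q₀ hd]; rfl

/-- **The cusp form.** -/
theorem exists_cuspForm [NeZero d] (hw : ∑ i, w i = 0)
    (hG : ∀ (i : ι) (c : ℕ) [NeZero c] (a : ℤ), 4 * d ∣ c → IsCoprime a (c : ℤ) →
      (Q i).gauss c a 0 * Q₀.gauss c a 0 = -((c : ℂ) ^ 2 * ((4 * d : ℕ) : ℂ)))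
    (hcusp : ∀ (c : ℕ) [NeZero c] (a : ℤ), IsCoprime a (c : ℤ) →
      ∑ i, w i * (Q i).gauss c a 0 = 0) :
    ∃ f : CuspForm (Gamma0 (4 * d)) 2, ∀ n, qCoeff f n = prodCoeff w Q Q₀ n := by
  have hd : 0 < d := Nat.pos_of_ne_zero (NeZero.ne d)
  let f : CuspForm (Gamma0 (4 * d)) 2 := DeligneSerre.mkCuspForm (Gamma0 (4 * d)) 2 (thetaProd w Q Q₀)
    (fun γ hγ => slash_thetaProd w Q Q₀ hd hG hγ) (mdifferentiable_thetaProd w Q Q₀ hd)
    (isZeroAtImInfty_slash_thetaProd w Q Q₀ hd hw hcusp)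
  refine ⟨f, fun n => (ModularFormClass.qExpansion_coeff_unique (f := f) one_pos
    (CongruenceSubgroup.one_mem_strictPeriods_Gamma0 _) (c := prodCoeff w Q Q₀) (fun τ => ?_) n).symm⟩
  simpa [smul_eq_mul, f] using hasSum_thetaProd w Q Q₀ hd τ

end Fermat.Agent.TwoAdic.Theta
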