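import Fermat.Agent.LevelRaising.Parabolic
import Fermat.Agent.Gamma0.Main
import Fermat.Agent.Periods.Injective

/-!
# Hecke operators on parabolic and elliptic elements, in characteristic two

For an odd prime `p ∤ L` and coefficients of exponent two, `T_p` of any homomorphism on `Γ₀(L)`
vanishes at `-1`, at elements of trace zero, and at the parabolic elements of every cusp which is
stable under the correspondence (all cusps when `L` is squarefree; the cusps of `(*, unit mod L)`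
for every `L`).
-/

set_option autoImplicit false

noncomputable section

namespace Fermat.Agent.TwoAdic.Theta.Descent

open CongruenceSubgroup Fermat.Agent.Periods Fermat.Agent.LevelRaising Function
open Matrix.SpecialLinearGroup
open P2MW.S_ModularForm_heckeT_slash_eq_self_of_mem_Gamma0.ModularForm.HeckeSlashInvariance
open scoped MatrixGroups BigOperators Matrix

section Scalar

variable {A : Type*} [AddCommGroup A]

theorem even_nsmul (h2 : ∀ a : A, a + a = 0) {n : ℕ} (hn : Even n) (a : A) : n • a = 0 := by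
  obtain ⟨k, rfl⟩ := hn
  rw [add_smul, h2]

theorem odd_nsmul (h2 : ∀ a : A, a + a = 0) {n : ℕ} (hn : Odd n) (a : A) : n • a = a := by
  obtain ⟨k, rfl⟩ := hn
  rw [add_smul, one_smul, even_nsmul h2 ⟨k, by omega⟩, zero_add]

theorem sum_const_zero (h2 : ∀ a : A, a + a = 0) {p : ℕ} [NeZero p] (hp : Odd p) (a : A) :
    ∑ _i : Option (ZMod p), a = 0 := by
  rw [Finset.sum_const, Finset.card_univ, card_tReps, add_smul, one_smul, odd_nsmul h2 hp, h2]

end Scalar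

section ParEl

theorem parEl_coe (v : Fin 2 → ℤ) (h : ℤ) :
    (parEl v h : Matrix (Fin 2) (Fin 2) ℤ) =
      !![1 - h * v 0 * v 1, h * v 0 ^ 2; -(h * v 1 ^ 2), 1 + h * v 0 * v 1] := rfl

theorem parEl_smul_vec (g : ℤ) (w : Fin 2 → ℤ) (h : ℤ) :
    parEl (g • w) h = parEl w (g ^ 2 * h) := by
  apply sl_ext <;> simp [parEl] <;> ring

theorem mul_parEl (B : Matrix (Fin 2) (Fin 2) ℤ) (v : Fin 2 → ℤ) (h : ℤ) :
    B * (parEl v (B.det * h) : Matrix (Fin 2) (Fin 2) ℤ) =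
      (parEl (B *ᵥ v) h : Matrix (Fin 2) (Fin 2) ℤ) * B := by
  ext i j
  fin_cases i <;> fin_cases j <;>
    simp [parEl_coe, Matrix.det_fin_two, Matrix.mul_apply,
      Fin.sum_univ_two] <;> ring

theorem conj_parEl (γ : SL(2, ℤ)) (v : Fin 2 → ℤ) (h : ℤ) :
    γ * parEl v h * γ⁻¹ = parEl (actZ γ v) h := by
  rw [mul_inv_eq_iff_eq_mul]
  apply Subtype.ext
  rw [coe_mul, coe_mul]
  have := mul_parEl (γ : Matrix (Fin 2) (Fin 2) ℤ) v h
  rwa [γ.det_coe, one_mul] at this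

theorem parEl_mem_iff {L : ℕ} (v : Fin 2 → ℤ) (h : ℤ) :
    parEl v h ∈ Gamma0 L ↔ (L : ℤ) ∣ h * v 1 ^ 2 := by
  rw [Gamma0_mem, ZMod.intCast_zmod_eq_zero_iff_dvd]
  simp [parEl, dvd_neg]

/-- An element conjugate to `T ^ m` is a `parEl`. -/
theorem conj_T_eq_parEl (δ : SL(2, ℤ)) (m : ℤ) :
    δ * ModularGroup.T ^ m * δ⁻¹ = parEl (fun i => δ i 0) m := by
  have hT : ModularGroup.T ^ m = parEl ![1, 0] m := by
    apply sl_ext <;> simp [parEl, ModularGroup.coe_T_zpow]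
  rw [hT, conj_parEl]
  congr 1
  ext i
  fin_cases i <;> simp [actZ, Matrix.mulVec, dotProduct, Fin.sum_univ_two]

end ParEl

section Cusp

/-- Every primitive vector with the same lower gcd with `L` is a translate of `v` by `Γ₀(L)`. -/
def StableCusp (L : ℕ) (v : Fin 2 → ℤ) : Prop :=
  ∀ w : Fin 2 → ℤ, IsCoprime (w 0) (w 1) → Int.gcd (w 1) L = Int.gcd (v 1) L →
    ∃ γ : Gamma0 L, actZ (γ : SL(2, ℤ)) v = w

theorem exists_actZ_eq {L : ℕ} {v w : Fin 2 → ℤ} (hv : IsCoprime (v 0) (v 1))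
    (hw : IsCoprime (w 0) (w 1)) (h1 : (Int.gcd (v 1 * w 1) L : ℤ) ∣ v 1)
    (h2 : (Int.gcd (v 1 * w 1) L : ℤ) ∣ w 1) :
    ∃ γ : Gamma0 L, actZ (γ : SL(2, ℤ)) v = w := by
  obtain ⟨s, t, hst⟩ := hv
  obtain ⟨s', t', hst'⟩ := hw
  obtain ⟨k, hk⟩ : (Int.gcd (v 1 * w 1) L : ℤ) ∣ w 1 * s - v 1 * s' :=
    dvd_sub (h2.mul_right _) (h1.mul_right _)
  have hb := Int.gcd_eq_gcd_ab (v 1 * w 1) L
  set x := Int.gcdA (v 1 * w 1) L
  set y := Int.gcdB (v 1 * w 1) L
  set n := k * x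
  obtain ⟨P, hP⟩ : ∃ P : SL(2, ℤ),
      (P : Matrix (Fin 2) (Fin 2) ℤ) = !![w 0, -t'; w 1, s'] :=
    ⟨⟨!![w 0, -t'; w 1, s'], by rw [Matrix.det_fin_two_of]; linear_combination hst'⟩, rfl⟩
  obtain ⟨Q, hQ⟩ : ∃ Q : SL(2, ℤ),
      (Q : Matrix (Fin 2) (Fin 2) ℤ) = !![s, t; -v 1, v 0] :=
    ⟨⟨!![s, t; -v 1, v 0], by rw [Matrix.det_fin_two_of]; linear_combination hst⟩, rfl⟩
  have hcoe : ((P * ModularGroup.T ^ n * Q : SL(2, ℤ)) : Matrix (Fin 2) (Fin 2) ℤ) =
      !![w 0, -t'; w 1, s'] * !![1, n; 0, 1] * !![s, t; -v 1, v 0] := by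
    rw [coe_mul, coe_mul, hP, hQ, ModularGroup.coe_T_zpow]
  have hmem : P * ModularGroup.T ^ n * Q ∈ Gamma0 L := by
    rw [Gamma0_mem, ZMod.intCast_zmod_eq_zero_iff_dvd, hcoe]
    refine ⟨k * y, ?_⟩
    simp [Matrix.mul_apply, Fin.sum_univ_two, n]
    linear_combination hk + k * hb
  refine ⟨⟨_, hmem⟩, ?_⟩
  rw [actZ, hcoe]
  ext i
  fin_cases i <;> simp [Matrix.mulVec, dotProduct, Fin.sum_univ_two]
  · linear_combination w 0 * hst
  · linear_combination w 1 * hst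

theorem stableCusp_of_isCoprime {L : ℕ} {v : Fin 2 → ℤ} (hv : IsCoprime (v 0) (v 1))
    (h : Int.gcd (v 1) L = 1) : StableCusp L v := by
  intro w hw hgcd
  rw [h] at hgcd
  have : Int.gcd (v 1 * w 1) L = 1 := by
    rw [← Int.isCoprime_iff_gcd_eq_one] at h hgcd ⊢
    exact h.mul_left hgcd
  exact exists_actZ_eq hv hw (by simp [this]) (by simp [this])

theorem stableCusp_of_squarefree {L : ℕ} (hL : Squarefree L) {v : Fin 2 → ℤ}
    (hv : IsCoprime (v 0) (v 1)) : StableCusp L v := by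
  intro w hw hgcd
  set d := Int.gcd (v 1) L with hd
  have hg : Int.gcd (v 1 * w 1) L ∣ d := by
    have hsq : Squarefree (Int.gcd (v 1 * w 1) L) :=
      hL.squarefree_of_dvd (by exact_mod_cast Int.gcd_dvd_right (v 1 * w 1) (L : ℤ))
    refine (hsq.dvd_pow_iff_dvd two_ne_zero).mp ?_
    rw [sq]
    nth_rewrite 2 [← hgcd]
    rw [hd]
    simp only [Int.gcd, Int.natAbs_mul, Int.natAbs_natCast]
    rw [Nat.gcd_comm _ L, Nat.gcd_comm _ L, Nat.gcd_comm _ L]
    exact Nat.gcd_mul_right_dvd_mul_gcd _ _ _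
  have hg' : (Int.gcd (v 1 * w 1) L : ℤ) ∣ (d : ℤ) := Int.natCast_dvd_natCast.mpr hg
  exact exists_actZ_eq hv hw (hg'.trans (hd ▸ Int.gcd_dvd_left _ _))
    (hg'.trans (hgcd ▸ Int.gcd_dvd_left _ _))

theorem exists_primitive_eq_smul {b : Fin 2 → ℤ} (hb : Int.gcd (b 0) (b 1) ≠ 0) :
    ∃ w : Fin 2 → ℤ, IsCoprime (w 0) (w 1) ∧ b = (Int.gcd (b 0) (b 1) : ℤ) • w := by
  obtain ⟨u, hu⟩ := Int.gcd_dvd_left (b 0) (b 1)
  obtain ⟨u', hu'⟩ := Int.gcd_dvd_right (b 0) (b 1)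
  have hbez := Int.gcd_eq_gcd_ab (b 0) (b 1)
  set x := Int.gcdA (b 0) (b 1)
  set y := Int.gcdB (b 0) (b 1)
  set g : ℤ := (Int.gcd (b 0) (b 1) : ℤ) with hgdef
  have hg : g ≠ 0 := by simpa [hgdef] using hb
  refine ⟨![u, u'], ⟨x, y, ?_⟩, ?_⟩
  · apply mul_left_cancel₀ hg
    simp
    linear_combination -hbez - x * hu - y * hu'
  · ext i; fin_cases i <;> simp [hu, hu']

end Cusp

variable {L p : ℕ} [NeZero L] [NeZero p] {A : Type*} [AddCommGroup A]

/-- The representatives are fixed by the `p`-th power of a parabolic element. -/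
theorem spec_parEl (hp : p.Prime) (hpL : ¬ p ∣ L) {v : Fin 2 → ℤ} {h : ℤ}
    (hmem : parEl v h ∈ Gamma0 L) (i : Option (ZMod p)) :
    ∃ hc : parEl (tMat p i *ᵥ v) h ∈ Gamma0 L,
      (systemT hp hpL).cocycle (⟨parEl v h, hmem⟩ ^ p) i = ⟨parEl (tMat p i *ᵥ v) h, hc⟩ := by
  have hdiv : v 1 ∣ (tMat p i *ᵥ v) 1 := by
    cases i <;> simp [tMat, Matrix.mulVec, dotProduct, Fin.sum_univ_two]
  have hc : parEl (tMat p i *ᵥ v) h ∈ Gamma0 L := by
    rw [parEl_mem_iff] at hmem ⊢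
    exact hmem.trans (mul_dvd_mul_left _ (pow_dvd_pow_of_dvd hdiv 2))
  refine ⟨hc, ((systemT hp hpL).eq_of_spec (j := i) ?_).2⟩
  show heckeRep p i * _ = _ * heckeRep p i
  rw [heckeRep_eq_intGL hp.ne_zero]
  refine mul_mapGL_eq (det_tMat_ne_zero p i) (det_tMat_ne_zero p i) _ _ ?_
  have := mul_parEl (tMat p i) v h
  rw [det_tMat] at this
  rw [SubmonoidClass.coe_pow, parEl_pow]
  exact this

/-- `T_p` vanishes at the parabolic elements of a stable cusp. -/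
theorem apply_parEl_eq_zero (h2 : ∀ a : A, a + a = 0) (hp : p.Prime) (hp2 : p ≠ 2)
    (hpL : ¬ p ∣ L) (Ψ : Additive (Gamma0 L) →+ A) {v : Fin 2 → ℤ} (hv : IsCoprime (v 0) (v 1))
    (hst : StableCusp L v) {h : ℤ} (hmem : parEl v h ∈ Gamma0 L) :
    (systemT hp hpL).apply Ψ (Additive.ofMul ⟨parEl v h, hmem⟩) = 0 := by
  have hodd : Odd p := hp.odd_of_ne_two hp2
  set x : Gamma0 L := ⟨parEl v h, hmem⟩ with hx
  rw [← odd_nsmul h2 hodd ((systemT hp hpL).apply Ψ (Additive.ofMul x)), ← map_nsmul, ← ofMul_pow,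
    HeckeSystem.apply_apply]
  refine (Finset.sum_congr rfl fun i _ => ?_).trans (sum_const_zero h2 hodd (Ψ (Additive.ofMul x)))
  obtain ⟨hc, hcoc⟩ := spec_parEl hp hpL hmem i
  rw [hx, hcoc]
  set b := tMat p i *ᵥ v with hb
  have hgcd := gcd_tMat_mulVec hp hv i
  rw [← hb] at hgcd
  set g := Int.gcd (b 0) (b 1) with hgdef
  have hg1p : g = 1 ∨ g = p := by
    rw [hgcd]; split_ifs <;> simp
  have hcop : g.Coprime L := by
    rcases hg1p with e | e <;> rw [e]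
    · exact Nat.coprime_one_left L
    · exact (hp.coprime_iff_not_dvd).mpr hpL
  have hgodd : Odd g := by
    rcases hg1p with e | e <;> rw [e]
    · exact odd_one
    · exact hodd
  obtain ⟨w, hw, hbw⟩ := exists_primitive_eq_smul (b := b)
    (by rw [← hgdef]; exact hgodd.pos.ne')
  have hwL : Int.gcd (w 1) L = Int.gcd (v 1) L := by
    have e1 : Int.gcd (b 1) L = Int.gcd (w 1) L := by
      rw [hbw, ← hgdef]
      simp only [Pi.smul_apply, smul_eq_mul, Int.gcd, Int.natAbs_mul, Int.natAbs_natCast]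
      exact Nat.Coprime.gcd_mul_left_cancel _ hcop
    have e2 : Int.gcd (b 1) L = Int.gcd (v 1) L := by
      rw [hb]
      cases i with
      | none => simp [tMat, Matrix.mulVec, dotProduct, Fin.sum_univ_two]
      | some x =>
        simp [tMat, Matrix.mulVec, dotProduct, Fin.sum_univ_two, Int.gcd, Int.natAbs_mul]
        exact Nat.Coprime.gcd_mul_left_cancel _ ((hp.coprime_iff_not_dvd).mpr hpL)
    exact e1.symm.trans e2
  obtain ⟨δ, hδ⟩ := hst w hw hwL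
  have hwx : (parEl w h) = ((δ * x * δ⁻¹ : Gamma0 L) : SL(2, ℤ)) := by
    rw [Subgroup.coe_mul, Subgroup.coe_mul, InvMemClass.coe_inv, hx, conj_parEl, hδ]
  have hbx : (⟨parEl b h, hc⟩ : Gamma0 L) = (δ * x * δ⁻¹) ^ (g ^ 2) := by
    apply Subtype.ext
    rw [SubmonoidClass.coe_pow, ← hwx, parEl_pow]
    show parEl b h = _
    rw [hbw, ← hgdef, parEl_smul_vec]
    push_cast
    rfl
  rw [hbx, ofMul_pow, map_nsmul, odd_nsmul h2 hgodd.pow, ofMul_mul, ofMul_mul, ofMul_inv, map_add,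
    map_add, map_neg]
  abel

/-- `T_p` vanishes at `-1`. -/
theorem apply_neg_one_eq_zero (h2 : ∀ a : A, a + a = 0) (hp : p.Prime) (hp2 : p ≠ 2)
    (hpL : ¬ p ∣ L) (Ψ : Additive (Gamma0 L) →+ A) {z : Gamma0 L} (hz : (z : SL(2, ℤ)) = -1) :
    (systemT hp hpL).apply Ψ (Additive.ofMul z) = 0 := by
  rw [HeckeSystem.apply_apply]
  refine (Finset.sum_congr rfl fun i _ => ?_).trans
    (sum_const_zero h2 (hp.odd_of_ne_two hp2) (Ψ (Additive.ofMul z)))
  rw [((systemT hp hpL).eq_of_spec (c := z) (i := i) (j := i) ?_).2]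
  show heckeRep p i * _ = _ * heckeRep p i
  rw [heckeRep_eq_intGL hp.ne_zero]
  refine mul_mapGL_eq (det_tMat_ne_zero p i) (det_tMat_ne_zero p i) _ _ ?_
  simp [hz]

section Elliptic

theorem conjS_entries (g : SL(2, ℤ)) :
    (g * ModularGroup.S * g⁻¹) 1 0 = g 1 0 ^ 2 + g 1 1 ^ 2 ∧
    (g * ModularGroup.S * g⁻¹) 1 1 = -(g 0 0 * g 1 0 + g 0 1 * g 1 1) := by
  constructor <;>
    simp only [mul_apply10, mul_apply11,
      Matrix.SpecialLinearGroup.coe_inv, Matrix.adjugate_fin_two] <;>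
    simp [ModularGroup.S] <;> ring

theorem exists_conjS_of_trace_zero (γ : SL(2, ℤ))
    (ht : (γ : Matrix (Fin 2) (Fin 2) ℤ).trace = 0) :
    ∃ g : SL(2, ℤ), γ = g * ModularGroup.S * g⁻¹ ∨ γ = -(g * ModularGroup.S * g⁻¹) := by
  obtain ⟨h, n, hn, hh⟩ := Gamma0.hasStdConj_of_trace_sq γ (by rw [ht]; norm_num)
  have htn : (n : Matrix (Fin 2) (Fin 2) ℤ).trace = 0 := by
    have e : ((h * γ * h⁻¹ : SL(2, ℤ)) : Matrix (Fin 2) (Fin 2) ℤ).trace = 0 := by
      rw [coe_mul, Matrix.trace_mul_comm, ← coe_mul, ← mul_assoc, inv_mul_cancel, one_mul, ht]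
    rcases hh with hh | hh <;> rw [hh] at e
    · exact e
    · rw [coe_neg, Matrix.trace_neg, neg_eq_zero] at e
      exact e
  have hS : n = ModularGroup.S := by
    rcases hn with hn | rfl | rfl | ⟨k, rfl⟩
    · exact hn
    · exfalso; rw [Gamma0.coe_ST] at htn; simp [Matrix.trace_fin_two] at htn
    · exfalso; rw [coe_mul, Gamma0.coe_ST] at htn; simp [Matrix.trace_fin_two] at htn
    · exfalso; rw [ModularGroup.coe_T_zpow] at htn; simp [Matrix.trace_fin_two] at htn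
  subst hS
  refine ⟨h⁻¹, ?_⟩
  rcases hh with hh | hh
  · left; rw [← hh]; group
  · right
    rw [← neg_mul, ← mul_neg, ← hh]
    group

theorem apply_one_zero_ne_zero (γ : SL(2, ℤ))
    (ht : (γ : Matrix (Fin 2) (Fin 2) ℤ).trace = 0) : γ 1 0 ≠ 0 := by
  intro hc
  rw [Matrix.trace_fin_two] at ht
  have hd := Gamma0.det_eq γ
  rw [hc, show γ 1 1 = -γ 0 0 by linarith] at hd
  nlinarith [sq_nonneg (γ 0 0)]

variable {L : ℕ} {M : Matrix (Fin 2) (Fin 2) ℤ}

/-- Trace zero elements of `Γ₀(L)` related by an upper triangular matrix with positive diagonal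
prime to `L` are conjugate in `Γ₀(L)`. -/
theorem exists_conj_of_trace_zero (hM : M 1 0 = 0) (h00 : 0 < M 0 0) (h11 : 0 < M 1 1)
    (hcop : IsCoprime (M 1 1) (L : ℤ)) (γ c : SL(2, ℤ)) (hγL : γ ∈ Gamma0 L) (hcL : c ∈ Gamma0 L)
    (htγ : (γ : Matrix (Fin 2) (Fin 2) ℤ).trace = 0) (htc : (c : Matrix (Fin 2) (Fin 2) ℤ).trace = 0)
    (h : M * (γ : Matrix (Fin 2) (Fin 2) ℤ) = (c : Matrix (Fin 2) (Fin 2) ℤ) * M) :
    ∃ δ ∈ Gamma0 L, c = δ * γ * δ⁻¹ := by
  wlog hpos : 0 < γ 1 0 generalizing γ c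
  · have hneg : γ 1 0 < 0 :=
      lt_of_le_of_ne (not_lt.mp hpos) (apply_one_zero_ne_zero γ htγ)
    have hn : ∀ g : SL(2, ℤ), g ∈ Gamma0 L → -g ∈ Gamma0 L := fun g hg => by
      rw [Gamma0_mem] at hg ⊢; simp [hg]
    obtain ⟨δ, hδ, e⟩ := this (-γ) (-c) (hn γ hγL) (hn c hcL)
      (by rw [coe_neg, Matrix.trace_neg, htγ, neg_zero])
      (by rw [coe_neg, Matrix.trace_neg, htc, neg_zero])
      (by rw [coe_neg, coe_neg, mul_neg, neg_mul, h])
      (by simpa using hneg)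
    exact ⟨δ, hδ, by simpa [mul_neg, neg_mul] using e⟩
  have e10 : M 1 1 * γ 1 0 = c 1 0 * M 0 0 := by
    simpa [Matrix.mul_apply, Fin.sum_univ_two, hM] using congrFun (congrFun h 1) 0
  have e11 : M 1 1 * γ 1 1 = c 1 0 * M 0 1 + c 1 1 * M 1 1 := by
    simpa [Matrix.mul_apply, Fin.sum_univ_two, hM] using congrFun (congrFun h 1) 1
  have hcpos : 0 < c 1 0 := by
    by_contra hh
    nlinarith [mul_pos h11 hpos]
  obtain ⟨g, hg | hg⟩ := exists_conjS_of_trace_zero γ htγ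
  swap
  · have : γ 1 0 = -((g * ModularGroup.S * g⁻¹) 1 0) := by rw [hg]; simp
    rw [(conjS_entries g).1] at this
    nlinarith
  obtain ⟨k, hk | hk⟩ := exists_conjS_of_trace_zero c htc
  swap
  · have : c 1 0 = -((k * ModularGroup.S * k⁻¹) 1 0) := by rw [hk]; simp
    rw [(conjS_entries k).1] at this
    nlinarith
  refine ⟨k * g⁻¹, ?_, by rw [hg, hk]; group⟩
  have hγ1 : (L : ℤ) ∣ γ 1 0 := gamma0_dvd ⟨γ, hγL⟩
  have hc1 : (L : ℤ) ∣ c 1 0 := gamma0_dvd ⟨c, hcL⟩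
  have hdiff : (L : ℤ) ∣ γ 1 1 - c 1 1 := by
    refine hcop.symm.dvd_of_dvd_mul_left ?_
    rw [mul_sub, e11, show c 1 0 * M 0 1 + c 1 1 * M 1 1 - M 1 1 * c 1 1 = c 1 0 * M 0 1 by ring]
    exact hc1.mul_right _
  have eig : ∀ x y : SL(2, ℤ), x = y * ModularGroup.S * y⁻¹ →
      y 1 1 - x 1 1 * y 1 0 = x 1 0 * y 0 0 := by
    intro x y hxy
    rw [hxy, (conjS_entries y).1, (conjS_entries y).2]
    linear_combination -(y 1 1) * Gamma0.det_eq y
  have eg := eig γ g hg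
  have ek := eig c k hk
  rw [Gamma0_mem, ZMod.intCast_zmod_eq_zero_iff_dvd]
  have e : (k * g⁻¹) 1 0 = k 1 0 * g 1 1 - k 1 1 * g 1 0 := by
    simp [Matrix.mul_apply, Matrix.adjugate_fin_two, Fin.sum_univ_two]
    ring
  rw [e, show k 1 0 * g 1 1 - k 1 1 * g 1 0 =
    γ 1 0 * (g 0 0 * k 1 0) - c 1 0 * (k 0 0 * g 1 0) + (γ 1 1 - c 1 1) * (k 1 0 * g 1 0) by
      linear_combination (k 1 0) * eg - (g 1 0) * ek]
  exact ((hγ1.mul_right _).sub (hc1.mul_right _)).add (hdiff.mul_right _)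

end Elliptic

/-- `T_p` vanishes at elements of trace zero, when the homomorphism kills `-1`. -/
theorem apply_trace_zero_eq_zero (h2 : ∀ a : A, a + a = 0) (hp : p.Prime) (hp2 : p ≠ 2)
    (hpL : ¬ p ∣ L) (Ψ : Additive (Gamma0 L) →+ A)
    (hneg : ∀ z : Gamma0 L, (z : SL(2, ℤ)) = -1 → Ψ (Additive.ofMul z) = 0) (γ : Gamma0 L)
    (ht : ((γ : SL(2, ℤ)) : Matrix (Fin 2) (Fin 2) ℤ).trace = 0) :
    (systemT hp hpL).apply Ψ (Additive.ofMul γ) = 0 := by
  classical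
  set S := systemT (N := L) hp hpL with hS
  set a := Ψ (Additive.ofMul γ)
  have hsq : (((γ * γ : Gamma0 L) : SL(2, ℤ))) = -1 := by
    have hd := Gamma0.det_eq (γ : SL(2, ℤ))
    rw [Matrix.trace_fin_two] at ht
    rw [Subgroup.coe_mul]
    apply sl_ext <;> simp [Matrix.mul_apply, Fin.sum_univ_two]
    · linear_combination (γ : SL(2, ℤ)) 0 0 * ht - hd
    · linear_combination (γ : SL(2, ℤ)) 0 1 * ht
    · linear_combination (γ : SL(2, ℤ)) 1 0 * ht
    · linear_combination (γ : SL(2, ℤ)) 1 1 * ht - hd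
  have hfix : ∀ i, S.perm (γ * γ) i = i ∧ S.cocycle (γ * γ) i = γ * γ := fun i =>
    S.eq_of_spec (c := γ * γ) (i := i) (j := i) <| by
      show heckeRep p i * _ = _ * heckeRep p i
      rw [heckeRep_eq_intGL hp.ne_zero]
      refine mul_mapGL_eq (det_tMat_ne_zero p i) (det_tMat_ne_zero p i) _ _ ?_
      rw [hsq]; simp
  let f : Option (ZMod p) → A := fun i => Ψ (Additive.ofMul (S.cocycle γ i))
  have hinv : ∀ i, S.perm γ (S.perm γ i) = i := fun i => by
    rw [← (S.perm_cocycle_mul γ γ i).1, (hfix i).1]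
  have hpair : ∀ i, f i + f (S.perm γ i) = 0 := fun i => by
    show Ψ _ + Ψ _ = 0
    rw [← map_add, ← ofMul_mul, ← (S.perm_cocycle_mul γ γ i).2, (hfix i).2]
    exact hneg _ hsq
  have hfixed : ∀ i, S.perm γ i = i → f i = a := fun i hi => by
    have hspec := tMat_spec (L := L) hp hpL γ i
    rw [← hS, hi] at hspec
    have htc : ((S.cocycle γ i : SL(2, ℤ)) : Matrix (Fin 2) (Fin 2) ℤ).trace = 0 :=
      (S.trace_cocycle hi).trans ht
    have h00 : 0 < tMat p i 0 0 := by cases i <;> simp [tMat, hp.pos]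
    have h11 : 0 < tMat p i 1 1 := by cases i <;> simp [tMat, hp.pos]
    have hcop : IsCoprime (tMat p i 1 1) (L : ℤ) := by
      cases i
      · simpa [tMat] using isCoprime_one_left
      · show IsCoprime (p : ℤ) (L : ℤ)
        exact Nat.Coprime.isCoprime (hp.coprime_iff_not_dvd.mpr hpL)
    obtain ⟨δ, hδ, e⟩ := exists_conj_of_trace_zero (by cases i <;> simp [tMat]) h00 h11 hcop
      _ _ γ.2 (S.cocycle γ i).2 ht htc hspec
    have e' : S.cocycle γ i = ⟨δ, hδ⟩ * γ * ⟨δ, hδ⟩⁻¹ := Subtype.ext e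
    show Ψ _ = Ψ _
    rw [e', ofMul_mul, ofMul_mul, ofMul_inv, map_add, map_add, map_neg]
    abel
  have hsum : ∑ i, (f i + a) = 0 := by
    refine Finset.sum_involution (fun i _ => S.perm γ i) (fun i _ => ?_) (fun i _ h hi => h ?_)
      (fun i _ => Finset.mem_univ _) (fun i _ => hinv i)
    · rw [add_add_add_comm, hpair, h2, zero_add]
    · rw [hfixed i hi, h2]
  rw [Finset.sum_add_distrib, sum_const_zero h2 (hp.odd_of_ne_two hp2) a, add_zero] at hsum
  rw [HeckeSystem.apply_apply]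
  exact hsum

section Kill

omit [NeZero p]

variable {k : Type*} [CommRing k] [CharP k 2]

/-- The values killed by one eigenvalue equal to one. -/
theorem eq_zero_of_eigen_parEl (φ : Additive (Gamma0 L) →+ k) {p₀ : ℕ} (hp : p₀.Prime)
    (hp2 : p₀ ≠ 2) (hpL : ¬ p₀ ∣ L) (heig : homT hp hpL k φ = φ) {v : Fin 2 → ℤ}
    (hv : IsCoprime (v 0) (v 1)) (hst : StableCusp L v) {h : ℤ} (hmem : parEl v h ∈ Gamma0 L) :
    φ (Additive.ofMul ⟨parEl v h, hmem⟩) = 0 := by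
  have : NeZero p₀ := ⟨hp.ne_zero⟩
  rw [← heig, homT, HeckeSystem.op_apply]
  exact apply_parEl_eq_zero CharTwo.add_self_eq_zero hp hp2 hpL φ hv hst hmem

/-- In squarefree level such a class kills every element that is not hyperbolic. -/
theorem mem_ellParHoms_of_eigen (hL : Squarefree L) (φ : Additive (Gamma0 L) →+ k) {p₀ : ℕ}
    (hp : p₀.Prime) (hp2 : p₀ ≠ 2) (hpL : ¬ p₀ ∣ L) (heig : homT hp hpL k φ = φ) :
    φ ∈ Gamma0.ellParHoms (Gamma0 L) k := by
  have : NeZero p₀ := ⟨hp.ne_zero⟩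
  have happ : ∀ γ : Gamma0 L, (systemT hp hpL).apply φ (Additive.ofMul γ) = φ (Additive.ofMul γ) :=
    fun γ => by
      conv_rhs => rw [← heig, homT, HeckeSystem.op_apply]
  have hneg : ∀ z : Gamma0 L, (z : SL(2, ℤ)) = -1 → φ (Additive.ofMul z) = 0 := fun z hz => by
    rw [← happ]; exact apply_neg_one_eq_zero CharTwo.add_self_eq_zero hp hp2 hpL φ hz
  let z : Gamma0 L := ⟨-1, Gamma0.neg_one_mem_Gamma0 L⟩
  have htwo : ∀ γ : Gamma0 L, (γ : SL(2, ℤ)) 0 0 + (γ : SL(2, ℤ)) 1 1 = 2 →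
      φ (Additive.ofMul γ) = 0 := fun γ hγ => by
    obtain ⟨δ, m, hδ⟩ := exists_conj_T _ hγ
    have hγe : γ = ⟨parEl (fun i => δ i 0) m, by rw [← conj_T_eq_parEl, ← hδ]; exact γ.2⟩ :=
      Subtype.ext (hδ.trans (conj_T_eq_parEl δ m))
    have hcol : IsCoprime (δ 0 0) (δ 1 0) := Gamma0.isCoprime_col δ
    rw [hγe]
    exact eq_zero_of_eigen_parEl φ hp hp2 hpL heig (v := fun i => δ i 0) hcol
      (stableCusp_of_squarefree hL (v := fun i => δ i 0) hcol) _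
  have hthree : ∀ γ : Gamma0 L, (γ : SL(2, ℤ)) 0 0 + (γ : SL(2, ℤ)) 1 1 = -1 →
      φ (Additive.ofMul γ) = 0 := fun γ hγ => by
    have hd := Gamma0.det_eq (γ : SL(2, ℤ))
    have h3 : γ * γ * γ = 1 := by
      apply Subtype.ext
      rw [Subgroup.coe_mul, Subgroup.coe_mul, OneMemClass.coe_one]
      set a := (γ : SL(2, ℤ)) 0 0
      set b := (γ : SL(2, ℤ)) 0 1
      set c := (γ : SL(2, ℤ)) 1 0
      set d := (γ : SL(2, ℤ)) 1 1
      apply sl_ext <;> simp [Matrix.mul_apply, Fin.sum_univ_two]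
      · linear_combination (a * (a + d - 1) - 1) * hγ - (a + (a + d)) * hd
      · linear_combination (b * (a + d - 1)) * hγ - b * hd
      · linear_combination (c * (a + d - 1)) * hγ - c * hd
      · linear_combination (d * (a + d - 1) - 1) * hγ - (d + (a + d)) * hd
    have := congrArg (fun x => φ (Additive.ofMul x)) h3
    simpa [ofMul_mul, map_add, CharTwo.add_self_eq_zero] using this
  have hsign : ∀ γ : Gamma0 L, φ (Additive.ofMul (z * γ)) = φ (Additive.ofMul γ) := fun γ => by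
    rw [ofMul_mul, map_add, hneg z rfl, zero_add]
  intro γ hγ
  have hzt : (z * γ : Gamma0 L).1 0 0 + (z * γ : Gamma0 L).1 1 1 =
      -((γ : SL(2, ℤ)) 0 0 + (γ : SL(2, ℤ)) 1 1) := by
    simp [z]; ring
  set t := (γ : SL(2, ℤ)) 0 0 + (γ : SL(2, ℤ)) 1 1 with htdef
  rw [Matrix.trace_fin_two, ← htdef] at hγ
  have h1 : t ≤ 2 := by nlinarith
  have h2 : -2 ≤ t := by nlinarith
  interval_cases t
  · rw [← hsign]; exact htwo _ (by rw [hzt]; rfl)
  · exact hthree γ htdef.symm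
  · rw [← happ]
    exact apply_trace_zero_eq_zero CharTwo.add_self_eq_zero hp hp2 hpL φ hneg γ
      (by rw [Matrix.trace_fin_two, ← htdef])
  · rw [← hsign]; exact hthree _ (by rw [hzt])
  · exact htwo γ htdef.symm

end Kill

end Fermat.Agent.TwoAdic.Theta.Descent
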