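import Fermat.Agent.TwoAdic.Theta.DescentOps
import Fermat.Agent.LevelRaising.Commute

/-!
# Descending an eigenclass from `Γ₀(2M)` to `Γ₀(M)`, `M` even, in characteristic two
-/

set_option autoImplicit false

noncomputable section

namespace Fermat.Agent.TwoAdic.Theta.Descent

open CongruenceSubgroup Fermat.Agent.Periods Fermat.Agent.LevelRaising Function
open Matrix.SpecialLinearGroup
open P2MW.S_ModularForm_heckeT_slash_eq_self_of_mem_Gamma0.ModularForm.HeckeSlashInvariance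
open scoped MatrixGroups BigOperators Matrix

variable {M : ℕ} [NeZero M]

theorem mem_Gamma0_mul_two_iff {g : SL(2, ℤ)} {k : ℤ} (hk : g 1 0 = (M : ℤ) * k) :
    g ∈ Gamma0 (M * 2) ↔ Even k := by
  have hM0 : (M : ℤ) ≠ 0 := by exact_mod_cast NeZero.ne M
  rw [Gamma0_mem, ZMod.intCast_zmod_eq_zero_iff_dvd, hk, even_iff_two_dvd]
  push_cast
  exact mul_dvd_mul_iff_left hM0

omit [NeZero M] in
theorem odd_diag (hM : Even M) {g : SL(2, ℤ)} (hg : g ∈ Gamma0 M) :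
    Odd (g 0 0) ∧ Odd (g 1 1) := by
  have hc : Even (g 1 0) := even_iff_two_dvd.mpr
    ((Int.natCast_dvd_natCast.mpr (even_iff_two_dvd.mp hM)).trans (gamma0_dvd ⟨g, hg⟩))
  have hd := Gamma0.det_eq g
  have : Odd (g 0 0 * g 1 1) := by
    rw [show g 0 0 * g 1 1 = g 0 1 * g 1 0 + 1 by linarith]
    exact (hc.mul_left _).add_one
  exact ⟨Int.Odd.of_mul_left this, Int.Odd.of_mul_right this⟩

/-- `Γ₀(2M)` is a subgroup of index two. -/
theorem mul_mem_iff (hM : Even M) {g h : SL(2, ℤ)} (hg : g ∈ Gamma0 M) (hh : h ∈ Gamma0 M) :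
    g * h ∈ Gamma0 (M * 2) ↔ (g ∈ Gamma0 (M * 2) ↔ h ∈ Gamma0 (M * 2)) := by
  obtain ⟨k, hk⟩ := gamma0_dvd ⟨g, hg⟩
  obtain ⟨l, hl⟩ := gamma0_dvd ⟨h, hh⟩
  have hgh : (g * h) 1 0 = (M : ℤ) * (k * h 0 0 + g 1 1 * l) := by
    rw [mul_apply10, hk, hl]; ring
  rw [mem_Gamma0_mul_two_iff hgh, mem_Gamma0_mul_two_iff hk, mem_Gamma0_mul_two_iff hl,
    Int.even_add, Int.even_mul, Int.even_mul]
  simp [Int.not_even_iff_odd.mpr (odd_diag hM hh).1, Int.not_even_iff_odd.mpr (odd_diag hM hg).2]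

omit [NeZero M] in
theorem le_Gamma0 {g : SL(2, ℤ)} (hg : g ∈ Gamma0 (M * 2)) : g ∈ Gamma0 M :=
  Gamma0.Gamma0_le_of_dvd (dvd_mul_right M 2) hg

theorem conj_mem (hM : Even M) {g : SL(2, ℤ)} (hg : g ∈ Gamma0 M) (h : Gamma0 (M * 2)) :
    g * (h : SL(2, ℤ)) * g⁻¹ ∈ Gamma0 (M * 2) := by
  rw [mul_mem_iff hM (mul_mem hg (le_Gamma0 h.2)) (inv_mem hg), mul_mem_iff hM hg (le_Gamma0 h.2),
    inv_mem_iff]
  have := h.2
  tauto

/-- Conjugation by an element of `Γ₀(M)` on `Γ₀(2M)`. -/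
def conjHom (hM : Even M) {g : SL(2, ℤ)} (hg : g ∈ Gamma0 M) :
    Gamma0 (M * 2) →* Gamma0 (M * 2) where
  toFun h := ⟨g * (h : SL(2, ℤ)) * g⁻¹, conj_mem hM hg h⟩
  map_one' := Subtype.ext (by simp)
  map_mul' a b := Subtype.ext (by simp [mul_assoc])

@[simp] theorem conjHom_coe (hM : Even M) {g : SL(2, ℤ)} (hg : g ∈ Gamma0 M)
    (h : Gamma0 (M * 2)) : (conjHom hM hg h : SL(2, ℤ)) = g * (h : SL(2, ℤ)) * g⁻¹ := rfl

variable {A : Type*} [AddCommGroup A]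

/-- The conjugate of a homomorphism. -/
def conjAddHom (hM : Even M) {g : SL(2, ℤ)} (hg : g ∈ Gamma0 M)
    (φ : Additive (Gamma0 (M * 2)) →+ A) : Additive (Gamma0 (M * 2)) →+ A :=
  φ.comp (MonoidHom.toAdditive (conjHom hM hg))

theorem conjAddHom_apply (hM : Even M) {g : SL(2, ℤ)} (hg : g ∈ Gamma0 M)
    (φ : Additive (Gamma0 (M * 2)) →+ A) (h : Gamma0 (M * 2)) :
    conjAddHom hM hg φ (Additive.ofMul h) = φ (Additive.ofMul (conjHom hM hg h)) := rfl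

theorem homT_conjAddHom (hM : Even M) {g : SL(2, ℤ)} (hg : g ∈ Gamma0 M)
    (R : Type*) [Semiring R] [Module R A] {p : ℕ} (hp : p.Prime) (hpL : ¬ p ∣ M * 2)
    (φ : Additive (Gamma0 (M * 2)) →+ A) :
    homT hp hpL R (conjAddHom hM hg φ) = conjAddHom hM hg (homT hp hpL R φ) := by
  have : NeZero p := ⟨hp.ne_zero⟩
  set S := systemT (N := M * 2) hp hpL with hS
  have hp2 : p ≠ 2 := fun e => hpL (e ▸ dvd_mul_left 2 M)
  obtain ⟨c, hc⟩ := gamma0_dvd (⟨g, hg⟩ : Gamma0 M)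
  change g 1 0 = _ at hc
  -- the conjugated representatives lie in the standard cosets
  have hex : ∀ i : Option (ZMod p), ∃ (u : Gamma0 (M * 2)) (j : Option (ZMod p)),
      mapGL ℝ g * heckeRep p i * (mapGL ℝ g)⁻¹ = mapGL ℝ (u : SL(2, ℤ)) * heckeRep p j := by
    intro i
    set B : Matrix (Fin 2) (Fin 2) ℤ := (g : Matrix (Fin 2) (Fin 2) ℤ) * tMat p i *
      ((g⁻¹ : SL(2, ℤ)) : Matrix (Fin 2) (Fin 2) ℤ) with hB
    have hdet : B.det = p := by
      rw [hB, Matrix.det_mul, Matrix.det_mul, g.det_coe, (g⁻¹).det_coe, one_mul, mul_one]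
      exact det_tMat p i
    have hdvd : ((M * 2 : ℕ) : ℤ) ∣ B 1 0 := by
      obtain ⟨r, hr⟩ : (2 : ℤ) ∣ tMat p i 0 0 - tMat p i 1 1 := by
        obtain ⟨r, hr⟩ := hp.odd_of_ne_two hp2
        cases i
        · exact ⟨r, by simp [tMat, hr]⟩
        · exact ⟨-r, by simp [tMat, hr]⟩
      obtain ⟨m, hm⟩ := hM
      have hlow : tMat p i 1 0 = 0 := by cases i <;> simp [tMat]
      refine ⟨c * g 1 1 * r - (m : ℤ) * c ^ 2 * tMat p i 0 1, ?_⟩
      have e : B 1 0 = g 1 0 * g 1 1 * (tMat p i 0 0 - tMat p i 1 1)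
          - g 1 0 ^ 2 * tMat p i 0 1 := by
        simp [hB, Matrix.mul_apply, Matrix.adjugate_fin_two, Fin.sum_univ_two, hlow]
        ring
      rw [e, hr, hc]
      push_cast
      have hm' : (M : ℤ) = m + m := by exact_mod_cast hm
      linear_combination (-(M : ℤ) * c ^ 2 * tMat p i 0 1) * hm'
    obtain ⟨u, j, hu⟩ := exists_tMat_coset hp hpL hdet hdvd
    refine ⟨u, j, ?_⟩
    rw [heckeRep_eq_intGL hp.ne_zero, heckeRep_eq_intGL hp.ne_zero, ← map_inv, mapGL_eq_intGL,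
      mapGL_eq_intGL, ← intGL_mul (by simp [g.det_coe]) (det_tMat_ne_zero p i),
      ← intGL_mul (by simp [Matrix.det_mul, det_tMat_ne_zero p i, g.det_coe]) (by rw [(g⁻¹).det_coe]; exact one_ne_zero)]
    exact hu
  choose u σ hu using hex
  have hσ : Bijective σ := (Finite.injective_iff_bijective).mp fun i j hij => by
    have hi := hu i
    rw [hij] at hi
    obtain ⟨d, hd⟩ : ∃ d : Gamma0 (M * 2),
        (d : SL(2, ℤ)) = g⁻¹ * ((u i * (u j)⁻¹ : Gamma0 (M * 2)) : SL(2, ℤ)) * g :=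
      ⟨conjHom hM (inv_mem hg) (u i * (u j)⁻¹), by rw [conjHom_coe, inv_inv]⟩
    refine S.unique i j d ?_
    show heckeRep p i = mapGL ℝ (d : SL(2, ℤ)) * heckeRep p j
    have e : mapGL ℝ g * heckeRep p i * (mapGL ℝ g)⁻¹ =
        mapGL ℝ ((u i * (u j)⁻¹ : Gamma0 (M * 2)) : SL(2, ℤ)) *
          (mapGL ℝ g * heckeRep p j * (mapGL ℝ g)⁻¹) := by
      rw [Subgroup.coe_mul, map_mul, InvMemClass.coe_inv, map_inv, hi, hu j]
      group
    rw [hd, map_mul, map_mul, map_inv]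
    have e' := congrArg (fun x => (mapGL ℝ g)⁻¹ * x * mapGL ℝ g) e
    simp only [mul_assoc, inv_mul_cancel, mul_one, inv_mul_cancel_left] at e' ⊢
    exact e'
  refine AddMonoidHom.ext fun y => ?_
  rw [← ofMul_toMul y]
  set γ := Additive.toMul y
  rw [conjAddHom_apply, homT, HeckeSystem.op_apply, HeckeSystem.op_apply, HeckeSystem.apply_apply,
    HeckeSystem.apply_apply, ← hS]
  simp only [conjAddHom_apply]
  refine (sum_transfer S (fun i => mapGL ℝ g * heckeRep p i * (mapGL ℝ g)⁻¹) (S.perm γ)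
    (S.perm_bijective γ) (fun i => conjHom hM hg (S.cocycle γ i)) (conjHom hM hg γ) (fun i => ?_) σ u 1
    (by simp) (fun i => by rw [one_mul]; exact hu i) φ).trans ?_
  · have e : heckeRep p i * mapGL ℝ (γ : SL(2, ℤ)) =
        mapGL ℝ (S.cocycle γ i : SL(2, ℤ)) * heckeRep p (S.perm γ i) := S.spec γ i
    simp only [conjHom_coe, map_mul, map_inv, mul_assoc, inv_mul_cancel_left]
    rw [← mul_assoc (heckeRep p i), e, mul_assoc]
  · exact hσ.sum_comp fun j => φ (Additive.ofMul (S.cocycle (conjHom hM hg γ) j))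

/-- A homomorphism invariant under the quotient, and killing the square of the generator,
extends. -/
theorem exists_extension (hM : Even M) (φ : Additive (Gamma0 (M * 2)) →+ A) {g : SL(2, ℤ)}
    (hg : g ∈ Gamma0 M) (hgo : g ∉ Gamma0 (M * 2))
    (hinv : ∀ h : Gamma0 (M * 2), φ (Additive.ofMul (conjHom hM hg h)) = φ (Additive.ofMul h))
    (hsq : ∀ h : Gamma0 (M * 2), (h : SL(2, ℤ)) = g * g → φ (Additive.ofMul h) = 0) :
    ∃ Φ : Additive (Gamma0 M) →+ A, Φ (Additive.ofMul ⟨g, hg⟩) = 0 ∧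
      ∀ (h : Gamma0 (M * 2)) (h' : Gamma0 M), (h' : SL(2, ℤ)) = (h : SL(2, ℤ)) →
        Φ (Additive.ofMul h') = φ (Additive.ofMul h) := by
  classical
  have hgi : g⁻¹ ∉ Gamma0 (M * 2) := by simpa using hgo
  have hout : ∀ x : Gamma0 M, (x : SL(2, ℤ)) ∉ Gamma0 (M * 2) →
      (x : SL(2, ℤ)) * g⁻¹ ∈ Gamma0 (M * 2) := fun x hx =>
    (mul_mem_iff hM x.2 (inv_mem hg)).mpr (iff_of_false hx hgi)
  let ψ : Gamma0 M → A := fun x =>
    if hx : (x : SL(2, ℤ)) ∈ Gamma0 (M * 2) then φ (Additive.ofMul ⟨_, hx⟩)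
    else φ (Additive.ofMul ⟨_, hout x hx⟩)
  have hψin : ∀ (x : Gamma0 M) (h : Gamma0 (M * 2)), (x : SL(2, ℤ)) = (h : SL(2, ℤ)) →
      ψ x = φ (Additive.ofMul h) := fun x h e => by
    have hx : (x : SL(2, ℤ)) ∈ Gamma0 (M * 2) := e ▸ h.2
    simp only [ψ, dif_pos hx]
    exact congrArg (fun t => φ (Additive.ofMul t)) (Subtype.ext e)
  have hψout : ∀ (x : Gamma0 M) (h : Gamma0 (M * 2)), (x : SL(2, ℤ)) = (h : SL(2, ℤ)) * g →
      ψ x = φ (Additive.ofMul h) := fun x h e => by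
    have hx : (x : SL(2, ℤ)) ∉ Gamma0 (M * 2) := fun hx => by
      rw [e, mul_mem_iff hM (le_Gamma0 h.2) hg] at hx
      exact hgo (hx.mp h.2)
    simp only [ψ, dif_neg hx]
    exact congrArg (fun t => φ (Additive.ofMul t)) (Subtype.ext (by simp [e]))
  have hdecomp : ∀ x : Gamma0 M, ∃ h : Gamma0 (M * 2),
      (x : SL(2, ℤ)) = (h : SL(2, ℤ)) ∨ (x : SL(2, ℤ)) = (h : SL(2, ℤ)) * g := fun x => by
    by_cases hx : (x : SL(2, ℤ)) ∈ Gamma0 (M * 2)
    · exact ⟨⟨_, hx⟩, Or.inl rfl⟩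
    · exact ⟨⟨_, hout x hx⟩, Or.inr (by simp)⟩
  have hmul : ∀ x y : Gamma0 M, ψ (x * y) = ψ x + ψ y := by
    intro x y
    obtain ⟨a, ha⟩ := hdecomp x
    obtain ⟨b, hb⟩ := hdecomp y
    rcases ha with ha | ha <;> rcases hb with hb | hb
    · rw [hψin (x * y) (a * b) (by simp [ha, hb]), hψin x a ha, hψin y b hb, ofMul_mul, map_add]
    · rw [hψout (x * y) (a * b) (by simp [ha, hb, mul_assoc]), hψin x a ha, hψout y b hb,
        ofMul_mul, map_add]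
    · rw [hψout (x * y) (a * conjHom hM hg b) (by simp [ha, hb, mul_assoc]), hψout x a ha,
        hψin y b hb, ofMul_mul, map_add, hinv]
    · obtain ⟨s, hs⟩ : ∃ s : Gamma0 (M * 2), (s : SL(2, ℤ)) = g * g :=
        ⟨⟨g * g, (mul_mem_iff hM hg hg).mpr Iff.rfl⟩, rfl⟩
      rw [hψin (x * y) (a * conjHom hM hg b * s) (by simp [ha, hb, hs, mul_assoc]), hψout x a ha,
        hψout y b hb, ofMul_mul, ofMul_mul, map_add, map_add, hinv, hsq s hs, add_zero]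
  refine ⟨AddMonoidHom.mk' (fun x => ψ (Additive.toMul x)) fun x y => hmul _ _, ?_, fun h h' e => ?_⟩
  · show ψ ⟨g, hg⟩ = 0
    rw [hψout ⟨g, hg⟩ 1 (by simp)]
    exact map_zero φ
  · exact hψin h' h e

/-- The descent step. -/
theorem exists_descend {L : ℕ} [NeZero L] (hL : L = M * 2) (hM : Even M) {k : Type*} [CommRing k]
    [CharP k 2] (φ : Additive (Gamma0 L) →+ k) (hφ : φ ≠ 0) (θ : ℕ → k)
    (heig : ∀ r (hr : r.Prime) (hrL : ¬ r ∣ L), homT hr hrL k φ = θ r • φ)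
    {p₀ : ℕ} (hp₀ : p₀.Prime) (hp₀L : ¬ p₀ ∣ L) (hθ : θ p₀ = 1) :
    ∃ Φ : Additive (Gamma0 M) →+ k, Φ ≠ 0 ∧
      ∀ r (hr : r.Prime) (hrM : ¬ r ∣ M), homT hr hrM k Φ = θ r • Φ := by
  subst hL
  have h2 : ∀ a : k, a + a = 0 := CharTwo.add_self_eq_zero
  have hp₀2 : p₀ ≠ 2 := fun e => hp₀L (e ▸ dvd_mul_left 2 M)
  have hvcop : IsCoprime ((![1, 1] : Fin 2 → ℤ) 0) ((![1, 1] : Fin 2 → ℤ) 1) := by
    simpa using isCoprime_one_left
  have hv2 : StableCusp (M * 2) ![1, 1] := stableCusp_of_isCoprime hvcop (by simp)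
  have hv1 : StableCusp M ![1, 1] := stableCusp_of_isCoprime hvcop (by simp)
  set g : SL(2, ℤ) := parEl ![1, 1] M with hgdef
  have hg : g ∈ Gamma0 M := by rw [hgdef, parEl_mem_iff]; simp
  have hgo : g ∉ Gamma0 (M * 2) := by
    rw [mem_Gamma0_mul_two_iff (k := -1) (by simp [hgdef, parEl])]
    decide
  have hgg : g * g = parEl ![1, 1] (M + M) := (parEl_add _ _ _).symm
  have hggmem : g * g ∈ Gamma0 (M * 2) := (mul_mem_iff hM hg hg).mpr Iff.rfl
  -- a nonzero invariant class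
  obtain ⟨φ', hφ', heig', hinv⟩ : ∃ φ' : Additive (Gamma0 (M * 2)) →+ k, φ' ≠ 0 ∧
      (∀ (r : ℕ) (hr : r.Prime) (hrL : ¬ r ∣ M * 2), homT hr hrL k φ' = θ r • φ') ∧
      ∀ h, φ' (Additive.ofMul (conjHom hM hg h)) = φ' (Additive.ofMul h) := by
    by_cases h0 : φ + conjAddHom hM hg φ = 0
    · refine ⟨φ, hφ, heig, fun h => ?_⟩
      have := DFunLike.congr_fun h0 (Additive.ofMul h)
      rw [AddMonoidHom.add_apply, conjAddHom_apply, AddMonoidHom.zero_apply,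
        add_eq_zero_iff_eq_neg, CharTwo.neg_eq] at this
      exact this.symm
    · refine ⟨_, h0, fun r hr hrL => ?_, fun h => ?_⟩
      · rw [map_add, homT_conjAddHom hM hg k hr hrL, heig r hr hrL, smul_add]
        rfl
      · simp only [AddMonoidHom.add_apply, conjAddHom_apply]
        have e : conjHom hM hg (conjHom hM hg h) = ⟨g * g, hggmem⟩ * h * ⟨g * g, hggmem⟩⁻¹ :=
          Subtype.ext (by simp [mul_assoc])
        rw [e, ofMul_mul, ofMul_mul, ofMul_inv, map_add, map_add, map_neg]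
        abel
  obtain ⟨Φ, hΦg, hΦ⟩ := exists_extension hM φ' hg hgo hinv fun h hh => by
    have : NeZero p₀ := ⟨hp₀.ne_zero⟩
    obtain ⟨h, hmem⟩ := h
    change h = _ at hh
    subst hh
    have hmem' : parEl ![1, 1] ((M : ℤ) + M) ∈ Gamma0 (M * 2) := hgg ▸ hggmem
    rw [show (⟨g * g, hmem⟩ : Gamma0 (M * 2)) = ⟨_, hmem'⟩ from Subtype.ext hgg]
    exact eq_zero_of_eigen_parEl φ' hp₀ hp₀2 hp₀L (by rw [heig' p₀ hp₀ hp₀L, hθ, one_smul]) hvcop
      hv2 hmem'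
  have hres : (RaiseData.resSys 2 M).apply Φ = φ' := by
    refine AddMonoidHom.ext fun y => ?_
    rw [← ofMul_toMul y]
    obtain ⟨c, hc⟩ := exists_res_lift (Additive.toMul y)
    rw [res_apply _ _ hc]
    exact hΦ _ c hc
  refine ⟨Φ, fun h0 => hφ' ?_, fun r hr hrM => ?_⟩
  · rw [← hres, h0, ← RaiseData.resSys 2 M |>.op_apply k, map_zero]
  have : NeZero r := ⟨hr.ne_zero⟩
  have hr2 : r ≠ 2 := fun e => hrM (e ▸ even_iff_two_dvd.mp hM)
  have hrL : ¬ r ∣ M * 2 := fun hd => ((Nat.Prime.dvd_mul hr).mp hd).elim hrM fun h' =>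
    hr2 ((Nat.prime_dvd_prime_iff_eq hr Nat.prime_two).mp h')
  have hD : (RaiseData.resSys 2 M).apply (homT hr hrM k Φ) = θ r • φ' := by
    rw [← homT_res k hr hrM hrL, hres, heig' r hr hrL]
  refine AddMonoidHom.ext fun y => ?_
  rw [← ofMul_toMul y]
  have hin : ∀ (h : Gamma0 (M * 2)) (h' : Gamma0 M), (h' : SL(2, ℤ)) = (h : SL(2, ℤ)) →
      homT hr hrM k Φ (Additive.ofMul h') = (θ r • Φ) (Additive.ofMul h') := fun h h' e => by
    rw [← res_apply _ h e, hD, AddMonoidHom.smul_apply, AddMonoidHom.smul_apply, hΦ h h' e]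
  have hgz : homT hr hrM k Φ (Additive.ofMul ⟨g, hg⟩) = (θ r • Φ) (Additive.ofMul ⟨g, hg⟩) := by
    rw [AddMonoidHom.smul_apply, hΦg, smul_zero, homT, HeckeSystem.op_apply]
    exact apply_parEl_eq_zero h2 hr hr2 hrM Φ hvcop hv1 hg
  by_cases hy : ((Additive.toMul y : Gamma0 M) : SL(2, ℤ)) ∈ Gamma0 (M * 2)
  · exact hin ⟨_, hy⟩ _ rfl
  · set x := Additive.toMul y
    have hxg : ((x : SL(2, ℤ)) * g⁻¹) ∈ Gamma0 (M * 2) :=
      (mul_mem_iff hM x.2 (inv_mem hg)).mpr (iff_of_false hy (by simpa using hgo))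
    let x' : Gamma0 M := x * (⟨g, hg⟩ : Gamma0 M)⁻¹
    have hx' : x = x' * ⟨g, hg⟩ := (inv_mul_cancel_right x _).symm
    have hx'in := hin ⟨_, hxg⟩ x' rfl
    rw [hx', ofMul_mul, map_add, map_add, hgz, hx'in]

end Fermat.Agent.TwoAdic.Theta.Descent
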